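/-
Programme T1B (row 38 / S44), cell (I) NODE/PHI (helper45): THE ABSTRACT `Φ`-STEP, RESIDUE FORM
(Mathlib only).  It replaces the hypotheses `hTJ0 : T J0 ⊆ J0` and `hTc : T c ≡ (ℓ+1) c mod J0` of
`PhiAbs.le_of_toric_of_phi` (which need the Hecke correspondence on integral models / on points) by
a statement about the RESIDUE VECTOR of the `q`-dlog, which is pure valuation theory on the function
field of one component of the special fibre.

`A = J(K̄)`, `J0 ≤ A` (classes extending with multidegree `0`), `C ≤ A` the subgroup generated by the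
classes `[R₁], [R₂]` (or `[R₁ - R₂]`) of points with smooth reduction on the two components,
`V ≤ A[p]` with `T = a` on `V`.
`ρ : A → R` (only its values on `V` matter), in the application `R = 𝔽_p^E` (`E` = the nodes) and
`ρ P = (ord_e (f̄_P) mod p)_e`, where `p D_P = div f_P`, `f_P` scaled to a unit of the Gauss valuation
ring `O₁`, `f̄_P` its reduction in the function field `k₁` of the component `X₁`, `ord_e` the
valuation of `k₁` at the node `e` (the residues of the `q`-dlog `δ₁ P = dlog f̄_P`).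
* `hρT`  : `ρ (T P) = B (ρ P)`: `f_{TP} = N_α(β f_P)`, reduction commutes with the norm (the Gauss
  valuation is unramified in `F_{Nℓ}/F_N`), `ord_e (N g) = ∑_{x' ∣ e} ord_{x'} g`, the places over a
  node are nodes, and `α`, `β` are unramified at the nodes (REGULAR nodes at both levels);
  `B v e = ∑_{x' ∣ e} v (β x')`;
* `hB`   : `B 𝟙 = (ℓ + 1) 𝟙` (`∑_{x' ∣ e} e f = ℓ + 1`);
* `hconst` : for `P ≡ z ∈ C` modulo `J0`: `ρ P = s • 𝟙` (node slope lemma: the divisor of `f_P` on the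
  model is `p (…) + a₁ X₁ + a₂ X₂` with horizontal part Cartier, so all slopes are `(a₂ - a₁)/k`);
* `hker` : and if moreover `ρ P = 0` then `P ∈ J0` (`s ≡ 0` forces `#E ∣ m`, vertical twist).
Conclusion: `p ∤ a - (ℓ + 1)` ⟹ `P ∈ J0`.
-/
import Mathlib

set_option autoImplicit false

namespace Fermat.Agent.T1B.Node45.PhiRes

variable {A : Type*} [AddCommGroup A] {R : Type*} [AddCommGroup R]

/-- An element killed by `p` and by an integer prime to `p` is zero. -/
theorem eq_zero_of_smul_eq_zero {p : ℕ} (hp : p.Prime) {n : ℤ} (hn : ¬ (p : ℤ) ∣ n) {r : R}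
    (hpr : p • r = 0) (hnr : n • r = 0) : r = 0 := by
  have hpZ : Prime (p : ℤ) := Nat.prime_iff_prime_int.1 hp
  have hcop : IsCoprime n (p : ℤ) := by
    rw [isCoprime_comm]
    exact (Prime.coprime_iff_not_dvd hpZ).2 hn
  obtain ⟨u, v, huv⟩ := hcop
  have hpr' : (p : ℤ) • r = 0 := by rw [natCast_zsmul]; exact hpr
  calc r = (1 : ℤ) • r := (one_smul _ _).symm
    _ = (u * n + v * (p : ℤ)) • r := by rw [huv]
    _ = 0 := by rw [add_smul, mul_smul, mul_smul, hnr, hpr', smul_zero, smul_zero, add_zero]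

/-- **The `Φ`-step, residue form (core).**  If `P ∈ V` is congruent modulo `J0` to an element of
`C`, then `P ∈ J0`. -/
theorem mem_of_residue (J0 V C : AddSubgroup A) {p : ℕ} (hp : p.Prime)
    (T : A →+ A) {a l1 : ℤ} (hTV : ∀ x ∈ V, T x = a • x)
    (ρ : A → R) (hρa : ∀ P ∈ V, ρ (a • P) = a • ρ P) (hpR : ∀ P ∈ V, p • ρ P = 0)
    (B : R →+ R) (one : R) (hB : B one = l1 • one)
    (hρT : ∀ P ∈ V, ρ (T P) = B (ρ P))
    (hne : ¬ (p : ℤ) ∣ a - l1)
    (hconst : ∀ P ∈ V, (∃ z ∈ C, P - z ∈ J0) → ∃ s : ℤ, ρ P = s • one)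
    (hker : ∀ P ∈ V, (∃ z ∈ C, P - z ∈ J0) → ρ P = 0 → P ∈ J0)
    {P : A} (hP : P ∈ V) (hPC : ∃ z ∈ C, P - z ∈ J0) : P ∈ J0 := by
  obtain ⟨s, hs⟩ := hconst P hP hPC
  refine hker P hP hPC ?_
  -- `(a - l1) • ρ P = 0`
  have h1 : a • ρ P = l1 • ρ P := by
    calc a • ρ P = ρ (a • P) := (hρa P hP).symm
      _ = ρ (T P) := by rw [hTV P hP]
      _ = B (ρ P) := hρT P hP
      _ = B (s • one) := by rw [hs]
      _ = s • (l1 • one) := by rw [map_zsmul, hB]
      _ = l1 • ρ P := by rw [hs, smul_comm]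
  have h2 : (a - l1) • ρ P = 0 := by rw [sub_smul, h1, sub_self]
  exact eq_zero_of_smul_eq_zero hp hne (hpR P hP) h2

variable {I : Type*} [Group I] [DistribMulAction I A]

/-- **The `Φ`-step, residue form.**  (tor) + (Φ) + residue hypotheses + non-Eisenstein ⟹ `V ≤ J0`.
(Φ) is used in the two-generator form: every `I`-invariant class is congruent modulo `J0` to an
element of the subgroup `C`. -/
theorem le_of_toric_of_phi_residue (J0 V C : AddSubgroup A) {p : ℕ} (hp : p.Prime)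
    (T : A →+ A) {a l1 : ℤ} (hTV : ∀ x ∈ V, T x = a • x)
    (ρ : A → R) (hρa : ∀ P ∈ V, ρ (a • P) = a • ρ P) (hpR : ∀ P ∈ V, p • ρ P = 0)
    (B : R →+ R) (one : R) (hB : B one = l1 • one)
    (hρT : ∀ P ∈ V, ρ (T P) = B (ρ P))
    (hne : ¬ (p : ℤ) ∣ a - l1)
    (hconst : ∀ P ∈ V, (∃ z ∈ C, P - z ∈ J0) → ∃ s : ℤ, ρ P = s • one)
    (hker : ∀ P ∈ V, (∃ z ∈ C, P - z ∈ J0) → ρ P = 0 → P ∈ J0)
    (htor : ∀ P ∈ V, ∃ t ∈ J0, ∀ s : I, s • (P - t) = P - t)
    (hphi : ∀ y : A, (∀ s : I, s • y = y) → ∃ z ∈ C, y - z ∈ J0) : V ≤ J0 := by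
  intro P hP
  obtain ⟨t, ht, hfix⟩ := htor P hP
  obtain ⟨z, hz, hyz⟩ := hphi (P - t) hfix
  refine mem_of_residue J0 V C hp T hTV ρ hρa hpR B one hB hρT hne hconst hker hP ⟨z, hz, ?_⟩
  have e : P - z = (P - t - z) + t := by abel
  rw [e]
  exact J0.add_mem hyz ht

/-- The two-generator form of `PhiAbs.le_of_toric_of_phi` (kept for the route through `hTJ0`):
`C` a subgroup on which `T ≡ l1` modulo `J0`. -/
theorem le_of_toric_of_phi_subgroup (J0 V C : AddSubgroup A) {p : ℕ} (hp : p.Prime) (T : A →+ A)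
    (hTJ0 : ∀ x ∈ J0, T x ∈ J0) {a l1 : ℤ} (hTV : ∀ x ∈ V, T x = a • x)
    (hTC : ∀ z ∈ C, T z - l1 • z ∈ J0) (hne : ¬ (p : ℤ) ∣ a - l1)
    (hVp : ∀ P ∈ V, p • P = 0)
    (htor : ∀ P ∈ V, ∃ t ∈ J0, ∀ s : I, s • (P - t) = P - t)
    (hphi : ∀ y : A, (∀ s : I, s • y = y) → ∃ z ∈ C, y - z ∈ J0) : V ≤ J0 := by
  intro P hP
  obtain ⟨t, ht, hfix⟩ := htor P hP
  obtain ⟨z, hz, hyz⟩ := hphi (P - t) hfix
  -- `P - z ∈ J0`
  have hPz : P - z ∈ J0 := by
    have e : P - z = (P - t - z) + t := by abel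
    rw [e]
    exact J0.add_mem hyz ht
  -- `(a - l1) • P ∈ J0`
  have h1 : T (P - z) ∈ J0 := hTJ0 _ hPz
  have h2 : (a - l1) • P ∈ J0 := by
    have e : (a - l1) • P = T (P - z) + (T z - l1 • z) - l1 • (P - z) := by
      rw [map_sub, hTV P hP, sub_smul, smul_sub]
      abel
    rw [e]
    exact J0.sub_mem (J0.add_mem h1 (hTC z hz)) (J0.zsmul_mem hPz l1)
  -- Bézout
  have hpZ : Prime (p : ℤ) := Nat.prime_iff_prime_int.1 hp
  have hcop : IsCoprime (a - l1) (p : ℤ) := by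
    rw [isCoprime_comm]
    exact (Prime.coprime_iff_not_dvd hpZ).2 hne
  obtain ⟨u, v, huv⟩ := hcop
  have hpP : ((p : ℤ)) • P = 0 := by rw [natCast_zsmul]; exact hVp P hP
  have h3 : P = u • ((a - l1) • P) := by
    calc P = (1 : ℤ) • P := (one_smul _ _).symm
      _ = (u * (a - l1) + v * (p : ℤ)) • P := by rw [huv]
      _ = u • ((a - l1) • P) := by
        rw [add_smul, mul_smul u, mul_smul v, hpP, smul_zero, add_zero]
  rw [h3]
  exact J0.zsmul_mem h2 u

end Fermat.Agent.T1B.Node45.PhiRes
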