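/-
Programme T1b (row 38 / S44), brick F3' (helper45): NODE-LOCAL ALGEBRA, part 2:
ORBIT GENERATORS (Mathlib + helper37's `NodeData`).

`A` = the local ring of the normal nodal model over `𝒪_L` at a node of thickness `K` (in units of `v(π)`),
`D : NodeData A v₁ v₂ P₁ P₂ π x y K` (`x y = π ^ K ε`, `𝔪 = (π, x, y)`, `v₁ x = 0 = v₂ y`).
An `L`-point through the node has `x`-coordinate `ξ = π ^ j u` (`u` a unit, `0 < j < K`); its section
prime is `(x - ξ, y - η)` (`Section.ker_eq_span_of_node`) and is generated by `x - ξ` after inverting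
`π` (`Section.mul_sub_eq`).  Here:

* `x_dvd_of_le`, `x_pow_dvd_of_le`   : `a K ≤ v₂ f ⇒ x ^ a ∣ f`  (so `(x ^ a) = {v₂ ≥ a K}`);
* `v₁_x_sub`, `v₂_x_sub`             : `v₁ (x - π ^ j u) = 0`, `v₂ (x - π ^ j u) = j`
                                        (`div (x - ξ) = Q̄ + j · X₂` near the node);
* `span_saturated`                   : an element `h` with `v₁ h = 0 = v₂ h` generates a `π`-saturated
                                        ideal (`π ^ k f ∈ (h) ⇒ f ∈ (h)`);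
* `exists_generator`                 : **orbit generators.**  For a finite family of sections through the
  node with multiplicities, `G = ∏ (x - π ^ (j i) u i) ^ (n i)`, if `∑ n i · j i = a K` then
  `G = x ^ a h` with `v₁ h = 0 = v₂ h`; hence (`mem_span_iff`) `(h)` is the `π`-saturation of `(G)`:
  the closure in the model of the generic-fibre divisor `∑ n i Q i` is CARTIER at the node with local
  equation `h = G / x ^ a`.  (For an inertia-invariant divisor, `v(∏ ξ)` lies in the value group of the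
  unramified base, and `K = k_e e_L` with `k_e ∣ N`, so `N ·` (the divisor) satisfies the hypothesis.)
* `generator_sub_mem_P₁`, `generator_sub_mem_P₂` : `h ≡ x ^ (d - a)` modulo `P₁` and
  `ε ^ a h ≡ (∏ (-u i) ^ (n i)) y ^ a` modulo `P₂` (`d = ∑ n i`): the local equation has order `d - a`
  at the node on the first branch and `a` on the second (bidegree bookkeeping).
-/
import Mathlib
import Fermat.Agent.T1.Peu37.NodeClassGroup
import Fermat.Agent.T1B.Node45.Section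

set_option autoImplicit false
set_option linter.unusedSectionVars false

namespace Fermat.Agent.T1B.Node45.Orbit

open Ideal IsLocalRing Fermat.Agent.T1.Peu37.NodeClassGroup

variable {A : Type*} [CommRing A] [IsDomain A] [IsLocalRing A]
variable {v₁ v₂ : A → ℕ} {P₁ P₂ : Ideal A} {π x y : A} {K : ℕ}

section Basic

variable (D : NodeData A v₁ v₂ P₁ P₂ π x y K)
include D

theorem v₂_x : v₂ x = K := D.symm.v₁_y

theorem pi_mem_P₁ : π ∈ P₁ := (D.mem_P₁ π D.pi_ne).2 (by rw [D.v₁_pi])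

theorem pi_mem_P₂ : π ∈ P₂ := (D.mem_P₂ π D.pi_ne).2 (by rw [D.v₂_pi])

theorem x_not_mem_P₁ : x ∉ P₁ := fun hx => by
  have := (D.mem_P₁ x D.x_ne).1 hx
  rw [D.v₁_x] at this
  omega

theorem y_not_mem_P₂ : y ∉ P₂ := fun hy => by
  have := (D.mem_P₂ y D.y_ne).1 hy
  rw [D.v₂_y] at this
  omega

theorem x_mem_P₂ : x ∈ P₂ := (D.mem_P₂ x D.x_ne).2 (by rw [v₂_x D]; exact D.K_pos)

theorem y_mem_P₁ : y ∈ P₁ := (D.mem_P₁ y D.y_ne).2 (by rw [D.v₁_y]; exact D.K_pos)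

theorem v₁_eq_zero_of_not_mem {f : A} (hf : f ∉ P₁) : v₁ f = 0 := by
  have hf0 : f ≠ 0 := fun h => hf (h ▸ P₁.zero_mem)
  by_contra hne
  exact hf ((D.mem_P₁ f hf0).2 (by omega))

theorem v₂_eq_zero_of_not_mem {f : A} (hf : f ∉ P₂) : v₂ f = 0 := by
  have hf0 : f ≠ 0 := fun h => hf (h ▸ P₂.zero_mem)
  by_contra hne
  exact hf ((D.mem_P₂ f hf0).2 (by omega))

theorem not_mem_P₁_of_v₁ {f : A} (hf0 : f ≠ 0) (hf : v₁ f = 0) : f ∉ P₁ := fun h => by
  have := (D.mem_P₁ f hf0).1 h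
  omega

theorem not_mem_P₂_of_v₂ {f : A} (hf0 : f ≠ 0) (hf : v₂ f = 0) : f ∉ P₂ := fun h => by
  have := (D.mem_P₂ f hf0).1 h
  omega

/-- `K ≤ v₂ f ⇒ x ∣ f`. -/
theorem x_dvd_of_le {f : A} (hf : f ≠ 0) (h : K ≤ v₂ f) : x ∣ f := by
  obtain ⟨ε, hε, hrel⟩ := D.rel
  have hy0 := D.y_ne
  have e1 := D.v₁_mul y f hy0 hf
  have e2 := D.v₂_mul y f hy0 hf
  rw [D.v₁_y] at e1
  rw [D.v₂_y] at e2
  obtain ⟨w, hw⟩ := D.pow_dvd_of_le K (y * f) (mul_ne_zero hy0 hf) (by omega) (by omega)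
  obtain ⟨ε', hεε'⟩ := hε.exists_right_inv
  refine ⟨ε' * w, ?_⟩
  have hpiK : π ^ K = x * y * ε' := by rw [hrel, mul_assoc, hεε', mul_one]
  have : y * f = y * (x * (ε' * w)) := by
    rw [hw, hpiK]; ring
  exact mul_left_cancel₀ hy0 this

/-- `a K ≤ v₂ f ⇒ x ^ a ∣ f`. -/
theorem x_pow_dvd_of_le (a : ℕ) : ∀ f : A, f ≠ 0 → a * K ≤ v₂ f → x ^ a ∣ f := by
  induction a with
  | zero => intro f _ _; rw [pow_zero]; exact one_dvd f
  | succ a ih =>
    intro f hf h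
    obtain ⟨g, rfl⟩ := x_dvd_of_le D hf (by nlinarith)
    have hg : g ≠ 0 := right_ne_zero_of_mul hf
    have e2 := D.v₂_mul x g D.x_ne hg
    rw [v₂_x D] at e2
    obtain ⟨w, rfl⟩ := ih g hg (by nlinarith)
    exact ⟨w, by ring⟩

/-- `v₁ (x - ξ) = 0` for `ξ ∈ (π)`. -/
theorem v₁_x_sub {ξ : A} (hξ : π ∣ ξ) : v₁ (x - ξ) = 0 := by
  apply v₁_eq_zero_of_not_mem D
  intro h
  have hξP : ξ ∈ P₁ := by
    obtain ⟨c, rfl⟩ := hξ
    exact P₁.mul_mem_right _ (pi_mem_P₁ D)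
  have := P₁.add_mem h hξP
  rw [sub_add_cancel] at this
  exact x_not_mem_P₁ D this

/-- `x - π ^ j u ≠ 0` and `v₂ (x - π ^ j u) = j` for a unit `u` and `0 < j < K`. -/
theorem x_sub_ne_and_v₂ {u : A} (hu : IsUnit u) {j : ℕ} (hjK : j < K) :
    x - π ^ j * u ≠ 0 ∧ v₂ (x - π ^ j * u) = j := by
  obtain ⟨ε, hε, hrel⟩ := D.rel
  have hy0 := D.y_ne
  have := D.prime₂
  -- `r := π ^ (K - j) ε - u y ∉ P₂`
  have hr : π ^ (K - j) * ε - u * y ∉ P₂ := by
    intro h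
    have h1 : π ^ (K - j) * ε ∈ P₂ := by
      apply P₂.mul_mem_right
      have : K - j = (K - j - 1) + 1 := by omega
      rw [this, pow_succ]
      exact P₂.mul_mem_left _ (pi_mem_P₂ D)
    have h2 : u * y ∈ P₂ := by
      have := P₂.sub_mem h1 h
      rwa [sub_sub_cancel] at this
    rcases D.prime₂.mem_or_mem h2 with h3 | h3
    · exact D.prime₂.ne_top (P₂.eq_top_of_isUnit_mem h3 hu)
    · exact y_not_mem_P₂ D h3
  have hr0 : π ^ (K - j) * ε - u * y ≠ 0 := fun h => hr (h ▸ P₂.zero_mem)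
  have hrv : v₂ (π ^ (K - j) * ε - u * y) = 0 := v₂_eq_zero_of_not_mem D hr
  have key : y * (x - π ^ j * u) = π ^ j * (π ^ (K - j) * ε - u * y) := by
    have e : π ^ j * (π ^ (K - j) * ε) = π ^ K * ε := by
      rw [← mul_assoc, ← pow_add, Nat.add_sub_cancel' hjK.le]
    calc y * (x - π ^ j * u) = x * y - π ^ j * (u * y) := by ring
      _ = π ^ K * ε - π ^ j * (u * y) := by rw [hrel]
      _ = π ^ j * (π ^ (K - j) * ε - u * y) := by rw [mul_sub, e]
  have hpj : π ^ j ≠ 0 := pow_ne_zero j D.pi_ne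
  have hne : x - π ^ j * u ≠ 0 := by
    intro h
    rw [h, mul_zero] at key
    exact mul_ne_zero hpj hr0 key.symm
  refine ⟨hne, ?_⟩
  have e1 := D.v₂_mul y _ hy0 hne
  have e2 := D.v₂_mul (π ^ j) _ hpj hr0
  rw [key] at e1
  rw [e1, D.symm.v₁_pow D.pi_ne, D.v₂_pi, hrv, D.v₂_y] at e2
  omega

theorem v₂_x_sub {u : A} (hu : IsUnit u) {j : ℕ} (hjK : j < K) : v₂ (x - π ^ j * u) = j :=
  (x_sub_ne_and_v₂ D hu hjK).2

theorem x_sub_ne {u : A} (hu : IsUnit u) {j : ℕ} (hjK : j < K) : x - π ^ j * u ≠ 0 :=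
  (x_sub_ne_and_v₂ D hu hjK).1

/-- An element with `v₁ h = 0 = v₂ h` generates a `π`-saturated ideal (one step). -/
theorem span_saturated_one {h : A} (hh0 : h ≠ 0) (h1 : v₁ h = 0) (h2 : v₂ h = 0) {f : A}
    (hf : π * f ∈ span {h}) : f ∈ span {h} := by
  obtain ⟨c, hc⟩ := mem_span_singleton'.1 hf
  by_cases hf0 : f = 0
  · rw [hf0]; exact (span {h}).zero_mem
  have hc0 : c ≠ 0 := by
    rintro rfl
    rw [zero_mul] at hc
    exact mul_ne_zero D.pi_ne hf0 hc.symm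
  have e1 := D.v₁_mul c h hc0 hh0
  have e2 := D.v₂_mul c h hc0 hh0
  have e3 := D.v₁_mul π f D.pi_ne hf0
  have e4 := D.v₂_mul π f D.pi_ne hf0
  rw [hc, e3, D.v₁_pi, h1] at e1
  rw [hc, e4, D.v₂_pi, h2] at e2
  obtain ⟨c', rfl⟩ := D.sat c hc0 (by omega) (by omega)
  have : π * f = π * (c' * h) := by rw [← hc]; ring
  rw [mul_left_cancel₀ D.pi_ne this]
  exact mem_span_singleton'.2 ⟨c', rfl⟩

/-- An element with `v₁ h = 0 = v₂ h` generates a `π`-saturated ideal. -/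
theorem span_saturated {h : A} (hh0 : h ≠ 0) (h1 : v₁ h = 0) (h2 : v₂ h = 0) (k : ℕ) :
    ∀ f : A, π ^ k * f ∈ span {h} → f ∈ span {h} := by
  induction k with
  | zero => intro f hf; rwa [pow_zero, one_mul] at hf
  | succ k ih =>
    intro f hf
    apply ih
    apply span_saturated_one D hh0 h1 h2
    have e : π * (π ^ k * f) = π ^ (k + 1) * f := by ring
    rw [e]
    exact hf

end Basic

section Family

variable (D : NodeData A v₁ v₂ P₁ P₂ π x y K)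
include D

variable {ι : Type*} (s : Finset ι)

theorem v₁_prod (F : ι → A) (hF : ∀ i ∈ s, F i ≠ 0) :
    v₁ (∏ i ∈ s, F i) = ∑ i ∈ s, v₁ (F i) := by
  classical
  induction s using Finset.induction_on with
  | empty => simp [D.v₁_one]
  | insert i s hi ih =>
    rw [Finset.prod_insert hi, Finset.sum_insert hi,
      D.v₁_mul _ _ (hF i (Finset.mem_insert_self i s))
        (Finset.prod_ne_zero_iff.2 fun k hk => hF k (Finset.mem_insert_of_mem hk)),
      ih fun k hk => hF k (Finset.mem_insert_of_mem hk)]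

theorem v₂_prod (F : ι → A) (hF : ∀ i ∈ s, F i ≠ 0) :
    v₂ (∏ i ∈ s, F i) = ∑ i ∈ s, v₂ (F i) :=
  v₁_prod D.symm s F hF

variable (u : ι → A) (j n : ι → ℕ)

theorem factor_ne (hu : ∀ i ∈ s, IsUnit (u i)) (hjK : ∀ i ∈ s, j i < K) :
    ∀ i ∈ s, (x - π ^ j i * u i) ^ n i ≠ 0 := fun i hi =>
  pow_ne_zero _ (x_sub_ne D (hu i hi) (hjK i hi))

theorem orbit_ne (hu : ∀ i ∈ s, IsUnit (u i)) (hjK : ∀ i ∈ s, j i < K) :
    ∏ i ∈ s, (x - π ^ j i * u i) ^ n i ≠ 0 :=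
  Finset.prod_ne_zero_iff.2 (factor_ne D s u j n hu hjK)

theorem v₁_orbit (hu : ∀ i ∈ s, IsUnit (u i)) (hj0 : ∀ i ∈ s, 0 < j i) (hjK : ∀ i ∈ s, j i < K) :
    v₁ (∏ i ∈ s, (x - π ^ j i * u i) ^ n i) = 0 := by
  rw [v₁_prod D s _ (factor_ne D s u j n hu hjK)]
  apply Finset.sum_eq_zero
  intro i hi
  rw [D.v₁_pow (x_sub_ne D (hu i hi) (hjK i hi)),
    v₁_x_sub D (Dvd.dvd.mul_right (dvd_pow_self π (hj0 i hi).ne') (u i)), mul_zero]

theorem v₂_orbit (hu : ∀ i ∈ s, IsUnit (u i)) (hjK : ∀ i ∈ s, j i < K) :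
    v₂ (∏ i ∈ s, (x - π ^ j i * u i) ^ n i) = ∑ i ∈ s, n i * j i := by
  rw [v₂_prod D s _ (factor_ne D s u j n hu hjK)]
  apply Finset.sum_congr rfl
  intro i hi
  rw [D.symm.v₁_pow (x_sub_ne D (hu i hi) (hjK i hi)), v₂_x_sub D (hu i hi) (hjK i hi)]

/-- **Orbit generators.**  If `∑ n i · j i = a K` then `∏ (x - π ^ (j i) u i) ^ (n i) = x ^ a h` with
`v₁ h = 0 = v₂ h`. -/
theorem exists_generator (hu : ∀ i ∈ s, IsUnit (u i)) (hj0 : ∀ i ∈ s, 0 < j i)
    (hjK : ∀ i ∈ s, j i < K) {a : ℕ} (ha : ∑ i ∈ s, n i * j i = a * K) :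
    ∃ h : A, ∏ i ∈ s, (x - π ^ j i * u i) ^ n i = x ^ a * h ∧ h ≠ 0 ∧ v₁ h = 0 ∧ v₂ h = 0 := by
  have hG0 := orbit_ne D s u j n hu hjK
  have hv1 := v₁_orbit D s u j n hu hj0 hjK
  have hv2 := v₂_orbit D s u j n hu hjK
  obtain ⟨h, hh⟩ := x_pow_dvd_of_le D a _ hG0 (by rw [hv2, ha])
  have hh0 : h ≠ 0 := by
    rintro rfl
    rw [mul_zero] at hh
    exact hG0 hh
  have hxa : x ^ a ≠ 0 := pow_ne_zero a D.x_ne
  have e1 := D.v₁_mul _ _ hxa hh0
  have e2 := D.v₂_mul _ _ hxa hh0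
  rw [← hh, hv1, D.v₁_pow D.x_ne, D.v₁_x] at e1
  rw [← hh, hv2, D.symm.v₁_pow D.x_ne, v₂_x D, ha] at e2
  exact ⟨h, hh, hh0, by omega, by omega⟩

omit D in
/-- `a ≤ d = ∑ n i` when `∑ n i · j i = a K` and all `j i < K`. -/
theorem le_card_of_sum_eq (hK : 0 < K) (hjK : ∀ i ∈ s, j i < K) {a : ℕ}
    (ha : ∑ i ∈ s, n i * j i = a * K) : a ≤ ∑ i ∈ s, n i := by
  have h1 : ∑ i ∈ s, n i * j i ≤ ∑ i ∈ s, n i * K :=
    Finset.sum_le_sum fun i hi => Nat.mul_le_mul_left _ (hjK i hi).le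
  rw [ha, ← Finset.sum_mul] at h1
  exact Nat.le_of_mul_le_mul_right h1 hK

/-- **`(h)` is the `π`-saturation of `(G)`**: the closure of the generic-fibre divisor is Cartier at the
node with local equation `h`. -/
theorem mem_span_iff {G h : A} {a : ℕ} (hG : G = x ^ a * h) (hh0 : h ≠ 0) (h1 : v₁ h = 0)
    (h2 : v₂ h = 0) (f : A) : f ∈ span {h} ↔ ∃ k : ℕ, π ^ k * f ∈ span {G} := by
  obtain ⟨ε, hε, hrel⟩ := D.rel
  obtain ⟨ε', hεε'⟩ := hε.exists_right_inv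
  have hpiK : π ^ K = x * y * ε' := by rw [hrel, mul_assoc, hεε', mul_one]
  constructor
  · intro hf
    obtain ⟨c, rfl⟩ := mem_span_singleton'.1 hf
    refine ⟨K * a, mem_span_singleton'.2 ⟨c * y ^ a * ε' ^ a, ?_⟩⟩
    rw [pow_mul, hpiK, hG]
    ring
  · rintro ⟨k, hk⟩
    apply span_saturated D hh0 h1 h2 k
    obtain ⟨c, hc⟩ := mem_span_singleton'.1 hk
    exact mem_span_singleton'.2 ⟨c * x ^ a, by rw [← hc, hG]; ring⟩

/-- The local equation modulo `P₁`: `h ≡ x ^ (d - a)`, `d = ∑ n i`. -/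
theorem generator_sub_mem_P₁ (hj0 : ∀ i ∈ s, 0 < j i) {a : ℕ} {h : A}
    (hG : ∏ i ∈ s, (x - π ^ j i * u i) ^ n i = x ^ a * h) (had : a ≤ ∑ i ∈ s, n i) :
    h - x ^ (∑ i ∈ s, n i - a) ∈ P₁ := by
  have hP := D.prime₁
  let q : A →+* A ⧸ P₁ := Ideal.Quotient.mk P₁
  have hqpi : q π = 0 := Ideal.Quotient.eq_zero_iff_mem.2 (pi_mem_P₁ D)
  have hqx : q x ≠ 0 := fun h0 => x_not_mem_P₁ D (Ideal.Quotient.eq_zero_iff_mem.1 h0)
  have e1 : q (∏ i ∈ s, (x - π ^ j i * u i) ^ n i) = q x ^ (∑ i ∈ s, n i) := by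
    rw [map_prod, ← Finset.prod_pow_eq_pow_sum]
    apply Finset.prod_congr rfl
    intro i hi
    rw [map_pow, map_sub, map_mul, map_pow, hqpi, zero_pow (hj0 i hi).ne', zero_mul, sub_zero]
  rw [hG, map_mul, map_pow] at e1
  have e2 : q x ^ a * (q h - q x ^ (∑ i ∈ s, n i - a)) = 0 := by
    rw [mul_sub, e1, ← pow_add, Nat.add_sub_cancel' had, sub_self]
  have : IsDomain (A ⧸ P₁) := Ideal.Quotient.isDomain P₁
  rcases mul_eq_zero.1 e2 with h3 | h3
  · exact absurd (eq_zero_of_pow_eq_zero h3) hqx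
  · rw [← Ideal.Quotient.eq_zero_iff_mem]
    show q (h - x ^ (∑ i ∈ s, n i - a)) = 0
    rw [map_sub, map_pow]
    exact h3

/-- The local equation modulo `P₂`: `ε ^ a h ≡ (∏ (-u i) ^ (n i)) y ^ a`. -/
theorem generator_sub_mem_P₂ (hjK : ∀ i ∈ s, j i < K) {a : ℕ} {h ε : A} (hrel : x * y = π ^ K * ε)
    (hG : ∏ i ∈ s, (x - π ^ j i * u i) ^ n i = x ^ a * h)
    (ha : ∑ i ∈ s, n i * j i = a * K) :
    ε ^ a * h - (∏ i ∈ s, (-u i) ^ n i) * y ^ a ∈ P₂ := by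
  have hP := D.prime₂
  have had := le_card_of_sum_eq s j n D.K_pos hjK ha
  set d := ∑ i ∈ s, n i with hd
  -- `y ^ (d - a) * (ε ^ a * h) = R := ∏ (π ^ (K - j i) ε - u i y) ^ (n i)`
  have key : y ^ (d - a) * (ε ^ a * h) = ∏ i ∈ s, (π ^ (K - j i) * ε - u i * y) ^ n i := by
    have hpaK : π ^ (a * K) ≠ 0 := pow_ne_zero _ D.pi_ne
    apply mul_left_cancel₀ hpaK
    have e1 : ∀ i ∈ s, (y * (x - π ^ j i * u i)) ^ n i =
        (π ^ j i) ^ n i * (π ^ (K - j i) * ε - u i * y) ^ n i := by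
      intro i hi
      rw [← mul_pow]
      congr 1
      have e : π ^ j i * (π ^ (K - j i) * ε) = π ^ K * ε := by
        rw [← mul_assoc, ← pow_add, Nat.add_sub_cancel' (hjK i hi).le]
      calc y * (x - π ^ j i * u i) = x * y - π ^ j i * (u i * y) := by ring
        _ = π ^ K * ε - π ^ j i * (u i * y) := by rw [hrel]
        _ = π ^ j i * (π ^ (K - j i) * ε - u i * y) := by rw [mul_sub, e]
    have e2 : y ^ d * ∏ i ∈ s, (x - π ^ j i * u i) ^ n i =
        π ^ (a * K) * ∏ i ∈ s, (π ^ (K - j i) * ε - u i * y) ^ n i := by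
      rw [hd, ← Finset.prod_pow_eq_pow_sum, ← Finset.prod_mul_distrib]
      have : ∀ i ∈ s, y ^ n i * (x - π ^ j i * u i) ^ n i =
          (π ^ j i) ^ n i * (π ^ (K - j i) * ε - u i * y) ^ n i := by
        intro i hi
        rw [← mul_pow]
        exact e1 i hi
      rw [Finset.prod_congr rfl this, Finset.prod_mul_distrib]
      congr 1
      rw [← ha, ← Finset.prod_pow_eq_pow_sum]
      apply Finset.prod_congr rfl
      intro i _
      rw [← pow_mul, mul_comm]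
    rw [← e2, hG]
    have e3 : y ^ d = y ^ (d - a) * y ^ a := by rw [← pow_add, Nat.sub_add_cancel had]
    have e4 : π ^ (a * K) * ε ^ a = x ^ a * y ^ a := by
      rw [mul_comm a K, pow_mul, ← mul_pow, ← hrel, mul_pow]
    calc π ^ (a * K) * (y ^ (d - a) * (ε ^ a * h))
        = y ^ (d - a) * (π ^ (a * K) * ε ^ a) * h := by ring
      _ = y ^ (d - a) * (x ^ a * y ^ a) * h := by rw [e4]
      _ = y ^ d * (x ^ a * h) := by rw [e3]; ring
  let q : A →+* A ⧸ P₂ := Ideal.Quotient.mk P₂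
  have hqpi : q π = 0 := Ideal.Quotient.eq_zero_iff_mem.2 (pi_mem_P₂ D)
  have hqy : q y ≠ 0 := fun h0 => y_not_mem_P₂ D (Ideal.Quotient.eq_zero_iff_mem.1 h0)
  have e5 : q (∏ i ∈ s, (π ^ (K - j i) * ε - u i * y) ^ n i) =
      q (∏ i ∈ s, (-u i) ^ n i) * q y ^ d := by
    rw [map_prod, map_prod, hd, ← Finset.prod_pow_eq_pow_sum, ← Finset.prod_mul_distrib]
    apply Finset.prod_congr rfl
    intro i hi
    have : K - j i ≠ 0 := by have := hjK i hi; omega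
    rw [map_pow, map_sub, map_mul, map_pow, hqpi, zero_pow this, zero_mul, zero_sub, map_mul,
      map_pow, map_neg, ← mul_pow, neg_mul]
  have e6 : q y ^ (d - a) * (q (ε ^ a * h) - q (∏ i ∈ s, (-u i) ^ n i) * q y ^ a) = 0 := by
    rw [mul_sub, ← map_pow, ← map_mul, key, e5, map_pow]
    have e3 : q y ^ d = q y ^ (d - a) * q y ^ a := by rw [← pow_add, Nat.sub_add_cancel had]
    rw [e3]
    ring
  have : IsDomain (A ⧸ P₂) := Ideal.Quotient.isDomain P₂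
  rcases mul_eq_zero.1 e6 with h3 | h3
  · exact absurd (eq_zero_of_pow_eq_zero h3) hqy
  · rw [← Ideal.Quotient.eq_zero_iff_mem]
    show q (ε ^ a * h - (∏ i ∈ s, (-u i) ^ n i) * y ^ a) = 0
    rw [map_sub, map_mul _ (∏ i ∈ s, (-u i) ^ n i), map_pow _ y]
    exact h3

end Family

section SectionPrime

omit [IsDomain A] [IsLocalRing A] in
/-- **The section prime is the `π`-saturation of `(x - ξ)`.**  If `x y = ξ η`, `x` divides a power of
`π`, and `P = (x - ξ, y - η)` is a prime not containing `π`, then `f ∈ P ↔ ∃ k, π ^ k f ∈ (x - ξ)`. -/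
theorem mem_section_prime_iff {P : Ideal A} [hP : P.IsPrime] {π x y ξ η : A} {m : ℕ}
    (hxy : x * y = ξ * η) (hx : x ∣ π ^ m) (hPeq : P = span {x - ξ, y - η}) (hπ : π ∉ P) (f : A) :
    f ∈ P ↔ ∃ k : ℕ, π ^ k * f ∈ span {x - ξ} := by
  constructor
  · intro hf
    rw [hPeq] at hf
    obtain ⟨a, b, rfl⟩ := mem_span_pair.1 hf
    obtain ⟨w, hw⟩ := hx
    refine ⟨m, mem_span_singleton'.2 ⟨w * (a * x - b * η), ?_⟩⟩
    have h1 := Section.mul_sub_eq hxy
    rw [hw]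
    linear_combination (-w * b) * h1
  · rintro ⟨k, hk⟩
    have h1 : π ^ k * f ∈ P := by
      obtain ⟨c, hc⟩ := mem_span_singleton'.1 hk
      rw [← hc, hPeq]
      exact Ideal.mul_mem_left _ _ (subset_span (Set.mem_insert _ _))
    rcases hP.mem_or_mem h1 with h2 | h2
    · exact absurd (hP.mem_of_pow_mem k h2) hπ
    · exact h2

end SectionPrime

end Fermat.Agent.T1B.Node45.Orbit
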