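/-
Programme T1b (row 38 / S40, S33), brick F3' (helper45): NODE-LOCAL ALGEBRA, part 1 (Mathlib only).

`O` = the local ring of the normal nodal model over `𝒪_L` at a node `e`; `π` a uniformiser of `𝒪_L`;
node coordinates `x y ∈ 𝔪_O` with `𝔪_O = (π, x, y)` and `x y = ϖ` (`ϖ = π ^ κ`, unit absorbed in `x`).
An `L`-point `Q` of the curve reducing to `e` is a local homomorphism `φ : O → 𝒪_L`; put `ξ = x(Q)`,
`η = y(Q)` (`ξ η = ϖ`).  Design note: report 815 (stmt S40, kind design-input), items (N-a), (N-b).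

* `exists_unit_mul_pow`   : if `𝔪_O ≤ I + (π)` then modulo `I` every element is `0` or `unit · π ^ n`
  (Krull intersection theorem in `O ⧸ I`);
* `ker_eq_of_le`          : **(N-a) section primes**: a ring hom `φ : O → D` to a domain with `φ π ≠ 0`
  killing `I`, `𝔪_O ≤ I + (π)`, has kernel exactly `I`;
* `prime_eq_of_le`        : a prime `P ⊇ I` with `π ∉ P` equals `I`;
* `node_le_sup`           : for `𝔪_O = (π, x, y)`, `ξ η ∈ (π)`: `𝔪_O ≤ (x - ξ, y - η) + (π)`;
* `ker_eq_span_of_node`   : the kernel of the point `(ξ, η)` is `(x - ξ, y - η)`;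
* `mul_sub_eq`            : `x (y - η) = - η (x - ξ)`  (so `x - ξ` generates the section prime wherever
  `x` is invertible: `div (x - ξ) = Q̄ + v(ξ) · X₂` near `e`);
* `prime_eq_span_of_node` : a prime `P ∌ π` containing `x - ξ` is the section prime `(x - ξ, y - η)`
  (an `L`-point reducing to `e` is determined by its `x`-coordinate);
* `pair_identity`, `pair_ideal` : **(N-b) pair lemma**: for `ξ' = c ξ`, `c η' = η`, `c` a unit,
  `(x - ξ')(y - η) = c (x - ξ)(y - η')` and `(x - ξ') · (x - ξ, y - η) = (x - ξ) · (x - ξ', y - η')`: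
  the difference of two sections through `e` at the same radius is Cartier, with generator
  `(x - ξ') / (x - ξ)`.  With `ξ' = σ ξ`, `σ` inertial, this is "inertia acts trivially on `J / J⁰`".
-/
import Mathlib

set_option autoImplicit false

namespace Fermat.Agent.T1B.Node45.Section

open Ideal IsLocalRing

variable {O : Type*} [CommRing O]

/-! ### (N-b) the pair lemma: pure identities -/

/-- `(x - ξ')(y - η) = c (x - ξ)(y - η')` when `x y = ξ η`, `ξ' = c ξ`, `c η' = η`. -/
theorem pair_identity {x y ξ η ξ' η' c : O} (hxy : x * y = ξ * η) (hξ' : ξ' = c * ξ)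
    (hη' : c * η' = η) : (x - ξ') * (y - η) = c * ((x - ξ) * (y - η')) := by
  subst hξ' hη'
  linear_combination (1 - c) * hxy

/-- `x (y - η) = - η (x - ξ)` when `x y = ξ η`. -/
theorem mul_sub_eq {x y ξ η : O} (hxy : x * y = ξ * η) : x * (y - η) = -η * (x - ξ) := by
  linear_combination hxy

/-- **(N-b), ideal form.**  `(x - ξ') · (x - ξ, y - η) = (x - ξ) · (x - ξ', y - η')`. -/
theorem pair_ideal {x y ξ η ξ' η' c : O} (hc : IsUnit c) (hxy : x * y = ξ * η) (hξ' : ξ' = c * ξ)
    (hη' : c * η' = η) :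
    span {x - ξ'} * span {x - ξ, y - η} = span {x - ξ} * span {x - ξ', y - η'} := by
  have key := pair_identity hxy hξ' hη'
  obtain ⟨u, rfl⟩ := hc
  apply le_antisymm
  · rw [span_singleton_mul_le_iff]
    intro z hz
    obtain ⟨a, b, rfl⟩ := mem_span_pair.1 hz
    have e : (x - ξ') * (a * (x - ξ) + b * (y - η)) =
        (x - ξ) * (a * (x - ξ') + b * (u : O) * (y - η')) := by
      linear_combination b * key
    rw [e]
    exact mul_mem_mul (mem_span_singleton_self _)
      (mem_span_pair.2 ⟨a, b * (u : O), rfl⟩)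
  · rw [span_singleton_mul_le_iff]
    intro z hz
    obtain ⟨a, b, rfl⟩ := mem_span_pair.1 hz
    have e : (x - ξ) * (a * (x - ξ') + b * (y - η')) =
        (x - ξ') * (a * (x - ξ) + b * ((u⁻¹ : Oˣ) : O) * (y - η)) := by
      have h1 : ((u⁻¹ : Oˣ) : O) * (u : O) = 1 := by simp
      linear_combination (-b * ((u⁻¹ : Oˣ) : O)) * key - b * (x - ξ) * (y - η') * h1
    rw [e]
    exact mul_mem_mul (mem_span_singleton_self _)
      (mem_span_pair.2 ⟨a, b * ((u⁻¹ : Oˣ) : O), rfl⟩)

/-! ### (N-a) section primes -/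

section Local

variable [IsLocalRing O] [IsNoetherianRing O]

/-- If `𝔪_O ≤ I + (π)`, `π ∈ 𝔪_O`, then modulo `I` every element is `0` or `unit · π ^ n`. -/
theorem exists_unit_mul_pow {I : Ideal O} {π : O} (hI : I ≠ ⊤) (hπ : π ∈ maximalIdeal O)
    (hm : maximalIdeal O ≤ I ⊔ span {π}) {a : O} (ha : a ∉ I) :
    ∃ (n : ℕ) (u : O), IsUnit u ∧ a - u * π ^ n ∈ I := by
  -- for every `n`: `a ∈ I + (π ^ n)`-alternatives; use Krull's intersection theorem
  have hkrull : ∃ n : ℕ, a ∉ I ⊔ span {π ^ n} := by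
    by_contra hcon
    push Not at hcon
    apply ha
    -- `a ∈ ⨅ n, I ⊔ 𝔪 ^ n = I`
    have h1 : ∀ n : ℕ, a ∈ I ⊔ maximalIdeal O ^ n := fun n =>
      (sup_le_sup_left ((span_singleton_le_iff_mem _).2 (Ideal.pow_mem_pow hπ n)) I) (hcon n)
    have : Nontrivial (O ⧸ I) := Ideal.Quotient.nontrivial_iff.2 hI
    have : IsLocalRing (O ⧸ I) :=
      IsLocalRing.of_surjective' (Ideal.Quotient.mk I) Ideal.Quotient.mk_surjective
    have h2 : Ideal.Quotient.mk I a ∈ (⨅ n : ℕ, (maximalIdeal (O ⧸ I)) ^ n) := by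
      rw [Ideal.mem_iInf]
      intro n
      obtain ⟨i, hi, m, hmn, rfl⟩ := Submodule.mem_sup.1 (h1 n)
      rw [map_add, Ideal.Quotient.eq_zero_iff_mem.2 hi, zero_add]
      have hle : (maximalIdeal O).map (Ideal.Quotient.mk I) ≤ maximalIdeal (O ⧸ I) := by
        rw [Ideal.map_le_iff_le_comap]
        intro z hz
        rw [Ideal.mem_comap, mem_maximalIdeal, mem_nonunits_iff]
        intro hu
        obtain ⟨w', hw'⟩ := hu.exists_right_inv
        obtain ⟨w, rfl⟩ := Ideal.Quotient.mk_surjective w'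
        rw [← map_mul, ← map_one (Ideal.Quotient.mk I), Ideal.Quotient.eq] at hw'
        have h3 : z * w - 1 ∈ maximalIdeal O := IsLocalRing.le_maximalIdeal hI hw'
        have h4 : (1 : O) ∈ maximalIdeal O := by
          have := (maximalIdeal O).sub_mem ((maximalIdeal O).mul_mem_right w hz) h3
          rwa [sub_sub_cancel] at this
        exact (maximalIdeal.isMaximal O).ne_top ((Ideal.eq_top_iff_one _).2 h4)
      have : Ideal.Quotient.mk I m ∈ ((maximalIdeal O).map (Ideal.Quotient.mk I)) ^ n := by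
        rw [← Ideal.map_pow]
        exact Ideal.mem_map_of_mem _ hmn
      exact Ideal.pow_right_mono hle n this
    rw [Ideal.iInf_pow_eq_bot_of_isLocalRing _ (maximalIdeal.isMaximal _).ne_top, Ideal.mem_bot]
      at h2
    exact Ideal.Quotient.eq_zero_iff_mem.1 h2
  classical
  -- the least `n` with `a ∉ I + (π ^ (n + 1))`
  have hex : ∃ n : ℕ, a ∉ I ⊔ span {π ^ (n + 1)} := by
    obtain ⟨n, hn⟩ := hkrull
    refine ⟨n, fun h => hn ?_⟩
    refine (sup_le_sup_left ?_ I) h
    rw [span_singleton_le_span_singleton]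
    exact ⟨π, by rw [pow_succ]⟩
  let n := Nat.find hex
  have hn : a ∉ I ⊔ span {π ^ (n + 1)} := Nat.find_spec hex
  have hn' : a ∈ I ⊔ span {π ^ n} := by
    rcases Nat.eq_zero_or_pos n with h0 | hpos
    · rw [h0, pow_zero, span_singleton_one, sup_top_eq]
      exact Submodule.mem_top
    · have := Nat.find_min hex (m := n - 1) (by omega)
      rw [not_not, Nat.sub_add_cancel hpos] at this
      exact this
  obtain ⟨i, hi, m, hm', hsum⟩ := Submodule.mem_sup.1 hn'
  obtain ⟨u, rfl⟩ := mem_span_singleton'.1 hm'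
  refine ⟨n, u, ?_, ?_⟩
  · -- `u` is a unit, else `u ∈ 𝔪 ≤ I + (π)` and `a ∈ I + (π ^ (n+1))`
    by_contra hu
    have hum : u ∈ maximalIdeal O := (mem_maximalIdeal u).2 hu
    obtain ⟨j, hj, w, hw, huw⟩ := Submodule.mem_sup.1 (hm hum)
    obtain ⟨r, rfl⟩ := mem_span_singleton'.1 hw
    apply hn
    rw [← hsum, ← huw]
    refine Submodule.mem_sup.2 ⟨i + j * π ^ n, I.add_mem hi (I.mul_mem_right _ hj),
      r * π ^ (n + 1), mem_span_singleton'.2 ⟨r, rfl⟩, ?_⟩
    ring
  · have : a - u * π ^ n = i := by rw [← hsum]; ring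
    rw [this]
    exact hi

/-- **(N-a) section primes.**  A ring hom to a domain with `φ π ≠ 0` which kills `I`, where
`𝔪_O ≤ I + (π)`, has kernel exactly `I`. -/
theorem ker_eq_of_le {D : Type*} [CommRing D] [IsDomain D] (φ : O →+* D) {I : Ideal O} {π : O}
    (hπ : π ∈ maximalIdeal O) (hm : maximalIdeal O ≤ I ⊔ span {π}) (hI : I ≤ RingHom.ker φ)
    (hφπ : φ π ≠ 0) : RingHom.ker φ = I := by
  refine le_antisymm (fun a ha => ?_) hI
  by_contra haI
  have hItop : I ≠ ⊤ := fun h => (RingHom.ker_ne_top φ) (top_le_iff.1 (h ▸ hI))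
  obtain ⟨n, u, hu, hmem⟩ := exists_unit_mul_pow hItop hπ hm haI
  have h1 : φ (a - u * π ^ n) = 0 := hI hmem
  rw [map_sub, (RingHom.mem_ker).1 ha, zero_sub, neg_eq_zero, map_mul, map_pow] at h1
  rcases mul_eq_zero.1 h1 with h | h
  · exact (hu.map φ).ne_zero h
  · exact pow_ne_zero n hφπ h

/-- A prime `P ⊇ I` with `π ∉ P`, where `𝔪_O ≤ I + (π)`, equals `I`. -/
theorem prime_eq_of_le {I P : Ideal O} [hP : P.IsPrime] {π : O} (hπ : π ∈ maximalIdeal O)
    (hm : maximalIdeal O ≤ I ⊔ span {π}) (hIP : I ≤ P) (hπP : π ∉ P) : P = I := by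
  refine le_antisymm (fun a ha => ?_) hIP
  by_contra haI
  have hItop : I ≠ ⊤ := fun h => hP.ne_top (top_le_iff.1 (h ▸ hIP))
  obtain ⟨n, u, hu, hmem⟩ := exists_unit_mul_pow hItop hπ hm haI
  have h1 : u * π ^ n ∈ P := by
    have := P.sub_mem ha (hIP hmem)
    rwa [sub_sub_cancel] at this
  have h2 : π ^ n ∈ P := by
    obtain ⟨v, rfl⟩ := hu
    have := P.mul_mem_left ((v⁻¹ : Oˣ) : O) h1
    rwa [← mul_assoc, Units.inv_mul, one_mul] at this
  exact hπP (hP.mem_of_pow_mem n h2)

/-! ### The node -/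

omit [IsNoetherianRing O] in
/-- For `𝔪_O = (π, x, y)` and `ξ, η ∈ (π)`: `𝔪_O ≤ (x - ξ, y - η) + (π)`. -/
theorem node_le_sup {π x y ξ η : O} (hm : maximalIdeal O = span {π, x, y})
    (hξ : ξ ∈ span {π}) (hη : η ∈ span {π}) :
    maximalIdeal O ≤ span {x - ξ, y - η} ⊔ span {π} := by
  have hπ : π ∈ span {x - ξ, y - η} ⊔ span {π} :=
    Ideal.mem_sup_right (mem_span_singleton_self π)
  have hx1 : x - ξ ∈ span {x - ξ, y - η} := subset_span (Set.mem_insert _ _)
  have hy1 : y - η ∈ span {x - ξ, y - η} :=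
    subset_span (Set.mem_insert_of_mem _ (Set.mem_singleton _))
  have hx : x ∈ span {x - ξ, y - η} ⊔ span {π} := by
    have e : x = (x - ξ) + ξ := by ring
    have h : (x - ξ) + ξ ∈ span {x - ξ, y - η} ⊔ span {π} :=
      Ideal.add_mem _ (Ideal.mem_sup_left hx1) (Ideal.mem_sup_right hξ)
    rwa [← e] at h
  have hy : y ∈ span {x - ξ, y - η} ⊔ span {π} := by
    have e : y = (y - η) + η := by ring
    have h : (y - η) + η ∈ span {x - ξ, y - η} ⊔ span {π} :=
      Ideal.add_mem _ (Ideal.mem_sup_left hy1) (Ideal.mem_sup_right hη)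
    rwa [← e] at h
  rw [hm, span_le]
  intro z hz
  simp only [Set.mem_insert_iff, Set.mem_singleton_iff] at hz
  obtain h | h | h := hz
  · rw [h]; exact hπ
  · rw [h]; exact hx
  · rw [h]; exact hy

omit [IsNoetherianRing O] in
theorem pi_mem_maximalIdeal {π x y : O} (hm : maximalIdeal O = span {π, x, y}) :
    π ∈ maximalIdeal O := by
  rw [hm]; exact subset_span (by simp)

/-- **(N-a) at a node.**  The kernel of a point `φ : O → D` (`D` a domain, `φ π ≠ 0`) with
`x`-coordinate `ξ` and `y`-coordinate `η` (`ξ, η ∈ (π)`) is `(x - ξ, y - η)`. -/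
theorem ker_eq_span_of_node {D : Type*} [CommRing D] [IsDomain D] (φ : O →+* D) {π x y ξ η : O}
    (hm : maximalIdeal O = span {π, x, y}) (hξ : ξ ∈ span {π}) (hη : η ∈ span {π})
    (hx : φ x = φ ξ) (hy : φ y = φ η) (hφπ : φ π ≠ 0) :
    RingHom.ker φ = span {x - ξ, y - η} := by
  refine ker_eq_of_le φ (pi_mem_maximalIdeal hm) (node_le_sup hm hξ hη) ?_ hφπ
  rw [span_le]
  intro z hz
  simp only [Set.mem_insert_iff, Set.mem_singleton_iff] at hz
  obtain h | h := hz
  · rw [h, SetLike.mem_coe, RingHom.mem_ker, map_sub, hx, sub_self]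
  · rw [h, SetLike.mem_coe, RingHom.mem_ker, map_sub, hy, sub_self]

/-- **An `L`-point through the node is determined by its `x`-coordinate.**  A prime `P ∌ π`
containing `x - ξ`, where `x y = ξ η` and `ξ` divides a power of `π`, is the section prime
`(x - ξ, y - η)`. -/
theorem prime_eq_span_of_node {P : Ideal O} [hP : P.IsPrime] {π x y ξ η : O}
    (hm : maximalIdeal O = span {π, x, y}) (hξ : ξ ∈ span {π}) (hη : η ∈ span {π})
    (hxy : x * y = ξ * η) {j : ℕ} (hξdvd : ξ ∣ π ^ j) (hπP : π ∉ P) (hxP : x - ξ ∈ P) :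
    P = span {x - ξ, y - η} := by
  refine prime_eq_of_le (pi_mem_maximalIdeal hm) (node_le_sup hm hξ hη) ?_ hπP
  -- `x ∉ P`
  have hx : x ∉ P := by
    intro hx
    have hξP : ξ ∈ P := by
      have := P.sub_mem hx hxP
      rwa [sub_sub_cancel] at this
    obtain ⟨r, hr⟩ := hξdvd
    have : π ^ j ∈ P := by rw [hr]; exact P.mul_mem_right _ hξP
    exact hπP (hP.mem_of_pow_mem j this)
  have hy : y - η ∈ P := by
    have h1 : x * (y - η) ∈ P := by
      rw [mul_sub_eq hxy]
      exact P.mul_mem_left _ hxP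
    exact (hP.mem_or_mem h1).resolve_left hx
  rw [span_le]
  intro z hz
  simp only [Set.mem_insert_iff, Set.mem_singleton_iff] at hz
  obtain h | h := hz
  · rw [h]; exact hxP
  · rw [h]; exact hy

end Local

end Fermat.Agent.T1B.Node45.Section
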