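/-
Programme T1b (row 38 / S44), brick F9' PHI45, part Φ1 (helper45): ORBIT-INV, abstract form.

`O` a local domain (a DVR in the application) with an element `π`, `C` a noetherian domain which is an
`O`-algebra (a chart of the nodal model over `O`), `q s : C →ₐ[O] O` a finite family of `O`-points with
common reduction `𝔫` (a node), multiplicities `n s`.  The ORBIT IDEAL is the `π`-saturation

  `𝔞 = sat π (∏ s, ker (q s) ^ n s)`

(the ideal of the closure in the model of the generic-fibre divisor `∑ n s · Q s`).  If the local ring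
`A = C_𝔫` carries helper37's `NodeData` (`x y = π ^ K ε`, `𝔪 = (π, x, y)`), the `x`-coordinates of the
points are `π ^ (j s) u s` (`u s` units, `0 < j s < K`) and `K ∣ ∑ n s · j s`, then `𝔞` is an INVERTIBLE
`C`-module (`invertible_orbitIdeal`): the closure is Cartier.  This is the case for a multiset of points
stable under `Gal(L / K')`, `L / K'` totally ramified, `x` rational over `K'` (`Node45/Orbit.lean` header).

* `sat`, `sat_mul_le`, `sat_prod_pow_le`, `map_sat`            : `π`-saturation of ideals;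
* `x_mul_sub_mem`                                              : `x (y - η) ∈ (x - ξ)` for a section
  `(ξ, η)` through the node, for ARBITRARY unit `ε` in `x y = π ^ K ε` (corrects `Section.mul_sub_eq`,
  which is the case `ε` constant);
* `ker_le_sat`                                                 : the section prime is the `π`-saturation
  of `(x - ξ)`;
* `sat_prod_ker_eq_span`                                       : in `A`: `sat (∏ ker (φ s) ^ n s) = (h)`,
  `h = G / x ^ a` the orbit generator of `Orbit.exists_generator`;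
* `invertible_of_localization_principal`                       : globalisation (pattern of
  `PtInv75.invertible_ker_of_smooth`);
* `invertible_orbitIdeal`                                      : the theorem.
-/
import Mathlib
import Fermat.Agent.T1.Peu37.NodeClassGroup
import Fermat.Agent.T1B.Node45.Section
import Fermat.Agent.T1B.Node45.Orbit
import Fermat.Agent.Jac.LineOps39.PatchInvertible
import Fermat.Agent.T1.PtInv75

set_option autoImplicit false
set_option linter.unusedSectionVars false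

namespace Fermat.Agent.T1B.Node45.OrbitInv

open Ideal IsLocalRing Fermat.Agent.T1.Peu37.NodeClassGroup

universe u

/-! ### `π`-saturation -/

section Sat

variable {R : Type*} [CommRing R]

/-- The `π`-saturation of an ideal: `{f | ∃ k, π ^ k f ∈ I}`. -/
def sat (π : R) (I : Ideal R) : Ideal R where
  carrier := {f | ∃ k : ℕ, π ^ k * f ∈ I}
  add_mem' := by
    rintro a b ⟨k, hk⟩ ⟨l, hl⟩
    refine ⟨k + l, ?_⟩
    have e : π ^ (k + l) * (a + b) = π ^ l * (π ^ k * a) + π ^ k * (π ^ l * b) := by ring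
    rw [e]
    exact I.add_mem (I.mul_mem_left _ hk) (I.mul_mem_left _ hl)
  zero_mem' := ⟨0, by simp⟩
  smul_mem' := by
    rintro c a ⟨k, hk⟩
    refine ⟨k, ?_⟩
    rw [smul_eq_mul, mul_left_comm]
    exact I.mul_mem_left _ hk

theorem mem_sat {π : R} {I : Ideal R} {f : R} : f ∈ sat π I ↔ ∃ k : ℕ, π ^ k * f ∈ I := Iff.rfl

theorem le_sat (π : R) (I : Ideal R) : I ≤ sat π I := fun f hf => ⟨0, by simpa using hf⟩

theorem sat_mono (π : R) {I J : Ideal R} (h : I ≤ J) : sat π I ≤ sat π J :=
  fun _ ⟨k, hk⟩ => ⟨k, h hk⟩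

theorem sat_sat (π : R) (I : Ideal R) : sat π (sat π I) = sat π I := by
  refine le_antisymm ?_ (le_sat π _)
  rintro f ⟨k, l, hl⟩
  exact ⟨l + k, by rw [pow_add, mul_assoc]; exact hl⟩

theorem sat_le_sat_of_le_sat (π : R) {I J : Ideal R} (h : I ≤ sat π J) : sat π I ≤ sat π J := by
  rw [← sat_sat π J]
  exact sat_mono π h

theorem sat_mul_le (π : R) (I J : Ideal R) : sat π I * sat π J ≤ sat π (I * J) := by
  rw [Ideal.mul_le]
  rintro a ⟨k, hk⟩ b ⟨l, hl⟩
  refine ⟨k + l, ?_⟩
  have e : π ^ (k + l) * (a * b) = (π ^ k * a) * (π ^ l * b) := by ring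
  rw [e]
  exact Ideal.mul_mem_mul hk hl

theorem sat_pow_le (π : R) (I : Ideal R) (n : ℕ) : sat π I ^ n ≤ sat π (I ^ n) := by
  induction n with
  | zero => rw [pow_zero, pow_zero]; exact le_sat π _
  | succ n ih =>
    rw [pow_succ, pow_succ]
    exact (Ideal.mul_mono_left ih).trans (sat_mul_le π _ _)

theorem sat_prod_pow_le (π : R) {ι : Type*} (s : Finset ι) (I : ι → Ideal R) (n : ι → ℕ) :
    ∏ i ∈ s, sat π (I i) ^ n i ≤ sat π (∏ i ∈ s, I i ^ n i) := by
  classical
  induction s using Finset.induction_on with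
  | empty => rw [Finset.prod_empty, Finset.prod_empty]; exact le_sat π _
  | insert i s hi ih =>
    rw [Finset.prod_insert hi, Finset.prod_insert hi]
    exact (Ideal.mul_mono (sat_pow_le π _ _) ih).trans (sat_mul_le π _ _)

end Sat

/-! ### The local computation at the node -/

section Local

variable {O A : Type*} [CommRing O] [IsDomain O] [CommRing A] [IsDomain A] [IsLocalRing A]
  [IsNoetherianRing A] [Algebra O A]
variable {v₁ v₂ : A → ℕ} {P₁ P₂ : Ideal A} {π : O} {x y : A} {K : ℕ}

section OnePoint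

variable (D : NodeData A v₁ v₂ P₁ P₂ (algebraMap O A π) x y K) (φ : A →ₐ[O] O)
include D

theorem pi_ne_zero : π ≠ 0 := fun h => D.pi_ne (by rw [h, map_zero])

/-- The kernel of a point through the node is `(x - ξ, y - η)`. -/
theorem ker_eq_span (hξ : π ∣ φ x) (hη : π ∣ φ y) :
    RingHom.ker φ.toRingHom =
      span {x - algebraMap O A (φ x), y - algebraMap O A (φ y)} := by
  have h1 : algebraMap O A (φ x) ∈ span {algebraMap O A π} := by
    obtain ⟨c, hc⟩ := hξ
    rw [hc, map_mul]
    exact Ideal.mul_mem_right _ _ (mem_span_singleton_self _)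
  have h2 : algebraMap O A (φ y) ∈ span {algebraMap O A π} := by
    obtain ⟨c, hc⟩ := hη
    rw [hc, map_mul]
    exact Ideal.mul_mem_right _ _ (mem_span_singleton_self _)
  refine Section.ker_eq_span_of_node φ.toRingHom D.max_eq h1 h2 ?_ ?_ ?_
  · show φ x = φ (algebraMap O A (φ x))
    rw [AlgHom.commutes]; rfl
  · show φ y = φ (algebraMap O A (φ y))
    rw [AlgHom.commutes]; rfl
  · show φ (algebraMap O A π) ≠ 0
    rw [AlgHom.commutes]
    exact pi_ne_zero D

/-- **`x (y - η) ∈ (x - ξ)`** for a section `(ξ, η)` through the node (`ε` an arbitrary unit). -/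
theorem x_mul_sub_mem (hξ : π ∣ φ x) (hη : π ∣ φ y) :
    x * (y - algebraMap O A (φ y)) ∈ span {x - algebraMap O A (φ x)} := by
  obtain ⟨ε, hε, hrel⟩ := D.rel
  obtain ⟨ε', hεε'⟩ := hε.exists_right_inv
  set ξ := algebraMap O A (φ x) with hξdef
  set η := algebraMap O A (φ y) with hηdef
  set ε₀ := algebraMap O A (φ ε) with hε₀
  set ϖ := algebraMap O A π with hϖ
  have hpiK : ϖ ^ K = x * y * ε' := by rw [hrel, mul_assoc, hεε', mul_one]
  -- `ξ η = ϖ ^ K ε₀`
  have hξη : ξ * η = ϖ ^ K * ε₀ := by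
    rw [hξdef, hηdef, hε₀, hϖ, ← map_mul, ← map_pow, ← map_mul]
    rw [← map_mul, hrel, map_mul, map_pow, AlgHom.commutes]
    rfl
  -- `δ = ε - ε₀ ∈ ker φ`
  have hδ : ε - ε₀ ∈ RingHom.ker φ.toRingHom := by
    rw [RingHom.mem_ker]
    show φ (ε - ε₀) = 0
    rw [map_sub, hε₀, AlgHom.commutes]
    exact sub_self _
  rw [ker_eq_span D φ hξ hη] at hδ
  obtain ⟨a, b, hab⟩ := mem_span_pair.1 hδ
  -- the identity
  have key : (x - ϖ ^ K * b) * (y - η) = (ϖ ^ K * a - η) * (x - ξ) := by
    linear_combination hrel - hξη - ϖ ^ K * hab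
  -- `x - ϖ ^ K b = x w`, `w = 1 - y ε' b` a unit
  have hym : y ∈ maximalIdeal A := by
    rw [D.max_eq]; exact subset_span (by simp)
  have hw : IsUnit (1 - y * ε' * b) := by
    apply IsLocalRing.isUnit_one_sub_self_of_mem_nonunits
    exact (mem_maximalIdeal _).1 (Ideal.mul_mem_right _ _ (Ideal.mul_mem_right _ _ hym))
  obtain ⟨w, hw'⟩ := hw
  have e1 : x - ϖ ^ K * b = x * (w : A) := by rw [hw', hpiK]; ring
  rw [e1] at key
  have e2 : x * (y - η) = ((w⁻¹ : Aˣ) : A) * (ϖ ^ K * a - η) * (x - ξ) := by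
    have h3 : ((w⁻¹ : Aˣ) : A) * (w : A) = 1 := by simp
    calc x * (y - η) = (((w⁻¹ : Aˣ) : A) * (w : A)) * (x * (y - η)) := by rw [h3, one_mul]
      _ = ((w⁻¹ : Aˣ) : A) * (x * (w : A) * (y - η)) := by ring
      _ = ((w⁻¹ : Aˣ) : A) * ((ϖ ^ K * a - η) * (x - ξ)) := by rw [key]
      _ = ((w⁻¹ : Aˣ) : A) * (ϖ ^ K * a - η) * (x - ξ) := by ring
  rw [e2]
  exact mem_span_singleton'.2 ⟨_, rfl⟩

/-- The section prime lies in the `π`-saturation of `(x - ξ)`. -/
theorem ker_le_sat (hξ : π ∣ φ x) (hη : π ∣ φ y) :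
    RingHom.ker φ.toRingHom ≤ sat (algebraMap O A π) (span {x - algebraMap O A (φ x)}) := by
  obtain ⟨ε, hε, hrel⟩ := D.rel
  obtain ⟨ε', hεε'⟩ := hε.exists_right_inv
  have hpiK : (algebraMap O A π) ^ K = x * y * ε' := by rw [hrel, mul_assoc, hεε', mul_one]
  rw [ker_eq_span D φ hξ hη]
  intro f hf
  obtain ⟨a, b, rfl⟩ := mem_span_pair.1 hf
  refine ⟨K, ?_⟩
  have h1 := x_mul_sub_mem D φ hξ hη
  have e : (algebraMap O A π) ^ K * (a * (x - algebraMap O A (φ x)) +
      b * (y - algebraMap O A (φ y))) =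
      ((algebraMap O A π) ^ K * a) * (x - algebraMap O A (φ x)) +
      (y * ε' * b) * (x * (y - algebraMap O A (φ y))) := by
    rw [hpiK]; ring
  rw [e]
  exact Ideal.add_mem _ (Ideal.mul_mem_left _ _ (mem_span_singleton_self _))
    (Ideal.mul_mem_left _ _ h1)

/-- `π ∣ φ y` follows from `φ x = π ^ j u`, `j < K`. -/
theorem pi_dvd_y {u : O} (hu : IsUnit u) {j : ℕ} (hjK : j < K) (hx : φ x = π ^ j * u) :
    π ∣ φ y := by
  obtain ⟨ε, hε, hrel⟩ := D.rel
  have h1 : φ x * φ y = π ^ K * φ ε := by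
    rw [← map_mul, hrel, map_mul, map_pow, AlgHom.commutes]; rfl
  obtain ⟨w, rfl⟩ := hu
  rw [hx] at h1
  have h2 : π ^ j * ((w : O) * φ y) = π ^ j * (π ^ (K - j) * φ ε) := by
    rw [← mul_assoc, h1, ← mul_assoc, ← pow_add, Nat.add_sub_cancel' hjK.le]
  have h3 := mul_left_cancel₀ (pow_ne_zero j (pi_ne_zero D)) h2
  have h4 : φ y = ((w⁻¹ : Oˣ) : O) * (π ^ (K - j) * φ ε) := by
    rw [← h3, ← mul_assoc, Units.inv_mul, one_mul]
  rw [h4]
  have : K - j = (K - j - 1) + 1 := by omega
  rw [this, pow_succ]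
  exact ⟨((w⁻¹ : Oˣ) : O) * π ^ (K - j - 1) * φ ε, by ring⟩

end OnePoint

section Family

variable (D : NodeData A v₁ v₂ P₁ P₂ (algebraMap O A π) x y K)
variable {ι : Type*} (s : Finset ι) (φ : ι → A →ₐ[O] O) (n : ι → ℕ) (u : ι → O) (j : ι → ℕ)
include D

/-- **In the local ring of the node the saturated orbit ideal is principal**, generated by the orbit
generator `h` with `∏ (x - ξ i) ^ n i = x ^ a h`. -/
theorem sat_prod_ker_eq_span (hu : ∀ i ∈ s, IsUnit (u i)) (hj0 : ∀ i ∈ s, 0 < j i)
    (hjK : ∀ i ∈ s, j i < K) (hx : ∀ i ∈ s, φ i x = π ^ j i * u i) {a : ℕ}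
    (ha : ∑ i ∈ s, n i * j i = a * K) :
    ∃ h : A, h ≠ 0 ∧
      sat (algebraMap O A π) (∏ i ∈ s, RingHom.ker (φ i).toRingHom ^ n i) = span {h} := by
  -- the orbit generator
  have hu' : ∀ i ∈ s, IsUnit (algebraMap O A (u i)) := fun i hi => (hu i hi).map _
  obtain ⟨h, hG, hh0, h1, h2⟩ := Orbit.exists_generator D s (fun i => algebraMap O A (u i)) j n
    hu' hj0 hjK ha
  refine ⟨h, hh0, ?_⟩
  have hξ : ∀ i ∈ s, algebraMap O A (φ i x) = algebraMap O A π ^ j i * algebraMap O A (u i) := by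
    intro i hi
    rw [hx i hi, map_mul, map_pow]
  have hdvdx : ∀ i ∈ s, π ∣ φ i x := fun i hi => by
    rw [hx i hi]
    exact Dvd.dvd.mul_right (dvd_pow_self π (hj0 i hi).ne') _
  have hdvdy : ∀ i ∈ s, π ∣ φ i y := fun i hi =>
    pi_dvd_y D (φ i) (hu i hi) (hjK i hi) (hx i hi)
  -- `sat (G) = (h)`
  have hsatG : sat (algebraMap O A π)
      (span {∏ i ∈ s, (x - algebraMap O A π ^ j i * algebraMap O A (u i)) ^ n i}) = span {h} := by
    ext f
    rw [Orbit.mem_span_iff D hG hh0 h1 h2 f]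
    rfl
  apply le_antisymm
  · -- `⊆`
    rw [← hsatG]
    apply sat_le_sat_of_le_sat
    have hle : ∏ i ∈ s, RingHom.ker (φ i).toRingHom ^ n i ≤
        ∏ i ∈ s, sat (algebraMap O A π)
          (span {x - algebraMap O A π ^ j i * algebraMap O A (u i)}) ^ n i := by
      apply Finset.prod_le_prod' fun i hi => ?_
      apply Ideal.pow_right_mono
      have := ker_le_sat D (φ i) (hdvdx i hi) (hdvdy i hi)
      rwa [hξ i hi] at this
    refine hle.trans ((sat_prod_pow_le _ s _ n).trans (le_of_eq ?_))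
    congr 1
    rw [← Ideal.prod_span_singleton]
    apply Finset.prod_congr rfl
    intro i _
    rw [Ideal.span_singleton_pow]
  · -- `⊇`
    rw [span_singleton_le_iff_mem]
    obtain ⟨ε, hε, hrel⟩ := D.rel
    obtain ⟨ε', hεε'⟩ := hε.exists_right_inv
    have hpiK : (algebraMap O A π) ^ K = x * y * ε' := by rw [hrel, mul_assoc, hεε', mul_one]
    refine ⟨K * a, ?_⟩
    have e : (algebraMap O A π) ^ (K * a) * h = (y * ε') ^ a *
        ∏ i ∈ s, (x - algebraMap O A π ^ j i * algebraMap O A (u i)) ^ n i := by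
      rw [hG, pow_mul, hpiK]; ring
    rw [e]
    apply Ideal.mul_mem_left
    apply Ideal.prod_mem_prod
    intro i hi
    apply Ideal.pow_mem_pow
    rw [RingHom.mem_ker]
    show φ i (x - algebraMap O A π ^ j i * algebraMap O A (u i)) = 0
    rw [map_sub, map_mul, map_pow, AlgHom.commutes, AlgHom.commutes, hx i hi]
    exact sub_self _

end Family

end Local

/-! ### Globalisation -/

section Global

variable {C : Type u} [CommRing C] [IsDomain C] [IsNoetherianRing C]

/-- If the extension of `𝔞` to the localisation at the prime `𝔫` is principal and every `d ∉ 𝔫` is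
invertible modulo `𝔞`, then `𝔞` is an invertible `C`-module. -/
theorem invertible_of_localization_principal (𝔞 : Ideal C) (h𝔞 : 𝔞 ≠ ⊥) (𝔫 : Ideal C) [h𝔫 : 𝔫.IsPrime]
    {A : Type*} [CommRing A] [Algebra C A] [IsLocalization.AtPrime A 𝔫]
    (hprinc : ∃ h : A, 𝔞.map (algebraMap C A) = span {h})
    (hinv : ∀ d : C, d ∉ 𝔫 → ∃ t : C, t * d - 1 ∈ 𝔞) :
    Module.Invertible C 𝔞 := by
  classical
  obtain ⟨h, hh⟩ := hprinc
  have hinj : Function.Injective (algebraMap C A) :=
    IsLocalization.injective A (Ideal.primeCompl_le_nonZeroDivisors 𝔫)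
  -- a generator coming from `𝔞`
  have hmem : h ∈ 𝔞.map (algebraMap C A) := by rw [hh]; exact mem_span_singleton_self h
  obtain ⟨⟨⟨c₀, hc₀⟩, m⟩, hm⟩ := (IsLocalization.mem_map_algebraMap_iff 𝔫.primeCompl A).1 hmem
  simp only at hm
  have hmu : IsUnit (algebraMap C A (m : C)) := IsLocalization.map_units A m
  have hgen : 𝔞.map (algebraMap C A) = span {algebraMap C A c₀} := by
    rw [hh, ← hm]
    exact (Ideal.span_singleton_mul_right_unit hmu h).symm
  -- for every `g ∈ 𝔞` some `m_g ∉ 𝔫` with `m_g g ∈ (c₀)`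
  have hloc : ∀ g : C, g ∈ 𝔞 → ∃ mg : C, mg ∉ 𝔫 ∧ mg * g ∈ span {c₀} := by
    intro g hg
    have h1 : algebraMap C A g ∈ span {algebraMap C A c₀} := by
      rw [← hgen]; exact Ideal.mem_map_of_mem _ hg
    obtain ⟨r, hr⟩ := mem_span_singleton'.1 h1
    obtain ⟨c, mg, rfl⟩ := IsLocalization.exists_mk'_eq 𝔫.primeCompl r
    refine ⟨mg.1, mg.2, mem_span_singleton'.2 ⟨c, hinj ?_⟩⟩
    have h2 : algebraMap C A mg.1 * IsLocalization.mk' A c mg = algebraMap C A c := by
      rw [mul_comm]; exact IsLocalization.mk'_spec A c mg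
    rw [map_mul, map_mul, ← h2, mul_assoc, hr]
  choose! mfun hmfun1 hmfun2 using hloc
  obtain ⟨T, hT⟩ := (IsNoetherian.noetherian 𝔞 : 𝔞.FG)
  set d : C := ∏ g ∈ T, mfun g with hd
  have hd𝔫 : d ∉ 𝔫 := by
    intro hmem'
    obtain ⟨g, hgT, hg⟩ := (Ideal.IsPrime.prod_mem_iff).1 hmem'
    have hg𝔞 : g ∈ 𝔞 := by rw [← hT]; exact Submodule.subset_span hgT
    exact hmfun1 g hg𝔞 hg
  have hd𝔞 : ∀ g ∈ 𝔞, d * g ∈ span {c₀} := by
    have hall : ∀ g ∈ Submodule.span C (T : Set C), d * g ∈ span {c₀} := by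
      intro g hg
      induction hg using Submodule.span_induction with
      | mem z hz =>
        have hz𝔞 : z ∈ 𝔞 := by rw [← hT]; exact Submodule.subset_span hz
        rw [hd, ← Finset.mul_prod_erase T mfun hz, mul_right_comm]
        exact Ideal.mul_mem_right _ _ (hmfun2 z hz𝔞)
      | zero => rw [mul_zero]; exact Ideal.zero_mem _
      | add z w _ _ hz hw => rw [mul_add]; exact Ideal.add_mem _ hz hw
      | smul a z _ hz =>
        rw [smul_eq_mul, mul_left_comm]
        exact Ideal.mul_mem_left _ _ hz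
    intro g hg
    exact hall g (by rw [hT]; exact hg)
  have hd0 : d ≠ 0 := fun h0 => hd𝔫 (h0 ▸ 𝔫.zero_mem)
  have hc₀0 : c₀ ≠ 0 := by
    intro h0
    obtain ⟨g, hg𝔞, hg0⟩ := Submodule.exists_mem_ne_zero_of_ne_bot h𝔞
    have h1 := hd𝔞 g hg𝔞
    rw [h0, Ideal.span_singleton_eq_bot.2 rfl, Ideal.mem_bot] at h1
    exact (mul_ne_zero hd0 hg0) h1
  obtain ⟨t, ht⟩ := hinv d hd𝔫
  refine Fermat.Agent.Jac.LineOps39.ideal_invertible_of_away d (R' := Localization.Away d) 𝔞 ?_ t ht
  have hle : Submonoid.powers d ≤ nonZeroDivisors C :=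
    powers_le_nonZeroDivisors_of_noZeroDivisors hd0
  have hdom : IsDomain (Localization.Away d) := IsLocalization.isDomain_localization hle
  have hinj' : Function.Injective (algebraMap C (Localization.Away d)) :=
    IsLocalization.injective _ hle
  have hmap : 𝔞.map (algebraMap C (Localization.Away d)) =
      span {algebraMap C (Localization.Away d) c₀} := by
    apply le_antisymm
    · rw [Ideal.map_le_iff_le_comap]
      intro g hg
      obtain ⟨c, hc⟩ := mem_span_singleton'.1 (hd𝔞 g hg)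
      have hdunit : IsUnit (algebraMap C (Localization.Away d) d) :=
        IsLocalization.Away.algebraMap_isUnit d
      obtain ⟨e, he⟩ := hdunit
      have hg' : algebraMap C (Localization.Away d) g =
          (↑e⁻¹ : Localization.Away d) * algebraMap C (Localization.Away d) (d * g) := by
        rw [map_mul, ← he, ← mul_assoc, Units.inv_mul, one_mul]
      rw [Ideal.mem_comap, hg', ← hc, map_mul, ← mul_assoc]
      exact Ideal.mul_mem_left _ _ (Ideal.subset_span rfl)
    · rw [Ideal.span_le, Set.singleton_subset_iff]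
      exact Ideal.mem_map_of_mem _ hc₀
  rw [hmap]
  exact Fermat.Agent.T1.PtInv75.invertible_span_singleton _
    (fun h0 => hc₀0 (hinj' (h0.trans (map_zero _).symm)))

end Global

/-! ### Saturation commutes with localisation -/

section MapSat

variable {R S : Type*} [CommRing R] [CommRing S] [Algebra R S]

theorem map_sat (M : Submonoid R) [IsLocalization M S] (π : R) (I : Ideal R) :
    (sat π I).map (algebraMap R S) = sat (algebraMap R S π) (I.map (algebraMap R S)) := by
  apply le_antisymm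
  · rw [Ideal.map_le_iff_le_comap]
    rintro f ⟨k, hk⟩
    refine ⟨k, ?_⟩
    rw [← map_pow, ← map_mul]
    exact Ideal.mem_map_of_mem _ hk
  · rintro z ⟨k, hk⟩
    obtain ⟨c, m, rfl⟩ := IsLocalization.exists_mk'_eq M z
    have e : algebraMap R S π ^ k * IsLocalization.mk' S c m = IsLocalization.mk' S (π ^ k * c) m := by
      rw [← map_pow, IsLocalization.mul_mk'_eq_mk'_of_mul]
    rw [e, IsLocalization.mk'_mem_map_algebraMap_iff] at hk
    obtain ⟨t, htM, ht⟩ := hk
    rw [IsLocalization.mk'_mem_map_algebraMap_iff]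
    exact ⟨t, htM, k, by rw [mul_left_comm]; exact ht⟩

end MapSat

/-! ### The theorem -/

section Main

variable {O C : Type u} [CommRing O] [IsDomain O] [CommRing C] [IsDomain C] [IsNoetherianRing C]
  [Algebra O C]

/-- **ORBIT-INV.**  The saturated ideal of a family of `O`-points through a node whose `x`-coordinates
`π ^ (j s) u s` satisfy `K ∣ ∑ n s · j s` is an invertible module. -/
theorem invertible_orbitIdeal (π : O) {ι : Type*} [Fintype ι] (q : ι → C →ₐ[O] O) (n : ι → ℕ)
    (𝔫 : Ideal C) [𝔫.IsPrime] (h𝔫 : ∀ s c, c ∈ 𝔫 ↔ ¬ IsUnit (q s c))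
    {A : Type u} [CommRing A] [IsDomain A] [IsLocalRing A] [IsNoetherianRing A] [Algebra C A]
    [IsLocalization.AtPrime A 𝔫] [Algebra O A] [IsScalarTower O C A]
    (φ : ι → A →ₐ[O] O) (hφ : ∀ s c, φ s (algebraMap C A c) = q s c)
    {v₁ v₂ : A → ℕ} {P₁ P₂ : Ideal A} {x y : A} {K : ℕ}
    (D : NodeData A v₁ v₂ P₁ P₂ (algebraMap O A π) x y K)
    (u : ι → O) (hu : ∀ s, IsUnit (u s)) (j : ι → ℕ) (hj0 : ∀ s, 0 < j s) (hjK : ∀ s, j s < K)
    (hx : ∀ s, φ s x = π ^ j s * u s) {a : ℕ} (ha : ∑ s, n s * j s = a * K) :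
    Module.Invertible C
      (sat (algebraMap O C π) (∏ s, RingHom.ker (q s).toRingHom ^ n s)) := by
  classical
  -- the extension of `ker (q s)` is `ker (φ s)`
  have hker : ∀ s, (RingHom.ker (q s).toRingHom).map (algebraMap C A) =
      RingHom.ker (φ s).toRingHom := by
    intro s
    apply le_antisymm
    · rw [Ideal.map_le_iff_le_comap]
      intro c hc
      rw [Ideal.mem_comap, RingHom.mem_ker]
      show φ s (algebraMap C A c) = 0
      rw [hφ]
      exact hc
    · intro z hz
      obtain ⟨c, m, rfl⟩ := IsLocalization.exists_mk'_eq 𝔫.primeCompl z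
      rw [IsLocalization.mk'_mem_map_algebraMap_iff]
      refine ⟨1, Submonoid.one_mem _, ?_⟩
      rw [one_mul, RingHom.mem_ker]
      show q s c = 0
      have h1 : φ s (IsLocalization.mk' A c m) * φ s (algebraMap C A (m : C)) =
          φ s (algebraMap C A c) := by
        rw [← map_mul, IsLocalization.mk'_spec]
      have h2 : φ s (IsLocalization.mk' A c m) = 0 := hz
      rw [h2, zero_mul, hφ] at h1
      exact h1.symm
  have hπ : algebraMap C A (algebraMap O C π) = algebraMap O A π :=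
    (IsScalarTower.algebraMap_apply O C A π).symm
  -- the extension of the orbit ideal
  have hmap : (sat (algebraMap O C π) (∏ s, RingHom.ker (q s).toRingHom ^ n s)).map
      (algebraMap C A) =
      sat (algebraMap O A π) (∏ s, RingHom.ker (φ s).toRingHom ^ n s) := by
    rw [map_sat 𝔫.primeCompl, hπ]
    congr 1
    rw [← Ideal.mapHom_apply, map_prod]
    apply Finset.prod_congr rfl
    intro s _
    rw [map_pow, Ideal.mapHom_apply, hker]
  obtain ⟨h, hh0, hspan⟩ := sat_prod_ker_eq_span D Finset.univ φ n u j (fun s _ => hu s)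
    (fun s _ => hj0 s) (fun s _ => hjK s) (fun s _ => hx s) ha
  refine invertible_of_localization_principal _ ?_ 𝔫 (A := A) ⟨h, by rw [hmap, hspan]⟩ ?_
  · -- `≠ ⊥`
    intro hbot
    rw [hbot, Ideal.map_bot] at hmap
    rw [← hmap] at hspan
    exact hh0 (Ideal.span_singleton_eq_bot.1 hspan.symm)
  · -- every `d ∉ 𝔫` is invertible modulo the orbit ideal
    intro d hd
    have hcop : ∀ s, span {d} ⊔ RingHom.ker (q s).toRingHom = ⊤ := by
      intro s
      have hus : IsUnit (q s d) := by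
        by_contra hnu
        exact hd ((h𝔫 s d).2 hnu)
      obtain ⟨w, hw⟩ := hus
      rw [Ideal.eq_top_iff_one]
      have h1 : algebraMap O C ((w⁻¹ : Oˣ) : O) * d - 1 ∈ RingHom.ker (q s).toRingHom := by
        rw [RingHom.mem_ker]
        show q s (algebraMap O C ((w⁻¹ : Oˣ) : O) * d - 1) = 0
        rw [map_sub, map_mul, AlgHom.commutes, map_one, ← hw]
        simp
      have h2 : (1 : C) = algebraMap O C ((w⁻¹ : Oˣ) : O) * d -
          (algebraMap O C ((w⁻¹ : Oˣ) : O) * d - 1) := by ring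
      rw [h2]
      exact Ideal.sub_mem _ (Ideal.mem_sup_left (Ideal.mul_mem_left _ _ (mem_span_singleton_self d)))
        (Ideal.mem_sup_right h1)
    have hcop' : span {d} ⊔ ∏ s, RingHom.ker (q s).toRingHom ^ n s = ⊤ := by
      apply Ideal.sup_prod_eq_top
      intro s _
      exact Ideal.sup_pow_eq_top (hcop s)
    have h1 : (1 : C) ∈ span {d} ⊔ ∏ s, RingHom.ker (q s).toRingHom ^ n s := by
      rw [hcop']; exact Submodule.mem_top
    obtain ⟨a', ha', b', hb', hab⟩ := Submodule.mem_sup.1 h1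
    obtain ⟨t, rfl⟩ := mem_span_singleton'.1 ha'
    refine ⟨t, le_sat _ _ ?_⟩
    have e : t * d - 1 = -b' := by rw [← hab]; ring
    rw [e]
    exact (Ideal.neg_mem_iff _).2 hb'

end Main

end Fermat.Agent.T1B.Node45.OrbitInv
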