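/-
Programme T1B (row 38 / S44), cell (I) NODE/PHI (helper45), part Φ2: ORBIT-CLASS (hub glue).

`c0 : TwoChart W B0 B1 B01` the hub datum, `O` a DVR over `W` with uniformiser `π`, `L` an `O`-algebra
in which `π` is invertible (the fraction field), `q s : B0 →ₐ[W] O` a finite family of `O`-points of
chart 0 with multiplicities `n s`.

* `orbitIdeal π q n = sat π (∏ ptIdeal (q s) ^ n s) ⊆ O ⊗ B0` (the ideal of the closure in the model
  of the generic-fibre divisor `∑ n s · q s`); `orbitIdeal_eq` : it is the ideal of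
  `OrbitInv.invertible_orbitIdeal` for `C = O ⊗ B0` and the sections `ptEval (q s)`;
* `finite_quot_orbitIdeal`, `flat_quot_orbitIdeal` : `(O ⊗ B0) ⧸ 𝔞` is finite (integrality + finite
  type) and flat (`π`-saturated ⇒ torsion-free) over `O`;
* `orbitIdeal_map` : the generic fibre of `𝔞` is `∏ ptIdeal (ptComp L (q s)) ^ n s`;
* `clsOfChart0 c0 𝔞 : PicX c0 O` : the class of the ideal sheaf of the closure of `V(𝔞)` for an
  invertible `𝔞` with finite quotient; `map_clsOfChart0` : its base change (flat quotient);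
* `ofChart0_prod_I1` : the closure of `V(∏ I_i ^ n_i)` is the product of the closures when none of
  them meets infinity (`AwayInfty`);
* **`map_clsOfChart0_orbitIdeal`** : if `𝔞` is invertible then
  `PicX.map c0 O L (clsOfChart0 c0 𝔞) = ∏ s, ptClass0 c0 (ptComp L (q s)) _ ^ n s`:
  the class `∏ [q s] ^ n s` of the generic fibre EXTENDS to `Pic X_O` (Cartier closure).
Uses helper43's `Desc43.mk_ofIdeals_eq_prod` (class of a product of point ideals) and helper46's
`NormModel46.isTorsionFree_of_isSMulRegular_generator`.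
-/
import Mathlib
import Fermat.Agent.T1B.Node45.OrbitInv
import Fermat.Agent.T1B.NormModel46.Abstract
import Fermat.Agent.T1B.Desc1.FieldBC
import Fermat.Agent.T1B.Desc43.ProdCls
import Fermat.Agent.Jac.ConverseDiv60Props
import Fermat.Agent.Jac.Chart43.DivisorOfSection

set_option autoImplicit false
set_option linter.unusedSectionVars false
set_option linter.style.haveILetI false

open TensorProduct

namespace Fermat.Agent.T1B.Node45.OrbitClass

open Fermat.Agent.Jac Fermat.Agent.Jac.JSmooth85Alg Fermat.Agent.Jac.JGroup85Pic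
open Fermat.Agent.Jac.BaseChange75 Fermat.Agent.Jac.LineOps39 Fermat.Agent.T1.RedIface75
open Fermat.Agent.T1.PtLine75 Fermat.Agent.T1B.Desc1 Fermat.Agent.T1B.Desc43
open Fermat.Agent.T1B.Node45.OrbitInv
open scoped Fermat.Agent.Jac.BaseChange75

universe u

section Alg

variable {R S : Type*} [CommRing R] [CommRing S]

/-- The extension of a `π`-saturation along a map inverting `π` is the extension of the ideal. -/
theorem map_sat_of_isUnit (f : R →+* S) {π : R} (hπ : IsUnit (f π)) (I : Ideal R) :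
    (sat π I).map f = I.map f := by
  apply le_antisymm
  · rw [Ideal.map_le_iff_le_comap]
    rintro x ⟨k, hk⟩
    rw [Ideal.mem_comap]
    have h1 : f (π ^ k * x) ∈ I.map f := Ideal.mem_map_of_mem f hk
    rw [map_mul, map_pow] at h1
    obtain ⟨u, hu⟩ := hπ.pow k
    have h2 : f x = (↑u⁻¹ : S) * (f π ^ k * f x) := by
      rw [← hu, ← mul_assoc, Units.inv_mul, one_mul]
    rw [h2]
    exact Ideal.mul_mem_left _ _ h1
  · exact Ideal.map_mono (le_sat π I)

variable {O C : Type*} [CommRing O] [CommRing C] [Algebra O C]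

open Polynomial in
/-- The quotient of a finite type algebra by an ideal containing a product of powers of kernels
of sections is finite. -/
theorem finite_quot_of_prod_ker_le [Algebra.FiniteType O C] {ι : Type*} (s : Finset ι)
    (q : ι → C →ₐ[O] O) (n : ι → ℕ) (K : Ideal C)
    (hK : ∏ i ∈ s, RingHom.ker (q i).toRingHom ^ n i ≤ K) : Module.Finite O (C ⧸ K) := by
  classical
  have hint : Algebra.IsIntegral O (C ⧸ K) := by
    refine ⟨fun z => ?_⟩
    obtain ⟨c, rfl⟩ := Ideal.Quotient.mk_surjective z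
    refine ⟨∏ i ∈ s, (X - Polynomial.C (q i c)) ^ n i,
      monic_prod_of_monic _ _ (fun i _ => (monic_X_sub_C _).pow _), ?_⟩
    have h1 : ∏ i ∈ s, (c - algebraMap O C (q i c)) ^ n i ∈ K := by
      apply hK
      apply Ideal.prod_mem_prod
      intro i _
      apply Ideal.pow_mem_pow
      rw [RingHom.mem_ker]
      show q i (c - algebraMap O C (q i c)) = 0
      rw [map_sub, AlgHom.commutes, Algebra.algebraMap_self, RingHom.id_apply, sub_self]
    rw [← Polynomial.aeval_def, map_prod]
    simp only [map_pow, map_sub, aeval_X, aeval_C]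
    rw [← Ideal.Quotient.eq_zero_iff_mem] at h1
    rw [map_prod] at h1
    simp only [map_pow, map_sub] at h1
    convert h1 using 3
    rfl
  exact Algebra.IsIntegral.finite

/-- The quotient by a `π`-saturated ideal is flat over a DVR with uniformiser `π`. -/
theorem flat_quot_sat [IsDomain O] [IsDiscreteValuationRing O] {π : O} (hπ : Irreducible π)
    (I : Ideal C) : Module.Flat O (C ⧸ sat (algebraMap O C π) I) := by
  have hreg : IsSMulRegular (C ⧸ sat (algebraMap O C π) I) π := by
    rw [isSMulRegular_iff_right_eq_zero_of_smul]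
    intro z hz
    obtain ⟨c, rfl⟩ := Ideal.Quotient.mk_surjective z
    rw [← Ideal.Quotient.mk_eq_mk] at hz ⊢
    have h1 : π • Ideal.Quotient.mk (sat (algebraMap O C π) I) c =
        Ideal.Quotient.mk (sat (algebraMap O C π) I) (algebraMap O C π * c) := by
      rw [map_mul, Algebra.smul_def]
      rfl
    rw [Ideal.Quotient.mk_eq_mk, h1, Ideal.Quotient.eq_zero_iff_mem] at hz
    rw [Ideal.Quotient.mk_eq_mk, Ideal.Quotient.eq_zero_iff_mem]
    obtain ⟨k, hk⟩ := hz
    exact ⟨k + 1, by rw [pow_succ, mul_assoc]; exact hk⟩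
  have htf : Module.IsTorsionFree O (C ⧸ sat (algebraMap O C π) I) :=
    Fermat.Agent.T1B.NormModel46.isTorsionFree_of_isSMulRegular_generator
      (fun r hr => by
        obtain ⟨n, w, hw⟩ := IsDiscreteValuationRing.eq_unit_mul_pow_irreducible hr hπ
        exact ⟨n, w, hw⟩) hreg
  infer_instance

end Alg

section Chart

variable {A R0 R1 R01 : Type u} [CommRing A] [CommRing R0] [CommRing R1] [CommRing R01]
  [Algebra A R0] [Algebra A R1] [Algebra A R01] [Algebra R0 R01] [Algebra R1 R01]
  [IsScalarTower A R0 R01] [IsScalarTower A R1 R01] (c : TwoChart A R0 R1 R01)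

/-- `J` is comaximal with `s` (the closed subscheme does not meet infinity). -/
def AwayInfty (J : Ideal R1) : Prop := ∃ w : R1, 1 + c.s * w ∈ J

theorem awayInfty_top : AwayInfty c (⊤ : Ideal R1) := ⟨0, Submodule.mem_top⟩

theorem AwayInfty.mul {J J' : Ideal R1} (h : AwayInfty c J) (h' : AwayInfty c J') :
    AwayInfty c (J * J') := by
  obtain ⟨w, hw⟩ := h
  obtain ⟨w', hw'⟩ := h'
  refine ⟨w + w' + c.s * w * w', ?_⟩
  have e : 1 + c.s * (w + w' + c.s * w * w') = (1 + c.s * w) * (1 + c.s * w') := by ring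
  rw [e]
  exact Ideal.mul_mem_mul hw hw'

theorem AwayInfty.pow {J : Ideal R1} (h : AwayInfty c J) (n : ℕ) : AwayInfty c (J ^ n) := by
  induction n with
  | zero => rw [pow_zero, Ideal.one_eq_top]; exact awayInfty_top c
  | succ n ih => rw [pow_succ]; exact ih.mul c h

theorem awayInfty_prod {ι : Type*} (S : Finset ι) (J : ι → Ideal R1) (n : ι → ℕ)
    (h : ∀ i ∈ S, AwayInfty c (J i)) : AwayInfty c (∏ i ∈ S, J i ^ n i) := by
  classical
  induction S using Finset.induction_on with
  | empty => rw [Finset.prod_empty, Ideal.one_eq_top]; exact awayInfty_top c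
  | insert a S ha ih =>
    rw [Finset.prod_insert ha]
    exact ((h a (Finset.mem_insert_self a S)).pow c _).mul c
      (ih fun i hi => h i (Finset.mem_insert_of_mem hi))

/-- The chart-1 ideal of the closure of `V(∏ I_i ^ n_i)` is the product of the chart-1 ideals of the
closures of the `V(I_i)`, when none of these meets infinity. -/
theorem ofChart0_prod_I1 {ι : Type*} (S : Finset ι) (I : ι → Ideal R0) (n : ι → ℕ)
    (h : ∀ i ∈ S, AwayInfty c (IdealPair.ofChart0 c (I i)).I1) :
    (IdealPair.ofChart0 c (∏ i ∈ S, I i ^ n i)).I1 =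
      ∏ i ∈ S, (IdealPair.ofChart0 c (I i)).I1 ^ n i := by
  obtain ⟨w, hw⟩ := awayInfty_prod c S (fun i => (IdealPair.ofChart0 c (I i)).I1) n h
  have hmap : (∏ i ∈ S, (IdealPair.ofChart0 c (I i)).I1 ^ n i).map (algebraMap R1 R01) =
      (∏ i ∈ S, I i ^ n i).map (algebraMap R0 R01) := by
    rw [← Ideal.mapHom_apply, ← Ideal.mapHom_apply, map_prod, map_prod]
    apply Finset.prod_congr rfl
    intro i _
    rw [map_pow, map_pow, Ideal.mapHom_apply, Ideal.mapHom_apply]
    congr 1
    exact (IdealPair.ofChart0 c (I i)).compat.symm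
  show ((∏ i ∈ S, I i ^ n i).map (algebraMap R0 R01)).comap (algebraMap R1 R01) = _
  rw [← hmap]
  exact Fermat.Agent.Jac.Chart43.comap_map_eq_of_one_add_s_mul_mem c _ w hw

end Chart

section Hub

variable {W B0 B1 B01 : Type u} [CommRing W] [CommRing B0] [CommRing B1] [CommRing B01]
  [Algebra W B0] [Algebra W B1] [Algebra W B01] [Algebra B0 B01] [Algebra B1 B01]
  [IsScalarTower W B0 B01] [IsScalarTower W B1 B01]
  (c0 : TwoChart W B0 B1 B01)
  {O : Type u} [CommRing O] [Algebra W O]

/-- The class of the ideal sheaf of the closure of `V(𝔞)`, `𝔞` an invertible ideal of chart 0 with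
finite quotient. -/
noncomputable def clsOfChart0 (𝔞 : Ideal (O ⊗[W] B0)) [Module.Finite O ((O ⊗[W] B0) ⧸ 𝔞)]
    [Module.Invertible (O ⊗[W] B0) 𝔞] : PicX c0 O :=
  LinePic.mk (c0.baseChange O)
    (ofIdeals (c0.baseChange O) (IdealPair.ofChart0 (c0.baseChange O) 𝔞))
    (ConverseDiv60Props.isLine_ofIdeals_ofChart0 (c0.baseChange O) 𝔞)

variable (L : Type u) [CommRing L] [Algebra W L] [Algebra O L] [IsScalarTower W O L]

/-- Base change of `clsOfChart0` for a flat quotient. -/
theorem map_clsOfChart0 (𝔞 : Ideal (O ⊗[W] B0)) [Module.Finite O ((O ⊗[W] B0) ⧸ 𝔞)]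
    [Module.Invertible (O ⊗[W] B0) 𝔞] [Module.Flat O ((O ⊗[W] B0) ⧸ 𝔞)]
    (h' : (ofIdeals (c0.baseChange L) (IdealPair.ofChart0 (c0.baseChange L)
      (𝔞.map (algebraMap (O ⊗[W] B0) (L ⊗[W] B0))))).IsLine) :
    PicX.map c0 O L (clsOfChart0 c0 𝔞) =
      LinePic.mk (c0.baseChange L) (ofIdeals (c0.baseChange L)
        (IdealPair.ofChart0 (c0.baseChange L) (𝔞.map (algebraMap (O ⊗[W] B0) (L ⊗[W] B0))))) h' :=
  LinePic.bc_mk _ _ _ _ (ConverseDiv60Props.isLine_ofIdeals_ofChart0 (c0.baseChange O) 𝔞)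
    (ConverseDiv60BC.liftDataOfIdeals (square_comm W O L B0 B01) (square_comm W O L B1 B01)
      (c0.baseChange O) (c0.baseChange L) (algebraMap_baseChange_s c0 O L) 𝔞)

/-! ### The orbit ideal -/

variable (π : O) {ι : Type*} [Fintype ι] (q : ι → B0 →ₐ[W] O) (n : ι → ℕ)

/-- **The orbit ideal**: the `π`-saturation of `∏ ptIdeal (q s) ^ n s` (the ideal of the closure in
the model of the generic-fibre divisor `∑ n s · q s`). -/
noncomputable def orbitIdeal : Ideal (O ⊗[W] B0) :=
  sat (algebraMap O (O ⊗[W] B0) π) (∏ s, ptIdeal (q s) ^ n s)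

theorem prod_le_orbitIdeal : ∏ s, ptIdeal (q s) ^ n s ≤ orbitIdeal π q n := le_sat _ _

/-- The orbit ideal is the ideal of `OrbitInv.invertible_orbitIdeal` for `C = O ⊗ B0` and the
sections `ptEval (q s) : O ⊗ B0 →ₐ[O] O`. -/
theorem orbitIdeal_eq : orbitIdeal π q n =
    sat (algebraMap O (O ⊗[W] B0) π) (∏ s, RingHom.ker (ptEval (q s)).toRingHom ^ n s) := rfl

/-- The generic fibre of the orbit ideal. -/
theorem orbitIdeal_map (hπ : IsUnit (algebraMap O L π)) :
    (orbitIdeal π q n).map (algebraMap (O ⊗[W] B0) (L ⊗[W] B0)) =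
      ∏ s, ptIdeal (ptComp L (q s)) ^ n s := by
  have hu : IsUnit (algebraMap (O ⊗[W] B0) (L ⊗[W] B0) (algebraMap O (O ⊗[W] B0) π)) := by
    have e : algebraMap (O ⊗[W] B0) (L ⊗[W] B0) (algebraMap O (O ⊗[W] B0) π) =
        algebraMap L (L ⊗[W] B0) (algebraMap O L π) := by
      rw [Algebra.TensorProduct.algebraMap_apply, Algebra.algebraMap_self, RingHom.id_apply,
        algebraMap_left_tmul, Algebra.TensorProduct.algebraMap_apply, Algebra.algebraMap_self,
        RingHom.id_apply]
    rw [e]
    exact hπ.map _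
  rw [orbitIdeal, map_sat_of_isUnit _ hu, ← Ideal.mapHom_apply, map_prod]
  apply Finset.prod_congr rfl
  intro s _
  rw [map_pow, Ideal.mapHom_apply, ptIdeal_map_left]

/-- The quotient by the orbit ideal is finite over `O`. -/
theorem finite_quot_orbitIdeal [Algebra.FiniteType W B0] :
    Module.Finite O ((O ⊗[W] B0) ⧸ orbitIdeal π q n) :=
  finite_quot_of_prod_ker_le Finset.univ (fun s => ptEval (q s)) n _ (prod_le_orbitIdeal π q n)

/-- The quotient by the orbit ideal is flat over the DVR `O`. -/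
theorem flat_quot_orbitIdeal [IsDomain O] [IsDiscreteValuationRing O] (hπ : Irreducible π) :
    Module.Flat O ((O ⊗[W] B0) ⧸ orbitIdeal π q n) :=
  flat_quot_sat hπ _

end Hub

section Main

variable {W B0 B1 B01 : Type u} [CommRing W] [CommRing B0] [CommRing B1] [CommRing B01]
  [Algebra W B0] [Algebra W B1] [Algebra W B01] [Algebra B0 B01] [Algebra B1 B01]
  [IsScalarTower W B0 B01] [IsScalarTower W B1 B01]
  (c0 : TwoChart W B0 B1 B01)
  {O : Type u} [CommRing O] [Algebra W O]
  (L : Type u) [CommRing L] [Algebra W L] [Algebra O L] [IsScalarTower W O L]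

/-- The product over a multiset `∑ n_s • {x_s}`. -/
theorem prod_map_sum_nsmul {ι α β : Type*} [CommMonoid β] (S : Finset ι) (x : ι → α) (n : ι → ℕ)
    (f : α → β) :
    ((∑ s ∈ S, n s • ({x s} : Multiset α)).map f).prod = ∏ s ∈ S, f (x s) ^ n s := by
  classical
  induction S using Finset.induction_on with
  | empty => simp
  | insert a S ha ih =>
    rw [Finset.sum_insert ha, Multiset.map_add, Multiset.prod_add, ih, Finset.prod_insert ha,
      Multiset.map_nsmul, Multiset.prod_nsmul, Multiset.map_singleton, Multiset.prod_singleton]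

/-- The chart-1 ideal of a point of chart 0 does not meet infinity. -/
theorem awayInfty_ptPair0 {A : Type u} [CommRing A] [Algebra W A] (q : B0 →ₐ[W] A) :
    AwayInfty (c0.baseChange A) (IdealPair.ofChart0 (c0.baseChange A) (ptIdeal q)).I1 := by
  refine ⟨-algebraMap A (A ⊗[W] B1) (q c0.t), ?_⟩
  have h := unit_mod_ptPair0 c0 q
  have e : 1 + (c0.baseChange A).s * -algebraMap A (A ⊗[W] B1) (q c0.t) =
      -(algebraMap A (A ⊗[W] B1) (q c0.t) * (c0.baseChange A).s - 1) := by ring
  rw [e]
  exact neg_mem h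

variable (π : O) {ι : Type*} [Fintype ι] (q : ι → B0 →ₐ[W] O) (n : ι → ℕ)

/-- **Φ2 ORBIT-CLASS.**  If the orbit ideal `𝔞 = sat π (∏ ptIdeal (q s) ^ n s)` of a finite family
of `O`-points of chart 0 is invertible (`OrbitInv.invertible_orbitIdeal`), its class in `Pic X_O`
restricts on the generic fibre to `∏ [q s] ^ n s`. -/
theorem map_clsOfChart0_orbitIdeal [IsDomain O] [IsDiscreteValuationRing O]
    [Algebra.FiniteType W B0] (hπ : Irreducible π) (hπL : IsUnit (algebraMap O L π))
    (hinv : Module.Invertible (O ⊗[W] B0) (orbitIdeal π q n))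
    (h : ∀ s, Module.Invertible (L ⊗[W] B0) (ptIdeal (ptComp L (q s)))) :
    haveI := finite_quot_orbitIdeal π q n
    PicX.map c0 O L (clsOfChart0 c0 (orbitIdeal π q n)) =
      ∏ s, ptClass0 c0 (ptComp L (q s)) (h s) ^ n s := by
  classical
  haveI := finite_quot_orbitIdeal π q n
  haveI := flat_quot_orbitIdeal π q n hπ
  -- the multiset of points
  let x : ι → PtIdx c0 L := fun s => (Sum.inl ⟨ptComp L (q s), h s⟩ : PtIdx c0 L)
  set m : Multiset (PtIdx c0 L) := ∑ s, n s • ({x s} : Multiset (PtIdx c0 L)) with hm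
  set D := IdealPair.ofChart0 (c0.baseChange L)
    ((orbitIdeal π q n).map (algebraMap (O ⊗[W] B0) (L ⊗[W] B0))) with hD
  have h0 : D.I0 = (m.map fun x => (ptPairIdx c0 x).I0).prod := by
    rw [hm, prod_map_sum_nsmul]
    show (orbitIdeal π q n).map (algebraMap (O ⊗[W] B0) (L ⊗[W] B0)) = _
    rw [orbitIdeal_map L π q n hπL]
    rfl
  have h1 : D.I1 = (m.map fun x => (ptPairIdx c0 x).I1).prod := by
    rw [hm, prod_map_sum_nsmul, hD, orbitIdeal_map L π q n hπL]
    exact ofChart0_prod_I1 (c0.baseChange L) Finset.univ (fun s => ptIdeal (ptComp L (q s))) n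
      (fun s _ => awayInfty_ptPair0 c0 (ptComp L (q s)))
  have hline : (ofIdeals (c0.baseChange L) D).IsLine := isLine_ofIdeals_of_prod c0 D m h0 h1
  rw [map_clsOfChart0 c0 L (orbitIdeal π q n) hline, mk_ofIdeals_eq_prod c0 D m h0 h1 hline, hm,
    prod_map_sum_nsmul]
  rfl

end Main

end Fermat.Agent.T1B.Node45.OrbitClass
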