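/-
Programme T1B (row 38 / S44), cell (I) NODE/PHI (helper45), part Φ6 brick (C): **NODE PART**.

`c0 : TwoChart W B0 B1 B01` the hub, `O` a DVR over `W` with uniformiser `π`, `L ⊇ O` with `π`
invertible, `q s : B0 →ₐ[W] O` a finite family of `O`-points of chart 0 with multiplicities `n s`, all
reducing to the same NODE `𝔫` of `C = O ⊗ B0`: the localisation `A` of `C` at `𝔫` carries a
`NodeData … x y K` whose coordinates `x = x₀`, `y = y₀` come from `C`.

* `exists_exponent` : a section `φ : A →ₐ[O] O` through a node has `φ x = π ^ j · unit`, `0 < j < K`;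
* `sum_mul_eq_of_associated` : if `∏ φ_s(x) ^ n_s ∼ π ^ (K m)` then `∑ n_s j_s = m K`;
* `exists_lift_section` : a section of `C` whose reduction is `𝔫` extends to `A`;
* **`exists_cls_of_node`** : if `∏ q_s(x₀) ^ n_s ∼ π ^ (K m)` (the ARITHMETIC input: the family is
  stable under inertia, so the product lies in the unramified subfield, where valuations are
  multiples of `K = e`) then the class `∏ [q_s] ^ n_s` of the generic fibre EXTENDS to `Pic X_O`;
* `associated_pow_of_fixed` : the arithmetic input from the invariance of the product under a set of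
  automorphisms whose fixed elements have valuation in `K ℕ`.
-/
import Mathlib
import Fermat.Agent.T1B.Node45.OrbitClass

set_option autoImplicit false
set_option linter.unusedSectionVars false
set_option linter.style.haveILetI false

open TensorProduct

namespace Fermat.Agent.T1B.Node45.NodePart

open Fermat.Agent.Jac Fermat.Agent.Jac.JSmooth85Alg Fermat.Agent.Jac.JGroup85Pic
open Fermat.Agent.Jac.BaseChange75 Fermat.Agent.Jac.LineOps39 Fermat.Agent.T1.RedIface75
open Fermat.Agent.T1.PtLine75 Fermat.Agent.T1.Peu37.NodeClassGroup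
open Fermat.Agent.T1B.Node45.OrbitInv Fermat.Agent.T1B.Node45.OrbitClass
open scoped Fermat.Agent.Jac.BaseChange75

universe u

section Local

variable {O A : Type*} [CommRing O] [IsDomain O] [IsDiscreteValuationRing O]
  [CommRing A] [IsDomain A] [IsLocalRing A] [Algebra O A]
  {v₁ v₂ : A → ℕ} {P₁ P₂ : Ideal A} {π : O} {x y : A} {K : ℕ}

omit [IsDiscreteValuationRing O] [IsDomain A] in
/-- A section of a local `O`-algebra maps the maximal ideal to non-units. -/
theorem not_isUnit_of_mem_maximalIdeal (φ : A →ₐ[O] O) {a : A}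
    (ha : a ∈ IsLocalRing.maximalIdeal A) : ¬ IsUnit (φ a) := by
  intro hu
  obtain ⟨w, hw⟩ := hu
  -- `a - w` is a unit of `A` killed by `φ`
  have h1 : φ (a - algebraMap O A (w : O)) = 0 := by
    rw [map_sub, AlgHom.commutes, Algebra.algebraMap_self, RingHom.id_apply, hw, sub_self]
  have h2 : IsUnit (a - algebraMap O A (w : O)) := by
    have hwu : IsUnit (algebraMap O A (w : O)) := w.isUnit.map _
    by_contra hnu
    have h3 : a - algebraMap O A (w : O) ∈ IsLocalRing.maximalIdeal A :=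
      (IsLocalRing.mem_maximalIdeal _).2 hnu
    have h4 : algebraMap O A (w : O) ∈ IsLocalRing.maximalIdeal A := by
      have := Ideal.sub_mem _ ha h3
      rwa [sub_sub_cancel] at this
    exact (IsLocalRing.mem_maximalIdeal _).1 h4 hwu
  have h5 : IsUnit (φ (a - algebraMap O A (w : O))) := h2.map φ
  rw [h1] at h5
  exact not_isUnit_zero h5

/-- A section through a node: `φ x = π ^ j · unit` with `0 < j < K`. -/
theorem exists_exponent (hirr : Irreducible π)
    (D : NodeData A v₁ v₂ P₁ P₂ (algebraMap O A π) x y K) (φ : A →ₐ[O] O) :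
    ∃ (j : ℕ) (u : O), IsUnit u ∧ 0 < j ∧ j < K ∧ φ x = π ^ j * u := by
  have hxm : x ∈ IsLocalRing.maximalIdeal A := by
    rw [D.max_eq]; exact Ideal.subset_span (by simp)
  have hym : y ∈ IsLocalRing.maximalIdeal A := by
    rw [D.max_eq]; exact Ideal.subset_span (by simp)
  have hxnu := not_isUnit_of_mem_maximalIdeal φ hxm
  have hynu := not_isUnit_of_mem_maximalIdeal φ hym
  obtain ⟨ε, hε, hrel⟩ := D.rel
  have hφπ : φ (algebraMap O A π) = π := by
    rw [AlgHom.commutes, Algebra.algebraMap_self, RingHom.id_apply]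
  have hrel' : φ x * φ y = π ^ K * φ ε := by
    rw [← map_mul, hrel, map_mul, map_pow, hφπ]
  obtain ⟨w, hw⟩ := hε.map φ
  have hne : π ^ K * φ ε ≠ 0 :=
    mul_ne_zero (pow_ne_zero _ hirr.ne_zero) (hw ▸ w.ne_zero)
  have hx0 : φ x ≠ 0 := fun h => hne (by rw [← hrel', h, zero_mul])
  have hy0 : φ y ≠ 0 := fun h => hne (by rw [← hrel', h, mul_zero])
  obtain ⟨j, u, hju⟩ := IsDiscreteValuationRing.eq_unit_mul_pow_irreducible hx0 hirr
  obtain ⟨j', u', hju'⟩ := IsDiscreteValuationRing.eq_unit_mul_pow_irreducible hy0 hirr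
  have hj0 : 0 < j := by
    rcases Nat.eq_zero_or_pos j with h | h
    · exfalso
      apply hxnu
      rw [hju, h, pow_zero, mul_one]
      exact u.isUnit
    · exact h
  have hj'0 : 0 < j' := by
    rcases Nat.eq_zero_or_pos j' with h | h
    · exfalso
      apply hynu
      rw [hju', h, pow_zero, mul_one]
      exact u'.isUnit
    · exact h
  have hsum : j + j' = K := by
    have e : ((u * u' : Oˣ) : O) * π ^ (j + j') = (w : O) * π ^ K := by
      rw [hw, mul_comm (φ ε), ← hrel', hju, hju', Units.val_mul, pow_add]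
      ring
    exact IsDiscreteValuationRing.unit_mul_pow_congr_pow hirr hirr _ _ _ _ e
  refine ⟨j, u, u.isUnit, hj0, by omega, ?_⟩
  rw [hju, mul_comm]

/-- The arithmetic: if `∏ (π ^ j_s u_s) ^ n_s ∼ π ^ (K m)` then `∑ n_s j_s = m K`. -/
theorem sum_mul_eq_of_associated (hirr : Irreducible π) {ι : Type*} (S : Finset ι) (n j : ι → ℕ)
    (u : ι → O) (hu : ∀ s ∈ S, IsUnit (u s)) {K m : ℕ}
    (h : Associated (∏ s ∈ S, (π ^ j s * u s) ^ n s) (π ^ (K * m))) :
    ∑ s ∈ S, n s * j s = m * K := by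
  classical
  have e : ∏ s ∈ S, (π ^ j s * u s) ^ n s =
      (∏ s ∈ S, u s ^ n s) * π ^ (∑ s ∈ S, n s * j s) := by
    rw [← Finset.prod_pow_eq_pow_sum, ← Finset.prod_mul_distrib]
    apply Finset.prod_congr rfl
    intro s _
    rw [mul_pow, ← pow_mul, mul_comm (j s), mul_comm]
  have hU : IsUnit (∏ s ∈ S, u s ^ n s) := by
    have hgen : ∀ T : Finset ι, (∀ s ∈ T, IsUnit (u s)) → IsUnit (∏ s ∈ T, u s ^ n s) := by
      intro T
      induction T using Finset.induction_on with
      | empty => intro _; simp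
      | insert a T ha ih =>
        intro hT
        rw [Finset.prod_insert ha]
        exact ((hT a (Finset.mem_insert_self a T)).pow _).mul
          (ih (fun s hs => hT s (Finset.mem_insert_of_mem hs)))
    exact hgen S hu
  obtain ⟨w, hw⟩ := hU
  obtain ⟨w', hw'⟩ := h
  rw [e, ← hw] at hw'
  have e2 : ((w * w' : Oˣ) : O) * π ^ (∑ s ∈ S, n s * j s) = ((1 : Oˣ) : O) * π ^ (K * m) := by
    rw [Units.val_mul, Units.val_one, one_mul, ← hw']
    ring
  have := IsDiscreteValuationRing.unit_mul_pow_congr_pow hirr hirr _ _ _ _ e2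
  rw [this, mul_comm]

end Local

section Lift

variable {O C A : Type*} [CommRing O] [CommRing C] [CommRing A] [Algebra O C] [Algebra C A]
  [Algebra O A] [IsScalarTower O C A]

/-- A section of `C` whose non-unit locus is the prime `𝔫` extends to the localisation at `𝔫`. -/
theorem exists_lift_section (𝔫 : Ideal C) [𝔫.IsPrime] [IsLocalization.AtPrime A 𝔫]
    (q : C →ₐ[O] O) (h𝔫 : ∀ c, c ∈ 𝔫 ↔ ¬ IsUnit (q c)) :
    ∃ φ : A →ₐ[O] O, ∀ c, φ (algebraMap C A c) = q c := by
  have hg : ∀ y : 𝔫.primeCompl, IsUnit ((q : C →+* O) (y : C)) := by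
    intro y
    by_contra hnu
    exact y.2 ((h𝔫 _).2 hnu)
  refine ⟨{ IsLocalization.lift (M := 𝔫.primeCompl) (S := A) hg with
    commutes' := fun r => ?_ }, fun c => ?_⟩
  · show IsLocalization.lift (M := 𝔫.primeCompl) (S := A) hg (algebraMap O A r) = _
    rw [IsScalarTower.algebraMap_apply O C A, IsLocalization.lift_eq]
    show q (algebraMap O C r) = _
    rw [AlgHom.commutes]
  · exact IsLocalization.lift_eq hg c

end Lift

section Hub

variable {W B0 B1 B01 : Type u} [CommRing W] [CommRing B0] [CommRing B1] [CommRing B01]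
  [Algebra W B0] [Algebra W B1] [Algebra W B01] [Algebra B0 B01] [Algebra B1 B01]
  [IsScalarTower W B0 B01] [IsScalarTower W B1 B01]
  (c0 : TwoChart W B0 B1 B01)
  {O : Type u} [CommRing O] [IsDomain O] [IsDiscreteValuationRing O] [Algebra W O]
  (L : Type u) [CommRing L] [Algebra W L] [Algebra O L] [IsScalarTower W O L]

/-- **(C) NODE PART.**  A family of `O`-points of chart 0 through a node `𝔫` (with `NodeData` of
thickness `K` on the localisation, coordinates from `C = O ⊗ B0`) such that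
`∏ q_s(x₀) ^ n_s ∼ π ^ (K m)` has an invertible orbit ideal, and the class `∏ [q_s] ^ n_s` of the
generic fibre extends to `Pic X_O`. -/
theorem exists_cls_of_node [Algebra.FiniteType W B0] [IsDomain (O ⊗[W] B0)]
    [IsNoetherianRing (O ⊗[W] B0)] {π : O} (hirr : Irreducible π)
    (hπL : IsUnit (algebraMap O L π))
    {ι : Type*} [Fintype ι] (q : ι → B0 →ₐ[W] O) (n : ι → ℕ)
    (𝔫 : Ideal (O ⊗[W] B0)) [𝔫.IsPrime] (h𝔫 : ∀ s c, c ∈ 𝔫 ↔ ¬ IsUnit (ptEval (q s) c))
    {A : Type u} [CommRing A] [IsDomain A] [IsLocalRing A] [IsNoetherianRing A]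
    [Algebra (O ⊗[W] B0) A] [IsLocalization.AtPrime A 𝔫] [Algebra O A]
    [IsScalarTower O (O ⊗[W] B0) A]
    {v₁ v₂ : A → ℕ} {P₁ P₂ : Ideal A} (x₀ y₀ : O ⊗[W] B0) {K : ℕ}
    (D : NodeData A v₁ v₂ P₁ P₂ (algebraMap O A π) (algebraMap (O ⊗[W] B0) A x₀)
      (algebraMap (O ⊗[W] B0) A y₀) K)
    {m : ℕ} (hK : Associated (∏ s, ptEval (q s) x₀ ^ n s) (π ^ (K * m)))
    (h : ∀ s, Module.Invertible (L ⊗[W] B0) (ptIdeal (ptComp L (q s)))) :
    Module.Invertible (O ⊗[W] B0) (orbitIdeal π q n) ∧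
    ∃ z : PicX c0 O, PicX.map c0 O L z = ∏ s, ptClass0 c0 (ptComp L (q s)) (h s) ^ n s := by
  classical
  choose φ hφ using fun s => exists_lift_section (A := A) 𝔫 (ptEval (q s)) (h𝔫 s)
  choose j u hu hj0 hjK hx using fun s => exists_exponent hirr D (φ s)
  have hval : ∀ s, ptEval (q s) x₀ = π ^ j s * u s := fun s => by rw [← hφ s x₀, hx s]
  have ha : ∑ s, n s * j s = m * K := by
    apply sum_mul_eq_of_associated hirr Finset.univ n j u (fun s _ => hu s)
    have e : ∏ s, (π ^ j s * u s) ^ n s = ∏ s, ptEval (q s) x₀ ^ n s :=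
      Finset.prod_congr rfl (fun s _ => by rw [hval s])
    rw [e]
    exact hK
  have hinv : Module.Invertible (O ⊗[W] B0) (orbitIdeal π q n) := by
    rw [orbitIdeal_eq]
    exact invertible_orbitIdeal π (fun s => ptEval (q s)) n 𝔫 h𝔫 φ hφ D u hu j hj0 hjK hx ha
  haveI := finite_quot_orbitIdeal π q n
  exact ⟨hinv, clsOfChart0 c0 (orbitIdeal π q n),
    map_clsOfChart0_orbitIdeal c0 L π q n hirr hπL hinv h⟩

/-- Variant of `exists_cls_of_node` in which the arithmetic input may assume that the product is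
nonzero (it always is: every `q_s(x₀)` is `π ^ j · unit`). -/
theorem exists_cls_of_node' [Algebra.FiniteType W B0] [IsDomain (O ⊗[W] B0)]
    [IsNoetherianRing (O ⊗[W] B0)] {π : O} (hirr : Irreducible π)
    (hπL : IsUnit (algebraMap O L π))
    {ι : Type*} [Fintype ι] (q : ι → B0 →ₐ[W] O) (n : ι → ℕ)
    (𝔫 : Ideal (O ⊗[W] B0)) [𝔫.IsPrime] (h𝔫 : ∀ s c, c ∈ 𝔫 ↔ ¬ IsUnit (ptEval (q s) c))
    {A : Type u} [CommRing A] [IsDomain A] [IsLocalRing A] [IsNoetherianRing A]
    [Algebra (O ⊗[W] B0) A] [IsLocalization.AtPrime A 𝔫] [Algebra O A]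
    [IsScalarTower O (O ⊗[W] B0) A]
    {v₁ v₂ : A → ℕ} {P₁ P₂ : Ideal A} (x₀ y₀ : O ⊗[W] B0) {K : ℕ}
    (D : NodeData A v₁ v₂ P₁ P₂ (algebraMap O A π) (algebraMap (O ⊗[W] B0) A x₀)
      (algebraMap (O ⊗[W] B0) A y₀) K)
    (hK : (∏ s, ptEval (q s) x₀ ^ n s) ≠ 0 →
      ∃ m : ℕ, Associated (∏ s, ptEval (q s) x₀ ^ n s) (π ^ (K * m)))
    (h : ∀ s, Module.Invertible (L ⊗[W] B0) (ptIdeal (ptComp L (q s)))) :
    Module.Invertible (O ⊗[W] B0) (orbitIdeal π q n) ∧
    ∃ z : PicX c0 O, PicX.map c0 O L z = ∏ s, ptClass0 c0 (ptComp L (q s)) (h s) ^ n s := by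
  classical
  have hne : (∏ s, ptEval (q s) x₀ ^ n s) ≠ 0 := by
    apply Finset.prod_ne_zero_iff.2
    intro s _
    apply pow_ne_zero
    obtain ⟨φ, hφ⟩ := exists_lift_section (A := A) 𝔫 (ptEval (q s)) (h𝔫 s)
    obtain ⟨j, u, hu, -, -, hx⟩ := exists_exponent hirr D φ
    rw [← hφ x₀, hx]
    exact mul_ne_zero (pow_ne_zero _ hirr.ne_zero) hu.ne_zero
  obtain ⟨m, hm⟩ := hK hne
  exact exists_cls_of_node c0 L hirr hπL q n 𝔫 h𝔫 x₀ y₀ D hm h

end Hub

section Fixed

variable {O : Type*} [CommRing O] [IsDomain O] [IsDiscreteValuationRing O]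

/-- The arithmetic input from invariance: if every nonzero element fixed by the automorphisms `F g`
is associated to a power of `π ^ K`, and the family of values is permuted by the `F g`, then the
product is associated to a power of `π ^ K`. -/
theorem associated_pow_of_fixed {π : O} {K : ℕ} {G : Type*} (F : G → O →+* O)
    (hU : ∀ a : O, a ≠ 0 → (∀ g, F g a = a) → ∃ m : ℕ, Associated a (π ^ (K * m)))
    {ι : Type*} [Fintype ι] (val : ι → O) (n : ι → ℕ) (hval : ∀ s, val s ≠ 0)
    (hperm : ∀ g, ∃ σ : ι ≃ ι, (∀ s, n (σ s) = n s) ∧ ∀ s, val (σ s) = F g (val s)) :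
    ∃ m : ℕ, Associated (∏ s, val s ^ n s) (π ^ (K * m)) := by
  apply hU
  · exact Finset.prod_ne_zero_iff.2 (fun s _ => pow_ne_zero _ (hval s))
  · intro g
    obtain ⟨σ, hn, hσ⟩ := hperm g
    rw [map_prod]
    rw [← Equiv.prod_comp σ (fun s => val s ^ n s)]
    apply Finset.prod_congr rfl
    intro s _
    rw [map_pow, hσ, hn]

end Fixed

end Fermat.Agent.T1B.Node45.NodePart
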