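/-
Programme T1B (row 38 / S44), cell (I) NODE/PHI (helper45), part Φ6 brick (E): **(EXT)**, abstract
one-level form.

`c0 : TwoChart W B0 B1 B01` the hub, `O` a DVR over `W` with uniformiser `π`, `L = Frac O`,
`(τL g, τO g)` a family of compatible `W`-automorphisms of `L`, `O` which are trivial on the residue
field of `O` (the image of inertia).  MODEL HYPOTHESES at the level `O`:
* `hSm0` : an `O`-point of chart 0 whose reduction is not a node has invertible ideal;
* `hSm1` : an `O`-point of chart 1 reducing into `s = 0` has invertible ideal;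
* `hNode` : at a node `𝔫` of chart 0, `NodeData` of thickness `K` on `Localization.AtPrime 𝔫` with
  coordinates `1 ⊗ bx`, `1 ⊗ by` coming from `B0` (the unramified level);
* `hU` (arithmetic) : a nonzero element of `O` fixed by all `τO g` is associated to a power of
  `π ^ K` (`K = e`: fixed elements lie in the unramified subfield).

**`exists_ext_of_stable`** : every multiset `s` of `L`-points which is stable under all `τL g` has a
class `msCls s = ∏ [x]` which EXTENDS to `Pic X_O`.
(Models and partition by reduction: helper43's `Desc43.IntModel`; node part: `NodePart`.)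
-/
import Mathlib
import Fermat.Agent.T1B.Node45.NodePart
import Fermat.Agent.T1B.Desc43.IntModel

set_option autoImplicit false
set_option linter.unusedSectionVars false
set_option linter.style.haveILetI false

open TensorProduct

namespace Fermat.Agent.T1B.Node45.Ext

open Fermat.Agent.Jac Fermat.Agent.Jac.JSmooth85Alg Fermat.Agent.Jac.JGroup85Pic
open Fermat.Agent.Jac.BaseChange75 Fermat.Agent.Jac.LineOps39 Fermat.Agent.T1.RedIface75
open Fermat.Agent.T1.PtLine75 Fermat.Agent.T1.Peu37.NodeClassGroup
open Fermat.Agent.T1B.Desc1 Fermat.Agent.T1B.Desc8.Effective Fermat.Agent.T1B.Desc43.IntModel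
open Fermat.Agent.T1B.Node45.OrbitClass Fermat.Agent.T1B.Node45.NodePart
open scoped Fermat.Agent.Jac.BaseChange75

universe u

section General

/-- A product over a multiset lies in a subgroup as soon as the products over all the fibres of a
function `r` do. -/
theorem prod_mem_of_fibres {α β M : Type*} [CommGroup M] (H : Subgroup M) (f : α → M) (r : α → β)
    (S : Multiset α)
    (h : ∀ b : β, ∀ [DecidablePred fun a => r a = b], ((S.filter fun a => r a = b).map f).prod ∈ H) :
    (S.map f).prod ∈ H := by
  classical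
  induction S using Multiset.strongInductionOn with
  | ih S ih =>
    rcases Multiset.empty_or_exists_mem S with rfl | ⟨a, ha⟩
    · simp
    · set b := r a with hb
      have hsplit := Multiset.filter_add_not (fun x => r x = b) S
      rw [← hsplit, Multiset.map_add, Multiset.prod_add]
      refine H.mul_mem (h b) ?_
      apply ih
      · -- strictly smaller
        apply Multiset.lt_iff_cons_le.2
        refine ⟨a, ?_⟩
        rw [← Multiset.singleton_add]
        conv_rhs => rw [← hsplit, add_comm]
        rw [add_comm]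
        apply Multiset.add_le_add_left
        rw [Multiset.singleton_le]
        exact Multiset.mem_filter.2 ⟨ha, rfl⟩
      · intro b' _
        rw [Multiset.filter_filter]
        by_cases hbb : b' = b
        · have : (S.filter fun x => r x = b' ∧ ¬ r x = b) = 0 := by
            rw [Multiset.filter_eq_nil]
            intro x _ hx
            exact hx.2 (hx.1.trans hbb)
          rw [this]
          simp
        · have : (S.filter fun x => r x = b' ∧ ¬ r x = b) = S.filter fun x => r x = b' := by
            apply Multiset.filter_congr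
            intro x _
            constructor
            · exact fun hx => hx.1
            · exact fun hx => ⟨hx, fun hxb => hbb (hx.symm.trans hxb)⟩
          rw [this]
          convert h b'

/-- The product of a function over a multiset as a product over `Fin`. -/
theorem prod_fin_toList {α M : Type*} [CommMonoid M] (S : Multiset α) (f : α → M) :
    ∏ i : Fin S.toList.length, f (S.toList.get i) = (S.map f).prod := by
  have h1 : ∏ i : Fin S.toList.length, f (S.toList.get i) = (S.toList.map f).prod := by
    simp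
  rw [h1]
  conv_rhs => rw [← Multiset.coe_toList S]
  rw [Multiset.map_coe, Multiset.prod_coe]

end General

variable {W B0 B1 B01 : Type u} [CommRing W] [CommRing B0] [CommRing B1] [CommRing B01]
  [Algebra W B0] [Algebra W B1] [Algebra W B01] [Algebra B0 B01] [Algebra B1 B01]
  [IsScalarTower W B0 B01] [IsScalarTower W B1 B01]
  (c0 : TwoChart W B0 B1 B01)
  (O : Type u) [CommRing O] [IsDomain O] [IsDiscreteValuationRing O] [Algebra W O]
  (L : Type u) [Field L] [Algebra W L] [Algebra O L] [IsScalarTower W O L] [IsFractionRing O L]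

/-- **(EXT), abstract one-level form.** -/
theorem exists_ext_of_stable [Algebra.FiniteType W B0] [IsDomain (O ⊗[W] B0)]
    [IsNoetherianRing (O ⊗[W] B0)]
    (hint0 : ∀ b : B0, IsIntegral (Algebra.adjoin W {c0.t}) b)
    (hint1 : ∀ b : B1, IsIntegral (Algebra.adjoin W {c0.s}) b)
    (hinvL0 : ∀ q : B0 →ₐ[W] L, Module.Invertible (L ⊗[W] B0) (ptIdeal q))
    (hinvL1 : ∀ q : B1 →ₐ[W] L, Module.Invertible (L ⊗[W] B1) (ptIdeal q))
    {π : O} (hirr : Irreducible π)
    {G : Type*} (τL : G → L ≃ₐ[W] L) (τO : G → O ≃ₐ[W] O)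
    (hcomp : ∀ g a, τL g (algebraMap O L a) = algebraMap O L (τO g a))
    (hres : ∀ g a, τO g a - a ∈ IsLocalRing.maximalIdeal O)
    (K : ℕ)
    (hU : ∀ a : O, a ≠ 0 → (∀ g, τO g a = a) → ∃ m : ℕ, Associated a (π ^ (K * m)))
    (IsNode : Ideal (O ⊗[W] B0) → Prop)
    (hSm0 : ∀ q : B0 →ₐ[W] O, ¬ IsNode (redIdeal O q) →
      Module.Invertible (O ⊗[W] B0) (ptIdeal q))
    (hSm1 : ∀ q : B1 →ₐ[W] O, q c0.s ∈ IsLocalRing.maximalIdeal O →
      Module.Invertible (O ⊗[W] B1) (ptIdeal q))
    (hNode : ∀ (𝔫 : Ideal (O ⊗[W] B0)) [𝔫.IsMaximal], IsNode 𝔫 →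
      ∃ (v₁ v₂ : Localization.AtPrime 𝔫 → ℕ) (P₁ P₂ : Ideal (Localization.AtPrime 𝔫))
        (bx bY : B0),
        NodeData (Localization.AtPrime 𝔫) v₁ v₂ P₁ P₂
          (algebraMap O (Localization.AtPrime 𝔫) π)
          (algebraMap (O ⊗[W] B0) (Localization.AtPrime 𝔫) ((1 : O) ⊗ₜ[W] bx))
          (algebraMap (O ⊗[W] B0) (Localization.AtPrime 𝔫) ((1 : O) ⊗ₜ[W] bY)) K)
    (s : Multiset (PtIdx c0 L)) (hs : ∀ g, s.map (twistIdx c0 (τL g)) = s) :
    ∃ x : PicX c0 O, PicX.map c0 O L x = msCls c0 s := by
  classical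
  have hπL : IsUnit (algebraMap O L π) :=
    IsUnit.mk0 _ (fun h0 => hirr.ne_zero
      ((IsFractionRing.injective O L) (by rw [h0, map_zero])))
  obtain ⟨S0, S1, hcls, hS1, hstab⟩ := exists_models c0 O L hint0 hint1 hinvL0 hinvL1 s
  -- everything happens in the range of the base change map
  set H : Subgroup (PicX c0 L) := (PicX.map c0 O L).range with hH
  suffices hmem : msCls c0 s ∈ H by
    obtain ⟨x, hx⟩ := hmem
    exact ⟨x, hx⟩
  rw [hcls]
  refine H.mul_mem ?_ ?_
  · -- chart 0: fibre by fibre
    refine prod_mem_of_fibres H _ (fun q : B0 →ₐ[W] O => redIdeal O q) S0 ?_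
    intro 𝔫 _
    set T : Multiset (B0 →ₐ[W] O) := S0.filter fun q => redIdeal O q = 𝔫 with hT
    by_cases hnode : IsNode 𝔫
    · -- a node
      rcases Multiset.empty_or_exists_mem T with hT0 | ⟨q₀, hq₀⟩
      · rw [hT0]; simp
      have h𝔫eq : redIdeal O q₀ = 𝔫 := (Multiset.mem_filter.1 hq₀).2
      haveI hmax : 𝔫.IsMaximal := h𝔫eq ▸ redIdeal_isMaximal O q₀
      obtain ⟨v₁, v₂, P₁, P₂, bx, bY, D⟩ := hNode 𝔫 hnode
      -- the family
      let qf : Fin T.toList.length → B0 →ₐ[W] O := fun i => T.toList.get i
      have hqf : ∀ i, redIdeal O (qf i) = 𝔫 := by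
        intro i
        have : qf i ∈ T := by
          rw [← Multiset.mem_toList]
          exact List.get_mem _ _
        exact (Multiset.mem_filter.1 this).2
      have h𝔫 : ∀ i c, c ∈ 𝔫 ↔ ¬ IsUnit (ptEval (qf i) c) := by
        intro i c
        rw [← hqf i, mem_redIdeal, IsLocalRing.mem_maximalIdeal, mem_nonunits_iff]
      -- the arithmetic input
      have hprod : ∏ i, ptEval (qf i) ((1 : O) ⊗ₜ[W] bx) ^ (1 : ℕ) =
          (T.map fun q => q bx).prod := by
        rw [← prod_fin_toList T fun q => q bx]
        apply Finset.prod_congr rfl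
        intro i _
        rw [pow_one, ptEval_tmul, one_mul]
      have hKin : (∏ i, ptEval (qf i) ((1 : O) ⊗ₜ[W] bx) ^ (1 : ℕ)) ≠ 0 →
          ∃ m : ℕ, Associated (∏ i, ptEval (qf i) ((1 : O) ⊗ₜ[W] bx) ^ (1 : ℕ))
            (π ^ (K * m)) := by
        intro hne
        apply hU _ hne
        intro g
        rw [hprod, map_multiset_prod, Multiset.map_map]
        have hTst : T.map (fun q => (τO g : O →ₐ[W] O).comp q) = T :=
          ((hstab (τL g) (τO g) (hcomp g) (hs g)).2 (hres g)).1 𝔫
        conv_rhs => rw [← hTst, Multiset.map_map]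
        rfl
      obtain ⟨-, z, hz⟩ := exists_cls_of_node' c0 L hirr hπL qf (fun _ => 1) 𝔫 h𝔫
        ((1 : O) ⊗ₜ[W] bx) ((1 : O) ⊗ₜ[W] bY) D hKin (fun i => hinvL0 _)
      refine ⟨z, ?_⟩
      rw [hz, ← prod_fin_toList T fun q => ptClass0 c0 (ptComp L q) (hinvL0 _)]
      apply Finset.prod_congr rfl
      intro i _
      rw [pow_one]
    · -- smooth points
      apply Subgroup.multiset_prod_mem
      intro y hy
      obtain ⟨q, hq, rfl⟩ := Multiset.mem_map.1 hy
      have hq𝔫 : redIdeal O q = 𝔫 := (Multiset.mem_filter.1 hq).2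
      have hinv : Module.Invertible (O ⊗[W] B0) (ptIdeal q) := hSm0 q (by rw [hq𝔫]; exact hnode)
      exact ⟨ptClass0 c0 q hinv, map_ptClass0 c0 L q hinv (hinvL0 _)⟩
  · -- chart 1: all smooth
    apply Subgroup.multiset_prod_mem
    intro y hy
    obtain ⟨q, hq, rfl⟩ := Multiset.mem_map.1 hy
    have hinv : Module.Invertible (O ⊗[W] B1) (ptIdeal q) := hSm1 q (hS1 q hq)
    exact ⟨ptClass1 c0 q hinv, map_ptClass1 c0 L q hinv (hinvL1 _)⟩

end Fermat.Agent.T1B.Node45.Ext
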