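/-
Programme T1B (row 38 / S44), cell (I) NODE/PHI (helper45), PHI7 plan (report 1166):
**(EXT) with node coordinates which are only FIXED by the automorphism family.**

Same statement as `Ext.exists_ext_of_stable`, but at a node `𝔫` the coordinates `X Y : O ⊗[W] B0` of
the node datum are arbitrary elements whose evaluation is equivariant,
  `ptEval ((τO g).comp q) X = τO g (ptEval q X)`   for all `g` and all `O`-points `q`,
instead of being of the form `1 ⊗ b`.  This holds for `X` in the image of `O₀ ⊗[W] B0` for a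
subring `O₀` fixed by all `τO g` (`ptEval_comp_of_fixed`): in the application `O₀` is the DVR of the
inertia field, where the thickness-one node datum lives (`NodeBC.exists_nodeData_localization`).
-/
import Mathlib
import Fermat.Agent.T1B.Node45.Ext

set_option autoImplicit false
set_option linter.unusedSectionVars false
set_option linter.style.haveILetI false

open TensorProduct

namespace Fermat.Agent.T1B.Node45.Ext2

open Fermat.Agent.Jac Fermat.Agent.Jac.JSmooth85Alg Fermat.Agent.Jac.JGroup85Pic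
open Fermat.Agent.Jac.BaseChange75 Fermat.Agent.Jac.LineOps39 Fermat.Agent.T1.RedIface75
open Fermat.Agent.T1.PtLine75 Fermat.Agent.T1.Peu37.NodeClassGroup
open Fermat.Agent.T1B.Desc1 Fermat.Agent.T1B.Desc8.Effective Fermat.Agent.T1B.Desc43.IntModel
open Fermat.Agent.T1B.Node45.OrbitClass Fermat.Agent.T1B.Node45.NodePart
open Fermat.Agent.T1B.Node45.Ext
open scoped Fermat.Agent.Jac.BaseChange75

universe u

section Fixed

variable {W : Type u} [CommRing W] {O₀ O B : Type u} [CommRing O₀] [CommRing O] [CommRing B]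
  [Algebra W O₀] [Algebra W O] [Algebra W B]

/-- Elements coming from `O₀ ⊗[W] B`, with `O₀` fixed by `τ`, have equivariant evaluations. -/
theorem ptEval_comp_of_fixed (ι : O₀ →ₐ[W] O) (τ : O ≃ₐ[W] O) (hτ : ∀ a, τ (ι a) = ι a)
    (q : B →ₐ[W] O) (X₀ : O₀ ⊗[W] B) :
    ptEval ((τ : O →ₐ[W] O).comp q) (Algebra.TensorProduct.map ι (AlgHom.id W B) X₀) =
      τ (ptEval q (Algebra.TensorProduct.map ι (AlgHom.id W B) X₀)) := by
  induction X₀ using TensorProduct.induction_on with
  | zero => simp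
  | add x y hx hy => rw [map_add, map_add, map_add, map_add, hx, hy]
  | tmul a b =>
    rw [Algebra.TensorProduct.map_tmul, ptEval_tmul, ptEval_tmul, map_mul, hτ]
    rfl

end Fixed

variable {W B0 B1 B01 : Type u} [CommRing W] [CommRing B0] [CommRing B1] [CommRing B01]
  [Algebra W B0] [Algebra W B1] [Algebra W B01] [Algebra B0 B01] [Algebra B1 B01]
  [IsScalarTower W B0 B01] [IsScalarTower W B1 B01]
  (c0 : TwoChart W B0 B1 B01)
  (O : Type u) [CommRing O] [IsDomain O] [IsDiscreteValuationRing O] [Algebra W O]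
  (L : Type u) [Field L] [Algebra W L] [Algebra O L] [IsScalarTower W O L] [IsFractionRing O L]

/-- **(EXT), abstract one-level form, with fixed node coordinates.** -/
theorem exists_ext_of_stable' [Algebra.FiniteType W B0] [IsDomain (O ⊗[W] B0)]
    [IsNoetherianRing (O ⊗[W] B0)]
    (hint0 : ∀ b : B0, IsIntegral (Algebra.adjoin W {c0.t}) b)
    (hint1 : ∀ b : B1, IsIntegral (Algebra.adjoin W {c0.s}) b)
    (hinvL0 : ∀ q : B0 →ₐ[W] L, Module.Invertible (L ⊗[W] B0) (ptIdeal q))
    (hinvL1 : ∀ q : B1 →ₐ[W] L, Module.Invertible (L ⊗[W] B1) (ptIdeal q))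
    {π : O} (hirr : Irreducible π)
    {G : Type*} (τL : G → L ≃ₐ[W] L) (τO : G → O ≃ₐ[W] O)
    (hcomp : ∀ g a, τL g (algebraMap O L a) = algebraMap O L (τO g a))
    (hres : ∀ g a, τO g a - a ∈ IsLocalRing.maximalIdeal O)
    (K : ℕ)
    (hU : ∀ a : O, a ≠ 0 → (∀ g, τO g a = a) → ∃ m : ℕ, Associated a (π ^ (K * m)))
    (IsNode : Ideal (O ⊗[W] B0) → Prop)
    (hSm0 : ∀ q : B0 →ₐ[W] O, ¬ IsNode (redIdeal O q) →
      Module.Invertible (O ⊗[W] B0) (ptIdeal q))
    (hSm1 : ∀ q : B1 →ₐ[W] O, q c0.s ∈ IsLocalRing.maximalIdeal O →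
      Module.Invertible (O ⊗[W] B1) (ptIdeal q))
    (hNode : ∀ (𝔫 : Ideal (O ⊗[W] B0)) [𝔫.IsMaximal], IsNode 𝔫 →
      ∃ (v₁ v₂ : Localization.AtPrime 𝔫 → ℕ) (P₁ P₂ : Ideal (Localization.AtPrime 𝔫))
        (X Y : O ⊗[W] B0),
        (∀ (g : G) (q : B0 →ₐ[W] O),
          ptEval ((τO g : O →ₐ[W] O).comp q) X = τO g (ptEval q X)) ∧
        NodeData (Localization.AtPrime 𝔫) v₁ v₂ P₁ P₂
          (algebraMap O (Localization.AtPrime 𝔫) π)
          (algebraMap (O ⊗[W] B0) (Localization.AtPrime 𝔫) X)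
          (algebraMap (O ⊗[W] B0) (Localization.AtPrime 𝔫) Y) K)
    (s : Multiset (PtIdx c0 L)) (hs : ∀ g, s.map (twistIdx c0 (τL g)) = s) :
    ∃ x : PicX c0 O, PicX.map c0 O L x = msCls c0 s := by
  classical
  have hπL : IsUnit (algebraMap O L π) :=
    IsUnit.mk0 _ (fun h0 => hirr.ne_zero
      ((IsFractionRing.injective O L) (by rw [h0, map_zero])))
  obtain ⟨S0, S1, hcls, hS1, hstab⟩ := exists_models c0 O L hint0 hint1 hinvL0 hinvL1 s
  -- everything happens in the range of the base change map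
  set H : Subgroup (PicX c0 L) := (PicX.map c0 O L).range with hH
  suffices hmem : msCls c0 s ∈ H by
    obtain ⟨x, hx⟩ := hmem
    exact ⟨x, hx⟩
  rw [hcls]
  refine H.mul_mem ?_ ?_
  · -- chart 0: fibre by fibre
    refine prod_mem_of_fibres H _ (fun q : B0 →ₐ[W] O => redIdeal O q) S0 ?_
    intro 𝔫 _
    set T : Multiset (B0 →ₐ[W] O) := S0.filter fun q => redIdeal O q = 𝔫 with hT
    by_cases hnode : IsNode 𝔫
    · -- a node
      rcases Multiset.empty_or_exists_mem T with hT0 | ⟨q₀, hq₀⟩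
      · rw [hT0]; simp
      have h𝔫eq : redIdeal O q₀ = 𝔫 := (Multiset.mem_filter.1 hq₀).2
      haveI hmax : 𝔫.IsMaximal := h𝔫eq ▸ redIdeal_isMaximal O q₀
      obtain ⟨v₁, v₂, P₁, P₂, X, Y, hX, D⟩ := hNode 𝔫 hnode
      -- the family
      let qf : Fin T.toList.length → B0 →ₐ[W] O := fun i => T.toList.get i
      have hqf : ∀ i, redIdeal O (qf i) = 𝔫 := by
        intro i
        have : qf i ∈ T := by
          rw [← Multiset.mem_toList]
          exact List.get_mem _ _
        exact (Multiset.mem_filter.1 this).2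
      have h𝔫 : ∀ i c, c ∈ 𝔫 ↔ ¬ IsUnit (ptEval (qf i) c) := by
        intro i c
        rw [← hqf i, mem_redIdeal, IsLocalRing.mem_maximalIdeal, mem_nonunits_iff]
      -- the arithmetic input
      have hprod : ∏ i, ptEval (qf i) X ^ (1 : ℕ) = (T.map fun q => ptEval q X).prod := by
        rw [← prod_fin_toList T fun q => ptEval q X]
        apply Finset.prod_congr rfl
        intro i _
        rw [pow_one]
      have hKin : (∏ i, ptEval (qf i) X ^ (1 : ℕ)) ≠ 0 →
          ∃ m : ℕ, Associated (∏ i, ptEval (qf i) X ^ (1 : ℕ)) (π ^ (K * m)) := by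
        intro hne
        apply hU _ hne
        intro g
        rw [hprod, map_multiset_prod, Multiset.map_map]
        have hTst : T.map (fun q => (τO g : O →ₐ[W] O).comp q) = T :=
          ((hstab (τL g) (τO g) (hcomp g) (hs g)).2 (hres g)).1 𝔫
        conv_rhs => rw [← hTst, Multiset.map_map]
        apply congrArg
        apply Multiset.map_congr rfl
        intro q _
        exact (hX g q).symm
      obtain ⟨-, z, hz⟩ := exists_cls_of_node' c0 L hirr hπL qf (fun _ => 1) 𝔫 h𝔫
        X Y D hKin (fun i => hinvL0 _)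
      refine ⟨z, ?_⟩
      rw [hz, ← prod_fin_toList T fun q => ptClass0 c0 (ptComp L q) (hinvL0 _)]
      apply Finset.prod_congr rfl
      intro i _
      rw [pow_one]
    · -- smooth points
      apply Subgroup.multiset_prod_mem
      intro y hy
      obtain ⟨q, hq, rfl⟩ := Multiset.mem_map.1 hy
      have hq𝔫 : redIdeal O q = 𝔫 := (Multiset.mem_filter.1 hq).2
      have hinv : Module.Invertible (O ⊗[W] B0) (ptIdeal q) := hSm0 q (by rw [hq𝔫]; exact hnode)
      exact ⟨ptClass0 c0 q hinv, map_ptClass0 c0 L q hinv (hinvL0 _)⟩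
  · -- chart 1: all smooth
    apply Subgroup.multiset_prod_mem
    intro y hy
    obtain ⟨q, hq, rfl⟩ := Multiset.mem_map.1 hy
    have hinv : Module.Invertible (O ⊗[W] B1) (ptIdeal q) := hSm1 q (hS1 q hq)
    exact ⟨ptClass1 c0 q hinv, map_ptClass1 c0 L q hinv (hinvL1 _)⟩

end Fermat.Agent.T1B.Node45.Ext2
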