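/-
Programme T1B (row 38 / S44), cell (I) NODE/PHI (helper45), part Φ6: PairExt-NODE, class calculus.

`c : TwoChart A R0 R1 R01`.  For an ideal `I` of chart 0 put `cls c I : LinePic c` := the class of the
ideal sheaf of the closure of `V(I)` (`1` when this is not a line).

* `Good c I` : the ideal sheaf of the closure of `V(I)` is a line and the closure does not meet
  infinity (`OrbitClass.AwayInfty`); `good_of_finite` (finite quotient + invertible), `good_top`,
  `Good.mul`, `Good.pow`;
* `ofChart0_mul` : the closure of `V(I J)` is the product of the closures;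
* `cls_mul`, `cls_top`, `cls_pow` : `cls` is multiplicative on good ideals;
* hub level (`c0 : TwoChart W B0 B1 B01`): `clsOfChart0_eq_cls`;
  `Good.map_semi`, `mapSemi_cls` : semilinear base change along bijective chart maps sends
  `cls 𝔞` to `cls (σ 𝔞)`;
* `red_mapSemi` : for a `W`-linear automorphism `F` of the DVR `O` inducing the identity on the
  residue field, `red (F_* x) = red x` for EVERY `x : PicX c0 O`; hence
  `mapSemi_div_mem_P00` : `F_* x / x ∈ P00` (Mdeg ∘ F_* = Mdeg);
* `mem_P00_of_pow_mem` : `P00` is saturated (the multidegree group is torsion-free).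
-/
import Mathlib
import Fermat.Agent.T1B.Node45.OrbitClass
import Fermat.Agent.T1B.Bal60.PairExt
import Fermat.Agent.T1.Adapt96.ToLinePair

set_option autoImplicit false
set_option linter.unusedSectionVars false
set_option linter.style.haveILetI false

open TensorProduct

namespace Fermat.Agent.T1B.Node45.ClsMul

open Fermat.Agent.Jac Fermat.Agent.Jac.JSmooth85Alg Fermat.Agent.Jac.JGroup85Pic
open Fermat.Agent.Jac.BaseChange75 Fermat.Agent.Jac.LineOps39 Fermat.Agent.T1.RedIface75
open Fermat.Agent.T1.PtLine75 Fermat.Agent.T1B.Desc43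
open Fermat.Agent.T1B.Node45.OrbitClass
open scoped Fermat.Agent.Jac.BaseChange75

universe u

section Chart

variable {A R0 R1 R01 : Type u} [CommRing A] [CommRing R0] [CommRing R1] [CommRing R01]
  [Algebra A R0] [Algebra A R1] [Algebra A R01] [Algebra R0 R01] [Algebra R1 R01]
  [IsScalarTower A R0 R01] [IsScalarTower A R1 R01] (c : TwoChart A R0 R1 R01)

/-- `I` is a good ideal of chart 0: the ideal sheaf of the closure of `V(I)` is a line, and the
closure does not meet infinity. -/
structure Good (I : Ideal R0) : Prop where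
  line : (ofIdeals c (IdealPair.ofChart0 c I)).IsLine
  away : AwayInfty c (IdealPair.ofChart0 c I).I1

/-- An invertible ideal with finite quotient is good. -/
theorem good_of_finite (I : Ideal R0) [Module.Finite A (R0 ⧸ I)] [Module.Invertible R0 I] :
    Good c I := by
  refine ⟨ConverseDiv60Props.isLine_ofIdeals_ofChart0 c I, ?_⟩
  obtain ⟨w, hw⟩ := FiniteAwayInfty60.exists_one_add_s_mul_mem c I
  exact ⟨_, hw⟩

theorem ofChart0_top : IdealPair.ofChart0 c (⊤ : Ideal R0) = IdealPair.top := by
  refine idealPair_ext rfl ?_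
  show ((⊤ : Ideal R0).map (algebraMap R0 R01)).comap (algebraMap R1 R01) = ⊤
  rw [Ideal.map_top, Ideal.comap_top]

theorem good_top : Good c (⊤ : Ideal R0) := by
  refine ⟨?_, ?_⟩
  · rw [ofChart0_top]; exact isLine_ofIdeals_top c
  · rw [ofChart0_top]; exact awayInfty_top c

/-- The closure of `V(I J)` is the product of the closures when neither meets infinity. -/
theorem ofChart0_mul (I J : Ideal R0) (hI : AwayInfty c (IdealPair.ofChart0 c I).I1)
    (hJ : AwayInfty c (IdealPair.ofChart0 c J).I1) :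
    IdealPair.ofChart0 c (I * J) = (IdealPair.ofChart0 c I).mul (IdealPair.ofChart0 c J) := by
  refine idealPair_ext rfl ?_
  obtain ⟨w, hw⟩ := hI.mul c hJ
  have hmap : ((IdealPair.ofChart0 c I).I1 * (IdealPair.ofChart0 c J).I1).map
      (algebraMap R1 R01) = (I * J).map (algebraMap R0 R01) := by
    rw [Ideal.map_mul, Ideal.map_mul, ← (IdealPair.ofChart0 c I).compat,
      ← (IdealPair.ofChart0 c J).compat]
    rfl
  show ((I * J).map (algebraMap R0 R01)).comap (algebraMap R1 R01) =
    (IdealPair.ofChart0 c I).I1 * (IdealPair.ofChart0 c J).I1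
  rw [← hmap]
  exact Fermat.Agent.Jac.Chart43.comap_map_eq_of_one_add_s_mul_mem c _ w hw

variable {c}

theorem Good.mul {I J : Ideal R0} (hI : Good c I) (hJ : Good c J) : Good c (I * J) := by
  have e := ofChart0_mul c I J hI.away hJ.away
  refine ⟨?_, ?_⟩
  · rw [e]
    exact Fermat.Agent.T1.Adapt96.isLine_ofIdeals_mul c _ _ hI.line hJ.line
  · rw [e]
    exact hI.away.mul c hJ.away

theorem Good.pow {I : Ideal R0} (hI : Good c I) (n : ℕ) : Good c (I ^ n) := by
  induction n with
  | zero => rw [pow_zero, Ideal.one_eq_top]; exact good_top c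
  | succ n ih => rw [pow_succ]; exact ih.mul hI

variable (c)

open Classical in
/-- The class of the ideal sheaf of the closure of `V(I)` (`1` if it is not a line). -/
noncomputable def cls (I : Ideal R0) : LinePic c :=
  if h : (ofIdeals c (IdealPair.ofChart0 c I)).IsLine then
    LinePic.mk c (ofIdeals c (IdealPair.ofChart0 c I)) h
  else 1

theorem cls_eq (I : Ideal R0) (h : (ofIdeals c (IdealPair.ofChart0 c I)).IsLine) :
    cls c I = LinePic.mk c (ofIdeals c (IdealPair.ofChart0 c I)) h := by
  unfold cls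
  rw [dif_pos h]

theorem cls_top : cls c (⊤ : Ideal R0) = 1 := by
  rw [cls_eq c ⊤ (good_top c).line]
  have h2 : (ofIdeals c (IdealPair.top : IdealPair R0 R1 R01)).IsLine := isLine_ofIdeals_top c
  rw [linePic_mk_congr c (by rw [ofChart0_top]) (good_top c).line h2]
  exact mk_ofIdeals_top c h2

variable {c}

theorem cls_mul {I J : Ideal R0} (hI : Good c I) (hJ : Good c J) :
    cls c (I * J) = cls c I * cls c J := by
  have e := ofChart0_mul c I J hI.away hJ.away
  have hL : (ofIdeals c ((IdealPair.ofChart0 c I).mul (IdealPair.ofChart0 c J))).IsLine :=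
    Fermat.Agent.T1.Adapt96.isLine_ofIdeals_mul c _ _ hI.line hJ.line
  rw [cls_eq c _ (hI.mul hJ).line, cls_eq c I hI.line, cls_eq c J hJ.line,
    linePic_mk_congr c (by rw [e]) (hI.mul hJ).line hL]
  exact Fermat.Agent.T1.Adapt96.mk_ofIdeals_mul c _ _ hI.line hJ.line hL

theorem cls_pow {I : Ideal R0} (hI : Good c I) (n : ℕ) : cls c (I ^ n) = cls c I ^ n := by
  induction n with
  | zero => rw [pow_zero, pow_zero, Ideal.one_eq_top]; exact cls_top c
  | succ n ih => rw [pow_succ, pow_succ, cls_mul (hI.pow n) hI, ih]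

end Chart

section Hub

variable {W B0 B1 B01 : Type u} [CommRing W] [CommRing B0] [CommRing B1] [CommRing B01]
  [Algebra W B0] [Algebra W B1] [Algebra W B01] [Algebra B0 B01] [Algebra B1 B01]
  [IsScalarTower W B0 B01] [IsScalarTower W B1 B01]
  (c0 : TwoChart W B0 B1 B01)

theorem clsOfChart0_eq_cls {O : Type u} [CommRing O] [Algebra W O] (𝔞 : Ideal (O ⊗[W] B0))
    [Module.Finite O ((O ⊗[W] B0) ⧸ 𝔞)] [Module.Invertible (O ⊗[W] B0) 𝔞] :
    clsOfChart0 c0 𝔞 = cls (c0.baseChange O) 𝔞 :=
  (cls_eq _ _ _).symm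

variable {c0}
variable (S : ChartAut c0)
  {A A' : Type u} [CommRing A] [CommRing A'] [Algebra W A] [Algebra W A']
  (f : A →+* A') (hf : ∀ (w : W) (a : A), f (w • a) = S.σW w • f a)

/-- The image of a good ideal under bijective semilinear chart maps is good, and `mapSemi` maps the
class of `𝔞` to the class of its image. -/
theorem good_map_semi_and_mapSemi_cls
    (hb0 : Function.Bijective (semiTensor S.σW f S.σ0 hf S.semi0))
    (hb1 : Function.Bijective (semiTensor S.σW f S.σ1 hf S.semi1))
    {𝔞 : Ideal (A ⊗[W] B0)} (h𝔞 : Good (c0.baseChange A) 𝔞) :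
    Good (c0.baseChange A') (𝔞.map (semiTensor S.σW f S.σ0 hf S.semi0)) ∧
      PicX.mapSemi S f hf (cls (c0.baseChange A) 𝔞) =
        cls (c0.baseChange A') (𝔞.map (semiTensor S.σW f S.σ0 hf S.semi0)) := by
  letI : Algebra A A' := f.toAlgebra
  letI : Algebra (A ⊗[W] B0) (A' ⊗[W] B0) := (semiTensor S.σW f S.σ0 hf S.semi0).toAlgebra
  letI : Algebra (A ⊗[W] B1) (A' ⊗[W] B1) := (semiTensor S.σW f S.σ1 hf S.semi1).toAlgebra
  letI : Algebra (A ⊗[W] B01) (A' ⊗[W] B01) := (semiTensor S.σW f S.σ01 hf S.semi01).toAlgebra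
  have hs : algebraMap (A ⊗[W] B1) (A' ⊗[W] B1) (c0.baseChange A).s = (c0.baseChange A').s := by
    show semiTensor S.σW f S.σ1 hf S.semi1 ((1 : A) ⊗ₜ[W] c0.s) = (1 : A') ⊗ₜ[W] c0.s
    rw [semiTensor_tmul, map_one, S.map_s]
  obtain ⟨w, hw⟩ := h𝔞.away
  have hu : (-w) * (c0.baseChange A).s - 1 ∈ (IdealPair.ofChart0 (c0.baseChange A) 𝔞).I1 := by
    have e : (-w) * (c0.baseChange A).s - 1 = -(1 + (c0.baseChange A).s * w) := by ring
    rw [e]
    exact neg_mem hw
  have hbc := IdealPair.isBC_ofChart0 (A := A) (A' := A') (S.square0 f hf) (S.square1 f hf)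
    (c0.baseChange A) (c0.baseChange A') hs 𝔞 (-w) hu
  have ld := liftDataOfIdeals (A := A) (A' := A') (S.square0 f hf) (S.square1 f hf)
    (c0.baseChange A) (c0.baseChange A') hbc
    (injective_baseChange_of_bijective hb0 _ Subtype.val_injective)
    (injective_baseChange_of_bijective hb1 _ Subtype.val_injective)
  have hL' : (ofIdeals (c0.baseChange A') (IdealPair.ofChart0 (c0.baseChange A')
      (𝔞.map (algebraMap (A ⊗[W] B0) (A' ⊗[W] B0))))).IsLine := LiftData.isLine ld h𝔞.line
  have haway : AwayInfty (c0.baseChange A') (IdealPair.ofChart0 (c0.baseChange A')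
      (𝔞.map (algebraMap (A ⊗[W] B0) (A' ⊗[W] B0)))).I1 := by
    refine ⟨algebraMap (A ⊗[W] B1) (A' ⊗[W] B1) w, ?_⟩
    rw [hbc.h1, ← hs, ← map_mul, ← map_one (algebraMap (A ⊗[W] B1) (A' ⊗[W] B1)), ← map_add]
    exact Ideal.mem_map_of_mem _ hw
  refine ⟨⟨hL', haway⟩, ?_⟩
  rw [cls_eq _ _ h𝔞.line]
  show _ = cls (c0.baseChange A') (𝔞.map (algebraMap (A ⊗[W] B0) (A' ⊗[W] B0)))
  rw [cls_eq _ _ hL']
  exact mapSemi_mk_ofIdeals S f hf hb0 hb1 hbc.h0 hbc.h1 h𝔞.line hL'

end Hub

section Red

open Fermat.Agent.T1.CentresClass47 Fermat.Agent.T1B.Bal60 Fermat.Agent.T1B.RedN3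
open Fermat.Agent.T1.Red20.BcSquare Fermat.Agent.T1.Red20.BcSemiComp

variable {W B0 B1 B01 : Type u} [CommRing W] [CommRing B0] [CommRing B1] [CommRing B01]
  [Algebra W B0] [Algebra W B1] [Algebra W B01] [Algebra B0 B01] [Algebra B1 B01]
  [IsScalarTower W B0 B01] [IsScalarTower W B1 B01]
  (c0 : TwoChart W B0 B1 B01)
  (O : Type u) [CommRing O] [IsDomain O] [IsDiscreteValuationRing O] [Algebra W O]

/-- A `W`-linear automorphism of `O` inducing the identity on the residue field does not change the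
reduction of ANY class. -/
theorem red_mapSemi (F : LinAut W O)
    (hF : ∀ a : O, IsLocalRing.residue O (F.f a) = IsLocalRing.residue O a) (x : PicX c0 O) :
    red c0 O (PicX.mapSemi (chartAutRefl c0) F.f F.hf x) = red c0 O x := by
  have hid : ∀ (w : W) (a : IsLocalRing.ResidueField O),
      RingHom.id (IsLocalRing.ResidueField O) (w • a) =
        (chartAutRefl c0).σW w • RingHom.id (IsLocalRing.ResidueField O) a := fun _ _ => rfl
  have hsq : (RingHom.id (IsLocalRing.ResidueField O)).comp
      (algebraMap O (IsLocalRing.ResidueField O)) =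
      (algebraMap O (IsLocalRing.ResidueField O)).comp F.f := by
    ext a
    exact (hF a).symm
  show PicX.map c0 O (IsLocalRing.ResidueField O) _ = PicX.map c0 O (IsLocalRing.ResidueField O) x
  rw [PicX.map_mapSemi_sq (chartAutRefl c0) F.f F.hf (RingHom.id _) hid hsq,
    PicX.mapSemi_id (chartAutRefl c0) rfl rfl rfl hid]

variable {π : O} {ι : Type} (hg : NodalGood (c0.baseChange O) π ι)
  {K : Type u} [Field K] (X : ∀ i, Comp (c0.baseChange O) (hg.P0 i) (hg.P1 i) K)
  (hπ : IsLocalRing.maximalIdeal O = Ideal.span {π})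

include hπ in
/-- **(D-τ)**: `Mdeg ∘ F_* = Mdeg`, in the form `F_* x / x ∈ P00`, for EVERY class `x`. -/
theorem mapSemi_div_mem_P00 (F : LinAut W O)
    (hF : ∀ a : O, IsLocalRing.residue O (F.f a) = IsLocalRing.residue O a) (x : PicX c0 O) :
    PicX.mapSemi (chartAutRefl c0) F.f F.hf x / x ∈ P00 hg X :=
  div_mem_P00_of_red_eq c0 O hg X hπ (red_mapSemi c0 O F hF x)

omit [IsDomain O] [IsDiscreteValuationRing O] in
/-- `P00` is saturated: the multidegree group is torsion-free. -/
theorem mem_P00_of_pow_mem {x : PicX c0 O} {n : ℕ} (hn : n ≠ 0) (h : x ^ n ∈ P00 hg X) :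
    x ∈ P00 hg X := by
  rw [P00_eq_ker, MonoidHom.mem_ker] at h ⊢
  rw [map_pow] at h
  funext i
  have hi : (Mdeg hg X x i) ^ n = 1 := by
    have := congrFun h i
    simpa using this
  have h2 : n • Multiplicative.toAdd (Mdeg hg X x i) = 0 := by
    have := congrArg Multiplicative.toAdd hi
    simpa using this
  have h3 : Multiplicative.toAdd (Mdeg hg X x i) = 0 := by
    rcases smul_eq_zero.1 h2 with h | h
    · exact absurd h hn
    · exact h
  show Mdeg hg X x i = 1
  exact Multiplicative.toAdd.injective h3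

end Red

end Fermat.Agent.T1B.Node45.ClsMul
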