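/-
Programme T1B (row 38 / S44), cell (I) NODE/PHI (helper45), part Φ6: PairExt-NODE, algebra.

`π`-saturated ideals and products.

* `IsSat π I` : `π f ∈ I → f ∈ I`; `isSat_sat`, `IsSat.pow_mul_mem`, `sat_eq_of_isSat`;
* `IsSat.mul` : the product of a PROJECTIVE (e.g. invertible) `π`-saturated ideal and a `π`-saturated
  ideal is `π`-saturated (dual basis argument; no localisation);
* `sat_mul_eq` : `sat π (I * J) = sat π I * sat π J` when `sat π I` is projective;
* `sat_pow_eq` : `sat π (I ^ n) = sat π I ^ n` when `sat π I` is projective.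
-/
import Mathlib
import Fermat.Agent.T1B.Node45.OrbitInv

set_option autoImplicit false
set_option linter.unusedSectionVars false

namespace Fermat.Agent.T1B.Node45.SatMul

open Fermat.Agent.T1B.Node45.OrbitInv

variable {C : Type*} [CommRing C]

/-- `I` is `π`-saturated. -/
def IsSat (π : C) (I : Ideal C) : Prop := ∀ f : C, π * f ∈ I → f ∈ I

theorem isSat_sat (π : C) (I : Ideal C) : IsSat π (sat π I) := by
  rintro f ⟨k, hk⟩
  exact ⟨k + 1, by rw [pow_succ, mul_assoc]; exact hk⟩

theorem IsSat.pow_mul_mem {π : C} {I : Ideal C} (h : IsSat π I) (k : ℕ) {f : C}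
    (hf : π ^ k * f ∈ I) : f ∈ I := by
  induction k with
  | zero => simpa using hf
  | succ k ih =>
    apply ih
    apply h
    rw [← mul_assoc, ← pow_succ']
    exact hf

theorem sat_eq_of_isSat {π : C} {I : Ideal C} (h : IsSat π I) : sat π I = I :=
  le_antisymm (fun _ ⟨k, hk⟩ => h.pow_mul_mem k hk) (le_sat π I)

theorem isSat_iff_sat_eq {π : C} {I : Ideal C} : IsSat π I ↔ sat π I = I :=
  ⟨sat_eq_of_isSat, fun h => h ▸ isSat_sat π I⟩

theorem isSat_top (π : C) : IsSat π (⊤ : Ideal C) := fun _ _ => Submodule.mem_top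

/-- **The product of a projective saturated ideal and a saturated ideal is saturated.** -/
theorem IsSat.mul {π : C} {I J : Ideal C} [Module.Projective C I] (hI : IsSat π I)
    (hJ : IsSat π J) : IsSat π (I * J) := by
  classical
  obtain ⟨s, hs⟩ := (Module.projective_def' (R := C) (P := I)).1 inferInstance
  -- coefficients of elements of `I * J` lie in `J`
  have key : ∀ c ∈ I * J, c ∈ I ∧ ∀ hc : c ∈ I, ∀ a : I, s ⟨c, hc⟩ a ∈ J := by
    intro c hc
    refine Submodule.mul_induction_on hc ?_ ?_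
    · intro x hx b hb
      refine ⟨I.mul_mem_right _ hx, fun hc a => ?_⟩
      have e : (⟨x * b, hc⟩ : I) = b • (⟨x, hx⟩ : I) :=
        Subtype.ext (mul_comm x b)
      rw [e, map_smul, Finsupp.smul_apply, smul_eq_mul]
      exact J.mul_mem_right _ hb
    · intro x y hx hy
      refine ⟨I.add_mem hx.1 hy.1, fun hc a => ?_⟩
      have e : (⟨x + y, hc⟩ : I) = (⟨x, hx.1⟩ : I) + ⟨y, hy.1⟩ := Subtype.ext rfl
      rw [e, map_add, Finsupp.add_apply]
      exact J.add_mem (hx.2 _ a) (hy.2 _ a)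
  intro f hf
  have hfI : f ∈ I := hI f (Ideal.mul_le_left hf)
  have hcoef : ∀ a : I, s ⟨f, hfI⟩ a ∈ J := by
    intro a
    apply hJ
    have e : (⟨π * f, (key _ hf).1⟩ : I) = π • (⟨f, hfI⟩ : I) := Subtype.ext rfl
    have := (key _ hf).2 (key _ hf).1 a
    rwa [e, map_smul, Finsupp.smul_apply, smul_eq_mul] at this
  have hrep : Finsupp.linearCombination C id (s ⟨f, hfI⟩) = (⟨f, hfI⟩ : I) :=
    LinearMap.congr_fun hs ⟨f, hfI⟩
  have hf' : f = ((Finsupp.linearCombination C id (s ⟨f, hfI⟩) : I) : C) := by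
    rw [hrep]
  rw [hf', Finsupp.linearCombination_apply, Finsupp.sum, Submodule.coe_sum]
  apply Ideal.sum_mem
  intro a _
  rw [Submodule.coe_smul, smul_eq_mul, mul_comm (s ⟨f, hfI⟩ a)]
  exact Ideal.mul_mem_mul (id a).2 (hcoef a)

/-- `sat π (I * J) = sat π I * sat π J` when `sat π I` is projective. -/
theorem sat_mul_eq (π : C) (I J : Ideal C) [Module.Projective C (sat π I)] :
    sat π (I * J) = sat π I * sat π J := by
  apply le_antisymm
  · have h : IsSat π (sat π I * sat π J) := (isSat_sat π I).mul (isSat_sat π J)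
    rw [← sat_eq_of_isSat h]
    exact sat_mono π (Ideal.mul_mono (le_sat π I) (le_sat π J))
  · exact sat_mul_le π I J

/-- `sat π (I ^ n) = sat π I ^ n` when `sat π I` is projective. -/
theorem sat_pow_eq (π : C) (I : Ideal C) [Module.Projective C (sat π I)] (n : ℕ) :
    sat π (I ^ (n + 1)) = sat π I ^ (n + 1) := by
  induction n with
  | zero => rw [zero_add, pow_one, pow_one]
  | succ n ih => rw [pow_succ' I, sat_mul_eq, ih, ← pow_succ']

theorem sat_top (π : C) : sat π (⊤ : Ideal C) = ⊤ := top_le_iff.1 (le_sat π ⊤)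

/-- `sat π (I ^ n) = sat π I ^ n` for every `n` when `sat π I` is projective. -/
theorem sat_pow_eq' (π : C) (I : Ideal C) [Module.Projective C (sat π I)] (n : ℕ) :
    sat π (I ^ n) = sat π I ^ n := by
  rcases n with _ | n
  · rw [pow_zero, pow_zero, Ideal.one_eq_top, sat_top]
  · exact sat_pow_eq π I n

/-- Saturation only depends on the element up to a unit. -/
theorem sat_unit_mul {u : C} (hu : IsUnit u) (π : C) (I : Ideal C) : sat (u * π) I = sat π I := by
  ext f
  constructor
  · rintro ⟨k, hk⟩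
    refine ⟨k, ?_⟩
    obtain ⟨v, hv⟩ := hu.pow k
    have e : π ^ k * f = (↑v⁻¹ : C) * ((u * π) ^ k * f) := by
      rw [mul_pow, ← hv, ← mul_assoc, ← mul_assoc, Units.inv_mul, one_mul]
    rw [e]
    exact I.mul_mem_left _ hk
  · rintro ⟨k, hk⟩
    refine ⟨k, ?_⟩
    rw [mul_pow, mul_assoc]
    exact I.mul_mem_left _ hk

/-- The image of a saturation under a bijective ring homomorphism. -/
theorem map_sat_of_bijective {D : Type*} [CommRing D] (σ : C →+* D) (hσ : Function.Bijective σ)
    (π : C) (I : Ideal C) : (sat π I).map σ = sat (σ π) (I.map σ) := by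
  ext y
  rw [Ideal.mem_map_iff_of_surjective σ hσ.2]
  constructor
  · rintro ⟨x, ⟨k, hk⟩, rfl⟩
    refine ⟨k, ?_⟩
    rw [← map_pow, ← map_mul]
    exact Ideal.mem_map_of_mem σ hk
  · rintro ⟨k, hk⟩
    obtain ⟨x, rfl⟩ := hσ.2 y
    rw [← map_pow, ← map_mul, Ideal.mem_map_iff_of_surjective σ hσ.2] at hk
    obtain ⟨z, hz, hzx⟩ := hk
    refine ⟨x, ⟨k, ?_⟩, rfl⟩
    rw [← hσ.1 hzx]
    exact hz

end Fermat.Agent.T1B.Node45.SatMul
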