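/-
Programme T1B (row 38 / S44), cell (I) NODE/PHI (helper45), part Φ6: **PairExt-NODE**.

`c0 : TwoChart W B0 B1 B01` the hub, `O` a DVR over `W` with uniformiser `π`, `L` an `O`-algebra in
which `π` is invertible (the fraction field), `hg : NodalGood (c0.baseChange O) π ι`, `X i` the
components, `F` a `W`-linear automorphism of `O` inducing the identity on the residue field (an
element of inertia), `q : B0 →ₐ[W] O` an `O`-point of chart 0 (typically reducing to a NODE, so that
`ptIdeal q` is NOT invertible), `K ≥ 1` (the thickness of the node over `O`).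

If the two orbit ideals
  `𝔞' = sat π (ptIdeal q ^ K)`            and          `𝔞 = sat π (ptIdeal (F ∘ q) * ptIdeal q ^ (K - 1))`
are invertible (`OrbitInv.invertible_orbitIdeal`: both `K · j` and `j + (K - 1) j` are multiples of `K`),
then `[F q] - [q]` on the generic fibre EXTENDS to a class of multidegree zero:

  `exists_mem_P00_map_eq : ∃ x ∈ P00 hg X, PicX.map c0 O L x = [F q_L] / [q_L]`.

Proof: `x := cls 𝔞 / cls 𝔞'`; `x ^ K = F_*(Z) / Z` with `Z = cls 𝔞'` (saturated invertible ideals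
multiply, `SatMul`; `cls` is multiplicative, `ClsMul`), `F_* Z / Z ∈ P00` (`ClsMul.mapSemi_div_mem_P00`:
`F` does not change reductions), and `P00` is saturated (the multidegree group is torsion-free).
NO multidegree of an orbit class is computed.
-/
import Mathlib
import Fermat.Agent.T1B.Node45.SatMul
import Fermat.Agent.T1B.Node45.ClsMul

set_option autoImplicit false
set_option linter.unusedSectionVars false
set_option linter.style.haveILetI false

open TensorProduct

namespace Fermat.Agent.T1B.Node45.PairNode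

open Fermat.Agent.Jac Fermat.Agent.Jac.JSmooth85Alg Fermat.Agent.Jac.JGroup85Pic
open Fermat.Agent.Jac.BaseChange75 Fermat.Agent.Jac.LineOps39 Fermat.Agent.T1.RedIface75
open Fermat.Agent.T1.PtLine75 Fermat.Agent.T1.CentresClass47
open Fermat.Agent.T1B.Bal60 Fermat.Agent.T1B.RedN3
open Fermat.Agent.T1B.Node45.OrbitInv Fermat.Agent.T1B.Node45.OrbitClass
open Fermat.Agent.T1B.Node45.SatMul Fermat.Agent.T1B.Node45.ClsMul
open scoped Fermat.Agent.Jac.BaseChange75

universe u

variable {W B0 B1 B01 : Type u} [CommRing W] [CommRing B0] [CommRing B1] [CommRing B01]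
  [Algebra W B0] [Algebra W B1] [Algebra W B01] [Algebra B0 B01] [Algebra B1 B01]
  [IsScalarTower W B0 B01] [IsScalarTower W B1 B01]
  (c0 : TwoChart W B0 B1 B01)
  {O : Type u} [CommRing O] [IsDomain O] [IsDiscreteValuationRing O] [Algebra W O]

section Aut

variable (F : LinAut W O)

/-- The ring automorphism of `O` underlying `F`. -/
noncomputable def linAutEquiv : O ≃+* O :=
  { F.f with
    invFun := F.f'
    left_inv := F.left
    right_inv := F.right }

theorem associated_map_of_irreducible {π : O} (hπ : Irreducible π) : Associated π (F.f π) := by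
  have h : Irreducible (F.f π) := by
    have := (MulEquiv.irreducible_iff (linAutEquiv F).toMulEquiv (x := π)).2 hπ
    exact this
  exact IsDiscreteValuationRing.associated_of_irreducible O hπ h

/-- The semilinear automorphism `F ⊗ id` of `O ⊗ B0` maps the saturation of `I` to the saturation of
the image of `I`. -/
theorem map_sat_linAut {π : O} (hπ : Irreducible π) (I : Ideal (O ⊗[W] B0)) :
    (sat (algebraMap O (O ⊗[W] B0) π) I).map
        (semiTensor (chartAutRefl c0).σW F.f (chartAutRefl c0).σ0 F.hf (chartAutRefl c0).semi0) =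
      sat (algebraMap O (O ⊗[W] B0) π)
        (I.map (semiTensor (chartAutRefl c0).σW F.f (chartAutRefl c0).σ0 F.hf
          (chartAutRefl c0).semi0)) := by
  rw [map_sat_of_bijective _ (F.bij0 c0)]
  obtain ⟨u, hu⟩ := associated_map_of_irreducible F hπ
  have e : semiTensor (chartAutRefl c0).σW F.f (chartAutRefl c0).σ0 F.hf (chartAutRefl c0).semi0
      (algebraMap O (O ⊗[W] B0) π) =
      algebraMap O (O ⊗[W] B0) (u : O) * algebraMap O (O ⊗[W] B0) π := by
    have h1 : algebraMap O (O ⊗[W] B0) π = π ⊗ₜ[W] (1 : B0) := rfl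
    have h2 : algebraMap O (O ⊗[W] B0) (u : O) * algebraMap O (O ⊗[W] B0) π =
        (π * (u : O)) ⊗ₜ[W] (1 : B0) := by
      rw [← map_mul, mul_comm]
      rfl
    rw [h2, h1, hu]
    exact semiTensor_tmul _ F.f _ F.hf _ π 1
  rw [e, sat_unit_mul (u.isUnit.map _)]

end Aut

variable (L : Type u) [CommRing L] [Algebra W L] [Algebra O L] [IsScalarTower W O L]
  {π : O} {ι : Type} (hg : NodalGood (c0.baseChange O) π ι)
  {K' : Type u} [Field K'] (X : ∀ i, Comp (c0.baseChange O) (hg.P0 i) (hg.P1 i) K')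
  (hπ : IsLocalRing.maximalIdeal O = Ideal.span {π})

include hπ in
/-- **PairExt-NODE.** -/
theorem exists_mem_P00_map_eq [Algebra.FiniteType W B0] (hirr : Irreducible π)
    (hπL : IsUnit (algebraMap O L π)) (F : LinAut W O)
    (hF : ∀ a : O, IsLocalRing.residue O (F.f a) = IsLocalRing.residue O a)
    (q : B0 →ₐ[W] O) (K : ℕ) (hK : K ≠ 0)
    (hI' : Module.Invertible (O ⊗[W] B0) (orbitIdeal π (fun _ : Unit => q) (fun _ => K)))
    (hI : Module.Invertible (O ⊗[W] B0) (orbitIdeal π ![linTwist F q, q] ![1, K - 1]))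
    (h : Module.Invertible (L ⊗[W] B0) (ptIdeal (ptComp L q)))
    (h' : Module.Invertible (L ⊗[W] B0) (ptIdeal (ptComp L (linTwist F q)))) :
    ∃ x ∈ P00 hg X, PicX.map c0 O L x =
      ptClass0 c0 (ptComp L (linTwist F q)) h' / ptClass0 c0 (ptComp L q) h := by
  classical
  set ϖ : O ⊗[W] B0 := algebraMap O (O ⊗[W] B0) π with hϖ
  set σ := semiTensor (chartAutRefl c0).σW F.f (chartAutRefl c0).σ0 F.hf (chartAutRefl c0).semi0
    with hσ
  set 𝔞' : Ideal (O ⊗[W] B0) := orbitIdeal π (fun _ : Unit => q) (fun _ => K) with h𝔞'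
  set 𝔞 : Ideal (O ⊗[W] B0) := orbitIdeal π ![linTwist F q, q] ![1, K - 1] with h𝔞
  -- the sat forms
  have e𝔞' : 𝔞' = sat ϖ (ptIdeal q ^ K) := by
    rw [h𝔞', orbitIdeal, Fintype.prod_unique]
  have e𝔞 : 𝔞 = sat ϖ (ptIdeal (linTwist F q) * ptIdeal q ^ (K - 1)) := by
    rw [h𝔞, orbitIdeal, Fin.prod_univ_two]
    simp only [Matrix.cons_val_zero, Matrix.cons_val_one, pow_one]
    rfl
  haveI fin' : Module.Finite O ((O ⊗[W] B0) ⧸ 𝔞') := finite_quot_orbitIdeal π _ _
  haveI fin : Module.Finite O ((O ⊗[W] B0) ⧸ 𝔞) := finite_quot_orbitIdeal π _ _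
  have g' : Good (c0.baseChange O) 𝔞' := good_of_finite _ 𝔞'
  have g : Good (c0.baseChange O) 𝔞 := good_of_finite _ 𝔞
  -- the image of `𝔞'` under `F`
  obtain ⟨gτ, hτ⟩ := good_map_semi_and_mapSemi_cls (chartAutRefl c0) F.f F.hf (F.bij0 c0)
    (F.bij1 c0) g'
  have hpt : (ptIdeal q).map σ = ptIdeal (linTwist F q) :=
    ptIdeal_map_semi _ F.f _ F.hf _ Function.surjective_id q (linTwist F q) (fun _ => rfl)
  have eτ : 𝔞'.map σ = sat ϖ (ptIdeal (linTwist F q) ^ K) := by
    rw [e𝔞', map_sat_linAut c0 F hirr, Ideal.map_pow, hpt]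
  -- projectivity
  haveI p' : Module.Projective (O ⊗[W] B0) (sat ϖ (ptIdeal q ^ K)) := by
    rw [← e𝔞']; infer_instance
  haveI p : Module.Projective (O ⊗[W] B0)
      (sat ϖ (ptIdeal (linTwist F q) * ptIdeal q ^ (K - 1))) := by
    rw [← e𝔞]; infer_instance
  haveI pτ : Module.Projective (O ⊗[W] B0) (sat ϖ (ptIdeal (linTwist F q) ^ K)) := by
    rw [← eτ]
    haveI : Module.Invertible (O ⊗[W] B0) ↥(𝔞'.map σ) := gτ.line.1
    infer_instance
  -- `𝔞 ^ K = F(𝔞') * 𝔞' ^ (K - 1)`
  have hpow : 𝔞 ^ K = 𝔞'.map σ * 𝔞' ^ (K - 1) := by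
    rw [e𝔞, ← sat_pow_eq', eτ, e𝔞', ← sat_pow_eq', ← sat_mul_eq]
    congr 1
    rw [mul_pow, ← pow_mul, ← pow_mul, mul_comm (K - 1) K]
  -- the class
  have hcls : (cls (c0.baseChange O) 𝔞 / cls (c0.baseChange O) 𝔞') ^ K =
      PicX.mapSemi (chartAutRefl c0) F.f F.hf (cls (c0.baseChange O) 𝔞') /
        cls (c0.baseChange O) 𝔞' := by
    have hK1 : K = (K - 1) + 1 := (Nat.succ_pred_eq_of_ne_zero hK).symm
    rw [div_pow, ← cls_pow g, hpow, cls_mul gτ (g'.pow _), cls_pow g', hτ]
    conv_lhs => rw [hK1, pow_succ]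
    rw [Nat.add_sub_cancel, ← div_div, mul_div_assoc, div_self', mul_one]
  refine ⟨cls (c0.baseChange O) 𝔞 / cls (c0.baseChange O) 𝔞', ?_, ?_⟩
  · apply mem_P00_of_pow_mem c0 O hg X hK
    rw [hcls]
    exact mapSemi_div_mem_P00 c0 O hg X hπ F hF _
  · rw [map_div, ← clsOfChart0_eq_cls c0 𝔞, ← clsOfChart0_eq_cls c0 𝔞']
    have h1 := map_clsOfChart0_orbitIdeal c0 L π ![linTwist F q, q] ![1, K - 1] hirr hπL hI
      (fun s => by
        refine Fin.cases ?_ (fun s => ?_) s
        · exact h'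
        · have : s = 0 := Subsingleton.elim _ _
          subst this
          exact h)
    have h2 := map_clsOfChart0_orbitIdeal c0 L π (fun _ : Unit => q) (fun _ => K) hirr hπL hI'
      (fun _ => h)
    rw [h1, h2, Fin.prod_univ_two]
    simp only [Finset.univ_unique, Finset.prod_singleton, Matrix.cons_val_zero,
      Matrix.cons_val_one, pow_one]
    have hK1 : K = (K - 1) + 1 := (Nat.succ_pred_eq_of_ne_zero hK).symm
    conv_rhs => rw [← mul_one (ptClass0 c0 (ptComp L (linTwist F q)) h')]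
    conv_lhs => rw [hK1, pow_succ, Nat.add_sub_cancel]
    rw [← div_div, mul_div_assoc, div_self', mul_one]

end Fermat.Agent.T1B.Node45.PairNode
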