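/-
Programme T1B (row 38 / S44), cell (I) NODE/PHI (helper45), PHI7 plan (report 1166):
**the node half of `sub_mem_J0` from the node datum.**

`q : B0 →ₐ[W] O` an `O`-point of chart 0 reducing to a node `𝔫` (node datum of thickness `K` on the
localisation, coordinates `x₀ y₀ ∈ O ⊗[W] B0`), `F` a `W`-linear automorphism of `O` inducing the
identity on the residue field (an element of inertia) with `(F q)(x₀) = F (q(x₀))` (the coordinate is
defined over the inertia field).  Then `[F q] - [q]` on the generic fibre extends to a class of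
multidegree zero:

  `exists_mem_P00_map_eq_of_node : ∃ x ∈ P00 hg X, PicX.map c0 O L x = [F q_L] / [q_L]`.

Proof: `q(x₀) = π ^ j u`, so both orbit ideals of `PairNode.exists_mem_P00_map_eq` are invertible by
`NodePart.exists_cls_of_node` (`K j` and `j + (K - 1) j` are multiples of `K`).
-/
import Mathlib
import Fermat.Agent.T1B.Node45.PairNode
import Fermat.Agent.T1B.Node45.NodePart

set_option autoImplicit false
set_option linter.unusedSectionVars false
set_option linter.style.haveILetI false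

open TensorProduct

namespace Fermat.Agent.T1B.Node45.PairNodeData

open Fermat.Agent.Jac Fermat.Agent.Jac.JSmooth85Alg Fermat.Agent.Jac.JGroup85Pic
open Fermat.Agent.Jac.BaseChange75 Fermat.Agent.Jac.LineOps39 Fermat.Agent.T1.RedIface75
open Fermat.Agent.T1.PtLine75 Fermat.Agent.T1.CentresClass47 Fermat.Agent.T1.Peu37.NodeClassGroup
open Fermat.Agent.T1B.Bal60 Fermat.Agent.T1B.RedN3
open Fermat.Agent.T1B.Node45.OrbitInv Fermat.Agent.T1B.Node45.OrbitClass
open Fermat.Agent.T1B.Node45.PairNode Fermat.Agent.T1B.Node45.NodePart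
open scoped Fermat.Agent.Jac.BaseChange75

universe u

variable {W B0 B1 B01 : Type u} [CommRing W] [CommRing B0] [CommRing B1] [CommRing B01]
  [Algebra W B0] [Algebra W B1] [Algebra W B01] [Algebra B0 B01] [Algebra B1 B01]
  [IsScalarTower W B0 B01] [IsScalarTower W B1 B01]
  (c0 : TwoChart W B0 B1 B01)
  {O : Type u} [CommRing O] [IsDomain O] [IsDiscreteValuationRing O] [Algebra W O]

/-- A residue-trivial automorphism does not change the residue of the evaluations. -/
theorem residue_ptEval_linTwist {B : Type u} [CommRing B] [Algebra W B] (F : LinAut W O)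
    (hF : ∀ a : O, IsLocalRing.residue O (F.f a) = IsLocalRing.residue O a) (q : B →ₐ[W] O)
    (c : O ⊗[W] B) :
    IsLocalRing.residue O (ptEval (linTwist F q) c) = IsLocalRing.residue O (ptEval q c) := by
  induction c using TensorProduct.induction_on with
  | zero => simp
  | tmul a b => rw [ptEval_tmul, ptEval_tmul, map_mul, map_mul, linTwist_apply, hF]
  | add x y hx hy => rw [map_add, map_add, map_add, map_add, hx, hy]

theorem isUnit_ptEval_linTwist_iff {B : Type u} [CommRing B] [Algebra W B] (F : LinAut W O)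
    (hF : ∀ a : O, IsLocalRing.residue O (F.f a) = IsLocalRing.residue O a) (q : B →ₐ[W] O)
    (c : O ⊗[W] B) : IsUnit (ptEval (linTwist F q) c) ↔ IsUnit (ptEval q c) := by
  rw [← IsLocalRing.residue_ne_zero_iff_isUnit, ← IsLocalRing.residue_ne_zero_iff_isUnit,
    residue_ptEval_linTwist F hF q c]

variable (L : Type u) [CommRing L] [Algebra W L] [Algebra O L] [IsScalarTower W O L]
  {π : O} {ι : Type} (hg : NodalGood (c0.baseChange O) π ι)
  {K' : Type u} [Field K'] (X : ∀ i, Comp (c0.baseChange O) (hg.P0 i) (hg.P1 i) K')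
  (hπ : IsLocalRing.maximalIdeal O = Ideal.span {π})

include hπ in
/-- **The node half of `sub_mem_J0`.** -/
theorem exists_mem_P00_map_eq_of_node [Algebra.FiniteType W B0] [IsDomain (O ⊗[W] B0)]
    [IsNoetherianRing (O ⊗[W] B0)] (hirr : Irreducible π)
    (hπL : IsUnit (algebraMap O L π)) (F : LinAut W O)
    (hF : ∀ a : O, IsLocalRing.residue O (F.f a) = IsLocalRing.residue O a)
    (q : B0 →ₐ[W] O)
    (𝔫 : Ideal (O ⊗[W] B0)) [𝔫.IsPrime] (h𝔫 : ∀ c, c ∈ 𝔫 ↔ ¬ IsUnit (ptEval q c))
    {A : Type u} [CommRing A] [IsDomain A] [IsLocalRing A] [IsNoetherianRing A]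
    [Algebra (O ⊗[W] B0) A] [IsLocalization.AtPrime A 𝔫] [Algebra O A]
    [IsScalarTower O (O ⊗[W] B0) A]
    {v₁ v₂ : A → ℕ} {P₁ P₂ : Ideal A} (x₀ y₀ : O ⊗[W] B0) {K : ℕ}
    (D : NodeData A v₁ v₂ P₁ P₂ (algebraMap O A π) (algebraMap (O ⊗[W] B0) A x₀)
      (algebraMap (O ⊗[W] B0) A y₀) K)
    (hX : ptEval (linTwist F q) x₀ = F.f (ptEval q x₀))
    (h : Module.Invertible (L ⊗[W] B0) (ptIdeal (ptComp L q)))
    (h' : Module.Invertible (L ⊗[W] B0) (ptIdeal (ptComp L (linTwist F q)))) :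
    ∃ x ∈ P00 hg X, PicX.map c0 O L x =
      ptClass0 c0 (ptComp L (linTwist F q)) h' / ptClass0 c0 (ptComp L q) h := by
  classical
  have hK0 : K ≠ 0 := Nat.pos_iff_ne_zero.1 D.K_pos
  -- the exponent of the point
  obtain ⟨φ, hφ⟩ := exists_lift_section (A := A) 𝔫 (ptEval q) h𝔫
  obtain ⟨j, u, hu, -, -, hx⟩ := exists_exponent hirr D φ
  have hval : ptEval q x₀ = π ^ j * u := by rw [← hφ x₀, hx]
  -- its image under `F`
  obtain ⟨w, hw⟩ := associated_map_of_irreducible F hirr
  have hFu : IsUnit (F.f u) := hu.map F.f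
  have hvalF : ptEval (linTwist F q) x₀ = π ^ j * ((w : O) ^ j * F.f u) := by
    rw [hX, hval, map_mul, map_pow, ← hw, mul_pow]
    ring
  have hwu : IsUnit ((w : O) ^ j * F.f u) := (w.isUnit.pow j).mul hFu
  -- the first family
  have hK1 : Associated (∏ s : Unit, ptEval ((fun _ : Unit => q) s) x₀ ^ (fun _ : Unit => K) s)
      (π ^ (K * j)) := by
    rw [Fintype.prod_unique]
    show Associated (ptEval q x₀ ^ K) (π ^ (K * j))
    rw [hval, mul_pow, ← pow_mul, mul_comm j K]
    exact associated_mul_unit_left _ _ (hu.pow K)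
  obtain ⟨hI', -⟩ := exists_cls_of_node c0 L hirr hπL (fun _ : Unit => q) (fun _ => K) 𝔫
    (fun _ => h𝔫) x₀ y₀ D hK1 (fun _ => h)
  -- the second family
  have h𝔫2 : ∀ (s : Fin 2) c, c ∈ 𝔫 ↔ ¬ IsUnit (ptEval ((![linTwist F q, q] : Fin 2 → _) s) c) := by
    intro s c
    fin_cases s
    · show c ∈ 𝔫 ↔ ¬ IsUnit (ptEval (linTwist F q) c)
      rw [isUnit_ptEval_linTwist_iff F hF q c]
      exact h𝔫 c
    · exact h𝔫 c
  have hinv2 : ∀ s : Fin 2, Module.Invertible (L ⊗[W] B0)
      (ptIdeal (ptComp L ((![linTwist F q, q] : Fin 2 → _) s))) := by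
    intro s
    fin_cases s
    · exact h'
    · exact h
  have hK2 : Associated
      (∏ s : Fin 2, ptEval ((![linTwist F q, q] : Fin 2 → _) s) x₀ ^ (![1, K - 1] : Fin 2 → ℕ) s)
      (π ^ (K * j)) := by
    rw [Fin.prod_univ_two]
    show Associated (ptEval (linTwist F q) x₀ ^ 1 * ptEval q x₀ ^ (K - 1)) (π ^ (K * j))
    rw [pow_one, hvalF, hval, mul_pow, ← pow_mul]
    have e : π ^ j * ((w : O) ^ j * F.f u) * (π ^ (j * (K - 1)) * u ^ (K - 1)) =
        π ^ (K * j) * (((w : O) ^ j * F.f u) * u ^ (K - 1)) := by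
      have hK : K * j = j + j * (K - 1) := by
        obtain ⟨k, rfl⟩ : ∃ k, K = k + 1 := ⟨K - 1, by omega⟩
        simp only [Nat.add_sub_cancel]
        ring
      rw [hK, pow_add]
      ring
    rw [e]
    exact associated_mul_unit_left _ _ (hwu.mul (hu.pow (K - 1)))
  obtain ⟨hI, -⟩ := exists_cls_of_node c0 L hirr hπL (![linTwist F q, q] : Fin 2 → _)
    (![1, K - 1] : Fin 2 → ℕ) 𝔫 h𝔫2 x₀ y₀ D hK2 hinv2
  exact exists_mem_P00_map_eq c0 L hg X hπ hirr hπL F hF q K hK0 hI' hI h h'

end Fermat.Agent.T1B.Node45.PairNodeData
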