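/-
Programme T1B (row 38 / S44), cell (I) NODE/PHI (helper45), PHI7 plan (report 1166):
**THE Φ-STEP AND `sub_mem_J0` AT ONE LEVEL**, from the model facts of the level bundled in one
proposition.

`c0 : TwoChart W B0 B1 B01` the hub, `O` a DVR over `W` with uniformiser `π`, `L = Frac O`,
`(τL g, τO g)_{g ∈ G}` the image of inertia (compatible `W`-automorphisms of `L`, `O`, trivial on the
residue field), `K` the ramification index.

* `LevelHyp c0 O L π τL τO K` : ALL the hypotheses of `Ext2.exists_ext_of_stable'` (finite type,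
  domain, noetherian, integrality of the charts, invertibility on the generic fibre, `hU`, and a
  predicate `IsNode` with smooth-point invertibility off the nodes and a node datum of thickness `K`
  with inertia-equivariant coordinates at the nodes);
* `LevelHyp.exists_ext` : a `τL`-stable multiset of `L`-points has a class which extends to `X_O`;
* **`LevelHyp.phi`** : for `τL`-stable multisets `sP`, `sN` and classes `y0 y1 ∈ Pic X_O` of
  multidegrees `-e_0`, `-e_1`: `[sP] / [sN] · y0^m0 · y1^m1 ∈ J⁰(L)` for suitable `m0 m1 : ℤ`;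
* **`LevelHyp.sub_mem`** : `galPic (τL g) x / x ∈ J⁰(L)` for every class of points `x ∈ PicPt L`
  (smooth reductions: helper60's `Bal60.ptClass0_div_mem_P00`; nodes: `PairNodeData`).
-/
import Mathlib
import Fermat.Agent.T1B.Node45.Ext2
import Fermat.Agent.T1B.Node45.PairNodeData
import Fermat.Agent.T1B.Bal60.TwistInv

set_option autoImplicit false
set_option linter.unusedSectionVars false
set_option linter.style.haveILetI false

open TensorProduct

namespace Fermat.Agent.T1B.Node45.Phi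

open Fermat.Agent.Jac Fermat.Agent.Jac.JSmooth85Alg Fermat.Agent.Jac.JGroup85Pic
open Fermat.Agent.Jac.BaseChange75 Fermat.Agent.Jac.LineOps39 Fermat.Agent.T1.RedIface75
open Fermat.Agent.T1.PtLine75 Fermat.Agent.T1.Peu37.NodeClassGroup
open Fermat.Agent.T1.CentresClass47 (LinAut)
open Fermat.Agent.T1B.Desc1 Fermat.Agent.T1B.Desc8.Effective Fermat.Agent.T1B.Desc43.IntModel
open Fermat.Agent.T1B.Bal60 Fermat.Agent.T1B.RedN3
open Fermat.Agent.T1B.Node45.Ext2 Fermat.Agent.T1B.Node45.PairNodeData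
open scoped Fermat.Agent.Jac.BaseChange75

universe u

variable {W B0 B1 B01 : Type u} [CommRing W] [CommRing B0] [CommRing B1] [CommRing B01]
  [Algebra W B0] [Algebra W B1] [Algebra W B01] [Algebra B0 B01] [Algebra B1 B01]
  [IsScalarTower W B0 B01] [IsScalarTower W B1 B01]
  (c0 : TwoChart W B0 B1 B01)
  (O : Type u) [CommRing O] [IsDomain O] [IsDiscreteValuationRing O] [Algebra W O]
  (L : Type u) [Field L] [Algebra W L] [Algebra O L] [IsScalarTower W O L] [IsFractionRing O L]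

/-- **The model facts of one level.** -/
structure LevelHyp (π : O) {G : Type*} (τL : G → L ≃ₐ[W] L) (τO : G → O ≃ₐ[W] O) (K : ℕ) :
    Prop where
  ft0 : Algebra.FiniteType W B0
  dom0 : IsDomain (O ⊗[W] B0)
  noeth0 : IsNoetherianRing (O ⊗[W] B0)
  hint0 : ∀ b : B0, IsIntegral (Algebra.adjoin W {c0.t}) b
  hint1 : ∀ b : B1, IsIntegral (Algebra.adjoin W {c0.s}) b
  hinvL0 : ∀ q : B0 →ₐ[W] L, Module.Invertible (L ⊗[W] B0) (ptIdeal q)
  hinvL1 : ∀ q : B1 →ₐ[W] L, Module.Invertible (L ⊗[W] B1) (ptIdeal q)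
  hirr : Irreducible π
  hcomp : ∀ g a, τL g (algebraMap O L a) = algebraMap O L (τO g a)
  hres : ∀ g a, τO g a - a ∈ IsLocalRing.maximalIdeal O
  hU : ∀ a : O, a ≠ 0 → (∀ g, τO g a = a) → ∃ m : ℕ, Associated a (π ^ (K * m))
  hSm1 : ∀ q : B1 →ₐ[W] O, q c0.s ∈ IsLocalRing.maximalIdeal O →
    Module.Invertible (O ⊗[W] B1) (ptIdeal q)
  node : ∃ IsNode : Ideal (O ⊗[W] B0) → Prop,
    (∀ q : B0 →ₐ[W] O, ¬ IsNode (redIdeal O q) → Module.Invertible (O ⊗[W] B0) (ptIdeal q)) ∧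
    ∀ (𝔫 : Ideal (O ⊗[W] B0)) [𝔫.IsMaximal], IsNode 𝔫 →
      ∃ (v₁ v₂ : Localization.AtPrime 𝔫 → ℕ) (P₁ P₂ : Ideal (Localization.AtPrime 𝔫))
        (X Y : O ⊗[W] B0),
        (∀ (g : G) (q : B0 →ₐ[W] O),
          ptEval ((τO g : O →ₐ[W] O).comp q) X = τO g (ptEval q X)) ∧
        NodeData (Localization.AtPrime 𝔫) v₁ v₂ P₁ P₂
          (algebraMap O (Localization.AtPrime 𝔫) π)
          (algebraMap (O ⊗[W] B0) (Localization.AtPrime 𝔫) X)
          (algebraMap (O ⊗[W] B0) (Localization.AtPrime 𝔫) Y) K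

variable {c0 O L}
variable {π : O} {G : Type*} {τL : G → L ≃ₐ[W] L} {τO : G → O ≃ₐ[W] O} {K : ℕ}

/-- **(EXT)** at a level. -/
theorem LevelHyp.exists_ext (H : LevelHyp c0 O L π τL τO K) (s : Multiset (PtIdx c0 L))
    (hs : ∀ g, s.map (twistIdx c0 (τL g)) = s) :
    ∃ x : PicX c0 O, PicX.map c0 O L x = msCls c0 s := by
  haveI := H.ft0
  haveI := H.dom0
  haveI := H.noeth0
  obtain ⟨IsNode, hSm0, hNode⟩ := H.node
  exact exists_ext_of_stable' c0 O L H.hint0 H.hint1 H.hinvL0 H.hinvL1 H.hirr τL τO H.hcomp H.hres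
    K H.hU IsNode hSm0 H.hSm1 hNode s hs

/-- **The Φ-step at a level.** -/
theorem LevelHyp.phi (H : LevelHyp c0 O L π τL τO K)
    (hg : NodalGood (c0.baseChange O) π (Fin 2)) {K' : Type u} [Field K']
    (X : ∀ i, Comp (c0.baseChange O) (hg.P0 i) (hg.P1 i) K')
    (y0 y1 : PicX c0 O)
    (h0 : Mdeg hg X y0 =
      (Pi.mulSingle (0 : Fin 2) (Multiplicative.ofAdd (-1 : ℤ)) : Fin 2 → Multiplicative ℤ))
    (h1 : Mdeg hg X y1 =
      (Pi.mulSingle (1 : Fin 2) (Multiplicative.ofAdd (-1 : ℤ)) : Fin 2 → Multiplicative ℤ))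
    (sP sN : Multiset (PtIdx c0 L))
    (hsP : ∀ g, sP.map (twistIdx c0 (τL g)) = sP) (hsN : ∀ g, sN.map (twistIdx c0 (τL g)) = sN) :
    ∃ (m0 m1 : ℤ) (x : PicX c0 O), x ∈ P00 hg X ∧
      PicX.map c0 O L x =
        msCls c0 sP / msCls c0 sN * PicX.map c0 O L y0 ^ m0 * PicX.map c0 O L y1 ^ m1 := by
  obtain ⟨xP, hxP⟩ := H.exists_ext sP hsP
  obtain ⟨xN, hxN⟩ := H.exists_ext sN hsN
  obtain ⟨m0, m1, hm⟩ := exists_zpow_mul_mem_P00_fin2 hg X y0 y1 h0 h1 (xP / xN)
  refine ⟨m0, m1, xP / xN * y0 ^ m0 * y1 ^ m1, hm, ?_⟩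
  rw [map_mul, map_mul, map_div, map_zpow, map_zpow, hxP, hxN]

/-! ### `sub_mem_J0` at a level -/

section SubMem

/-- The `LinAut` of an algebra automorphism. -/
def linAutOfEquiv (τ : O ≃ₐ[W] O) : LinAut W O where
  f := (τ : O →+* O)
  f' := (τ.symm : O →+* O)
  hf := fun w a => map_smul τ w a
  hf' := fun w a => map_smul τ.symm w a
  left := fun a => τ.symm_apply_apply a
  right := fun a => τ.apply_symm_apply a

theorem linTwist_linAutOfEquiv {B : Type u} [CommRing B] [Algebra W B] (τ : O ≃ₐ[W] O)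
    (q : B →ₐ[W] O) : linTwist (linAutOfEquiv τ) q = (τ : O →ₐ[W] O).comp q :=
  AlgHom.ext fun _ => rfl

theorem residue_of_sub_mem (τ : O ≃ₐ[W] O)
    (h : ∀ a : O, τ a - a ∈ IsLocalRing.maximalIdeal O) (a : O) :
    IsLocalRing.residue O ((linAutOfEquiv τ).f a) = IsLocalRing.residue O a := by
  rw [← sub_eq_zero, ← map_sub, IsLocalRing.residue_eq_zero_iff]
  exact h a

variable (H : LevelHyp c0 O L π τL τO K) {ι : Type}
  (hg : NodalGood (c0.baseChange O) π ι) {K' : Type u} [Field K']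
  (X : ∀ i, Comp (c0.baseChange O) (hg.P0 i) (hg.P1 i) K')
  (hπ : IsLocalRing.maximalIdeal O = Ideal.span {π})

include H hπ in
/-- One point: `[τ x] / [x] ∈ J⁰(L)`. -/
theorem LevelHyp.ptCls_twist_div_mem (g : G) (x : PtIdx c0 L) :
    ptCls c0 (twistIdx c0 (τL g) x) / ptCls c0 x ∈ J0L c0 O L (P00 hg X) := by
  classical
  haveI := H.ft0
  haveI := H.dom0
  haveI := H.noeth0
  obtain ⟨IsNode, hSm0, hNode⟩ := H.node
  have hπL : IsUnit (algebraMap O L π) :=
    IsUnit.mk0 _ (fun h0 => H.hirr.ne_zero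
      ((IsFractionRing.injective O L) (by rw [h0, map_zero])))
  have hresF := residue_of_sub_mem (τO g) (H.hres g)
  -- pass to the models
  rw [← ptCls_genIdx_model c0 O L H.hinvL0 H.hinvL1 H.hint0 H.hint1 x,
    ← ptCls_genIdx_model c0 O L H.hinvL0 H.hinvL1 H.hint0 H.hint1 (twistIdx c0 (τL g) x),
    model_twistIdx c0 (τL g) (τO g) (H.hcomp g) H.hint0 H.hint1 x]
  have hsmem : ∀ q1 : B1 →ₐ[W] O, model c0 O L H.hint0 H.hint1 x = Sum.inr q1 →
      q1 c0.s ∈ IsLocalRing.maximalIdeal O := fun q1 h =>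
    model_inr_s_mem c0 O L H.hint0 H.hint1 h
  generalize model c0 O L H.hint0 H.hint1 x = m at hsmem
  rcases m with q0 | q1
  · -- a chart 0 model
    show ptClass0 c0 (ptComp L ((τO g : O →ₐ[W] O).comp q0)) (H.hinvL0 _) /
      ptClass0 c0 (ptComp L q0) (H.hinvL0 _) ∈ J0L c0 O L (P00 hg X)
    by_cases hnode : IsNode (redIdeal O q0)
    · -- a node
      haveI hmax : (redIdeal O q0).IsMaximal := redIdeal_isMaximal O q0
      obtain ⟨v₁, v₂, P₁, P₂, X₀, Y₀, hX, D⟩ := hNode (redIdeal O q0) hnode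
      have h𝔫 : ∀ c, c ∈ redIdeal O q0 ↔ ¬ IsUnit (ptEval q0 c) := by
        intro c
        rw [mem_redIdeal, IsLocalRing.mem_maximalIdeal, mem_nonunits_iff]
      have e := linTwist_linAutOfEquiv (τO g) q0
      have hXF : ptEval (linTwist (linAutOfEquiv (τO g)) q0) X₀ =
          (linAutOfEquiv (τO g)).f (ptEval q0 X₀) := by
        rw [e]; exact hX g q0
      obtain ⟨z, hz, hmap⟩ := exists_mem_P00_map_eq_of_node c0 L hg X hπ H.hirr hπL
        (linAutOfEquiv (τO g)) hresF q0 (redIdeal O q0) h𝔫 X₀ Y₀ D hXF (H.hinvL0 _) (H.hinvL0 _)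
      refine ⟨z, hz, ?_⟩
      rw [hmap]
      congr 1
    · -- a smooth point
      have hinv : Module.Invertible (O ⊗[W] B0) (ptIdeal q0) := hSm0 q0 hnode
      have hinv' : Module.Invertible (O ⊗[W] B0) (ptIdeal ((τO g : O →ₐ[W] O).comp q0)) :=
        hSm0 _ (by rw [redIdeal_comp O (τO g) (H.hres g) q0]; exact hnode)
      refine ⟨ptClass0 c0 ((τO g : O →ₐ[W] O).comp q0) hinv' / ptClass0 c0 q0 hinv,
        ptClass0_div_mem_P00 c0 O hg X hπ _ _ hinv' hinv (fun b => hresF (q0 b)), ?_⟩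
      rw [map_div, map_ptClass0 c0 L _ hinv' (H.hinvL0 _), map_ptClass0 c0 L _ hinv (H.hinvL0 _)]
  · -- a chart 1 model
    show ptClass1 c0 (ptComp L ((τO g : O →ₐ[W] O).comp q1)) (H.hinvL1 _) /
      ptClass1 c0 (ptComp L q1) (H.hinvL1 _) ∈ J0L c0 O L (P00 hg X)
    have hs := hsmem q1 rfl
    have hinv : Module.Invertible (O ⊗[W] B1) (ptIdeal q1) := H.hSm1 q1 hs
    have hinv' : Module.Invertible (O ⊗[W] B1) (ptIdeal ((τO g : O →ₐ[W] O).comp q1)) :=
      H.hSm1 _ (map_mem_maximalIdeal O (τO g) hs)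
    refine ⟨ptClass1 c0 ((τO g : O →ₐ[W] O).comp q1) hinv' / ptClass1 c0 q1 hinv,
      ptClass1_div_mem_P00 c0 O hg X hπ _ _ hinv' hinv (fun b => hresF (q1 b)), ?_⟩
    rw [map_div, map_ptClass1 c0 L _ hinv' (H.hinvL1 _), map_ptClass1 c0 L _ hinv (H.hinvL1 _)]

include H hπ in
/-- **`sub_mem_J0` at a level.** -/
theorem LevelHyp.sub_mem (g : G) (x : PicX c0 L) (hx : x ∈ (pointClasses c0).PicPt L) :
    galPic c0 (τL g) x / x ∈ J0L c0 O L (P00 hg X) := by
  let φ : PicX c0 L →* PicX c0 L := galPic c0 (τL g) / MonoidHom.id _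
  have hφ : ∀ y, φ y = galPic c0 (τL g) y / y := fun y => rfl
  have hle : (pointClasses c0).PicPt L ≤ (J0L c0 O L (P00 hg X)).comap φ := by
    show Subgroup.closure {x | IsPtClass c0 L x} ≤ _
    rw [Subgroup.closure_le]
    rintro y (⟨q, h, rfl⟩ | ⟨q, h, rfl⟩)
    · rw [SetLike.mem_coe, Subgroup.mem_comap, hφ]
      have := H.ptCls_twist_div_mem hg X hπ g (Sum.inl ⟨q, h⟩)
      have e := galPic_ptCls c0 (τL g) (Sum.inl ⟨q, h⟩ : PtIdx c0 L)
      rw [show ptClass0 c0 q h = ptCls c0 (Sum.inl ⟨q, h⟩ : PtIdx c0 L) from rfl, e]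
      exact this
    · rw [SetLike.mem_coe, Subgroup.mem_comap, hφ]
      have := H.ptCls_twist_div_mem hg X hπ g (Sum.inr ⟨q, h⟩)
      have e := galPic_ptCls c0 (τL g) (Sum.inr ⟨q, h⟩ : PtIdx c0 L)
      rw [show ptClass1 c0 q h = ptCls c0 (Sum.inr ⟨q, h⟩ : PtIdx c0 L) from rfl, e]
      exact this
  have := hle hx
  rwa [Subgroup.mem_comap, hφ] at this

end SubMem

end Fermat.Agent.T1B.Node45.Phi
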