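/-
Programme T1B (row 38 / S44), cell (I) NODE/PHI (helper45), PHI7 plan (report 1166), chain (G4):
**THE Φ-STEP FROM A LEVEL `L` TO A HIGHER LEVEL**, abstract form.

`c0` the hub over `W`; `L ⊆ Ω` fields over `W` (`L` a finite level, `Ω = ℚ̄_p`); `γΩ g` (`g ∈ Γ`, the
inertia group) `W`-automorphisms of `Ω` inducing `τL g ∈ G ≤ Aut_W(L)` on `L`;
`Desc1.DescStatement c0 L Ω G` (Galois descent of invariant classes of points, `Φ4 DESC'`);
a family `U j` of UPPER LEVELS (`UpLevel`: a field `L ⊆ L' ⊆ Ω`, its DVR `O'`, the induced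
automorphisms, the model facts `Phi.LevelHyp` at `O'`, the two components and two section classes
`y0 y1` of multidegrees `-e_0`, `-e_1`) which is COFINAL: every finite subset of `Ω` lies in some
`L'` (`hlev`).

**`phi_up`** : every `G`-invariant class of points `u ∈ PicPt L` becomes at some upper level
`[u]_{L'} · [y0]^m0 · [y1]^m1 = ` the generic fibre of a class of multidegree zero on `X_{O'}`.

Chain: DESC ⇒ stable multisets `sP sN` of `Ω`-points; level choice; descent of the points to `L'`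
(`descIdxRange`); stability descends (`Desc8.DescAt.stable_of_bcIdx_stable`); `Phi.LevelHyp.phi`.
-/
import Mathlib
import Fermat.Agent.T1B.Node45.Phi
import Fermat.Agent.T1B.Desc8.DescAt
import Fermat.Agent.T1.Centres94.FieldChoice

set_option autoImplicit false
set_option linter.unusedSectionVars false
set_option linter.style.haveILetI false

open TensorProduct

namespace Fermat.Agent.T1B.Node45.PhiUp

open Fermat.Agent.Jac Fermat.Agent.Jac.JSmooth85Alg Fermat.Agent.Jac.JGroup85Pic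
open Fermat.Agent.Jac.BaseChange75 Fermat.Agent.Jac.LineOps39 Fermat.Agent.T1.RedIface75
open Fermat.Agent.T1.PtLine75
open Fermat.Agent.T1B.Desc1 Fermat.Agent.T1B.Desc8 Fermat.Agent.T1B.Desc8.Effective
open Fermat.Agent.T1B.Bal60 Fermat.Agent.T1B.RedN3
open Fermat.Agent.T1B.Node45.Phi
open scoped Fermat.Agent.Jac.BaseChange75

universe u

/-! ### Descent of points with values in the range of a field extension -/

section Desc

variable {W : Type u} [CommRing W] {L' Ω : Type u} [Field L'] [Field Ω] [Algebra W L']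
  [Algebra W Ω] [Algebra L' Ω] [IsScalarTower W L' Ω]

section OnePoint

variable {B : Type u} [CommRing B] [Algebra W B]

/-- A point with values in the range of `L' → Ω` descends to `L'`. -/
theorem exists_descPt (q : B →ₐ[W] Ω) (h : ∀ b, q b ∈ (algebraMap L' Ω).range) :
    ∃ q' : B →ₐ[W] L', ptComp Ω q' = q := by
  have hinj : Function.Injective (algebraMap L' Ω) := (algebraMap L' Ω).injective
  choose f hf using h
  have hf' : ∀ b, algebraMap L' Ω (f b) = q b := hf
  refine ⟨{ toFun := f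
            map_one' := hinj (by rw [hf', map_one, map_one])
            map_mul' := fun a b => hinj (by rw [hf', map_mul, map_mul, hf', hf'])
            map_zero' := hinj (by rw [hf', map_zero, map_zero])
            map_add' := fun a b => hinj (by rw [hf', map_add, map_add, hf', hf'])
            commutes' := fun w => hinj (by
              rw [hf', q.commutes, ← IsScalarTower.algebraMap_apply]) }, ?_⟩
  exact AlgHom.ext fun b => hf' b

end OnePoint

variable {B0 B1 B01 : Type u} [CommRing B0] [CommRing B1] [CommRing B01]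
  [Algebra W B0] [Algebra W B1] [Algebra W B01] [Algebra B0 B01] [Algebra B1 B01]
  [IsScalarTower W B0 B01] [IsScalarTower W B1 B01]
  (c0 : TwoChart W B0 B1 B01)

/-- The point index has all its values in the range of `L' → Ω`. -/
def DefinedOverRange (L' : Type u) [Field L'] [Algebra L' Ω] : PtIdx c0 Ω → Prop
  | Sum.inl q => ∀ b, q.1 b ∈ (algebraMap L' Ω).range
  | Sum.inr q => ∀ b, q.1 b ∈ (algebraMap L' Ω).range

/-- Descent of a point index. -/
theorem exists_descIdx
    (hinv0 : ∀ q : B0 →ₐ[W] L', Module.Invertible (L' ⊗[W] B0) (ptIdeal q))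
    (hinv1 : ∀ q : B1 →ₐ[W] L', Module.Invertible (L' ⊗[W] B1) (ptIdeal q))
    (x : PtIdx c0 Ω) (h : DefinedOverRange c0 L' x) :
    ∃ x' : PtIdx c0 L', bcIdx c0 Ω x' = x := by
  rcases x with q | q
  · obtain ⟨q', hq'⟩ := exists_descPt q.1 h
    exact ⟨Sum.inl ⟨q', hinv0 _⟩, congrArg Sum.inl (Subtype.ext hq')⟩
  · obtain ⟨q', hq'⟩ := exists_descPt q.1 h
    exact ⟨Sum.inr ⟨q', hinv1 _⟩, congrArg Sum.inr (Subtype.ext hq')⟩

/-- Descent of a multiset of points. -/
theorem exists_descMultiset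
    (hinv0 : ∀ q : B0 →ₐ[W] L', Module.Invertible (L' ⊗[W] B0) (ptIdeal q))
    (hinv1 : ∀ q : B1 →ₐ[W] L', Module.Invertible (L' ⊗[W] B1) (ptIdeal q))
    (s : Multiset (PtIdx c0 Ω)) (h : ∀ x ∈ s, DefinedOverRange c0 L' x) :
    ∃ s' : Multiset (PtIdx c0 L'), s'.map (bcIdx c0 Ω) = s := by
  induction s using Multiset.induction_on with
  | empty => exact ⟨0, rfl⟩
  | cons a s ih =>
    obtain ⟨s', hs'⟩ := ih fun x hx => h x (Multiset.mem_cons_of_mem hx)
    obtain ⟨a', ha'⟩ := exists_descIdx c0 hinv0 hinv1 a (h a (Multiset.mem_cons_self a s))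
    exact ⟨a' ::ₘ s', by rw [Multiset.map_cons, ha', hs']⟩

/-- Finitely many values decide whether a point is defined over `L'`. -/
theorem exists_finset_definedOver [Algebra.FiniteType W B0] [Algebra.FiniteType W B1]
    (x : PtIdx c0 Ω) :
    ∃ T : Finset Ω, ∀ (L' : Type u) [Field L'] [Algebra W L'] [Algebra L' Ω]
      [IsScalarTower W L' Ω], (∀ t ∈ T, t ∈ (algebraMap L' Ω).range) →
      DefinedOverRange c0 L' x := by
  rcases x with q | q
  · obtain ⟨T, hT⟩ := Fermat.Agent.T1.Centres94.FieldChoice.exists_finset_values q.1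
    refine ⟨T, fun L' _ _ _ _ hTL => ?_⟩
    exact hT (algebraMap L' Ω).fieldRange
      (fun w => ⟨algebraMap W L' w, (IsScalarTower.algebraMap_apply W L' Ω w).symm⟩) hTL
  · obtain ⟨T, hT⟩ := Fermat.Agent.T1.Centres94.FieldChoice.exists_finset_values q.1
    refine ⟨T, fun L' _ _ _ _ hTL => ?_⟩
    exact hT (algebraMap L' Ω).fieldRange
      (fun w => ⟨algebraMap W L' w, (IsScalarTower.algebraMap_apply W L' Ω w).symm⟩) hTL

end Desc

/-! ### Upper levels -/

variable {W B0 B1 B01 : Type u} [CommRing W] [CommRing B0] [CommRing B1] [CommRing B01]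
  [Algebra W B0] [Algebra W B1] [Algebra W B01] [Algebra B0 B01] [Algebra B1 B01]
  [IsScalarTower W B0 B01] [IsScalarTower W B1 B01]
  (c0 : TwoChart W B0 B1 B01)
  (L Ω : Type u) [Field L] [Field Ω] [Algebra W L] [Algebra W Ω] [Algebra L Ω]
  [IsScalarTower W L Ω]

/-- **An upper level**: a field `L ⊆ L' ⊆ Ω` with its DVR `O'`, the automorphisms induced by the
`γΩ g`, the model facts at `O'`, the two components of the special fibre and two classes `y0 y1` of
multidegrees `-e_0`, `-e_1`. -/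
structure UpLevel {Γ : Type*} (γΩ : Γ → Ω ≃ₐ[W] Ω) where
  L' : Type u
  O' : Type u
  [fieldL' : Field L']
  [algWL' : Algebra W L']
  [algLL' : Algebra L L']
  [algL'Ω : Algebra L' Ω]
  [towWLL' : IsScalarTower W L L']
  [towWL'Ω : IsScalarTower W L' Ω]
  [towLL'Ω : IsScalarTower L L' Ω]
  [ringO' : CommRing O']
  [domO' : IsDomain O']
  [dvrO' : IsDiscreteValuationRing O']
  [algWO' : Algebra W O']
  [algO'L' : Algebra O' L']
  [towWO'L' : IsScalarTower W O' L']
  [fracO'L' : IsFractionRing O' L']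
  π : O'
  τL' : Γ → L' ≃ₐ[W] L'
  τO' : Γ → O' ≃ₐ[W] O'
  K : ℕ
  hyp : LevelHyp c0 O' L' π τL' τO' K
  hγ : ∀ g a, γΩ g (algebraMap L' Ω a) = algebraMap L' Ω (τL' g a)
  hg : NodalGood (c0.baseChange O') π (Fin 2)
  κ : Type u
  [fieldκ : Field κ]
  X : ∀ i, Comp (c0.baseChange O') (hg.P0 i) (hg.P1 i) κ
  y0 : PicX c0 O'
  y1 : PicX c0 O'
  h0 : Mdeg hg X y0 =
    (Pi.mulSingle (0 : Fin 2) (Multiplicative.ofAdd (-1 : ℤ)) : Fin 2 → Multiplicative ℤ)
  h1 : Mdeg hg X y1 =
    (Pi.mulSingle (1 : Fin 2) (Multiplicative.ofAdd (-1 : ℤ)) : Fin 2 → Multiplicative ℤ)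

attribute [instance] UpLevel.fieldL' UpLevel.algWL' UpLevel.algLL' UpLevel.algL'Ω
  UpLevel.towWLL' UpLevel.towWL'Ω UpLevel.towLL'Ω UpLevel.ringO' UpLevel.domO' UpLevel.dvrO'
  UpLevel.algWO' UpLevel.algO'L' UpLevel.towWO'L' UpLevel.fracO'L' UpLevel.fieldκ

variable {c0 L Ω}

/-- **The Φ-step from `L` to an upper level.** -/
theorem phi_up [Algebra.FiniteType W B0] [Algebra.FiniteType W B1]
    {Γ : Type*} {γΩ : Γ → Ω ≃ₐ[W] Ω} {J : Type*} (U : J → UpLevel c0 L Ω γΩ)
    (hlev : ∀ T : Finset Ω, ∃ j, ∀ t ∈ T, t ∈ (algebraMap (U j).L' Ω).range)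
    (G : Subgroup (L ≃ₐ[W] L)) (hdesc : DescStatement c0 L Ω G)
    (τL : Γ → L ≃ₐ[W] L) (hτG : ∀ g, τL g ∈ G)
    (hγL : ∀ g a, γΩ g (algebraMap L Ω a) = algebraMap L Ω (τL g a))
    (u : PicX c0 L) (hu : u ∈ (pointClasses c0).PicPt L)
    (hfix : ∀ τ ∈ G, galPic c0 τ u = u) :
    ∃ (j : J) (m0 m1 : ℤ) (x : PicX c0 (U j).O'), x ∈ P00 (U j).hg (U j).X ∧
      PicX.map c0 (U j).O' (U j).L' x =
        PicX.map c0 L (U j).L' u * PicX.map c0 (U j).O' (U j).L' (U j).y0 ^ m0 *
          PicX.map c0 (U j).O' (U j).L' (U j).y1 ^ m1 := by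
  classical
  obtain ⟨sP, sN, -, hstab, hfin⟩ := hdesc u hu hfix
  -- the level
  choose T hT using fun x : PtIdx c0 Ω => exists_finset_definedOver c0 x
  obtain ⟨j, hj⟩ := hlev ((sP + sN).toFinset.biUnion T)
  have hdef : ∀ x ∈ sP + sN, DefinedOverRange c0 (U j).L' x := by
    intro x hx
    apply hT x (U j).L'
    intro t ht
    exact hj t (Finset.mem_biUnion.2 ⟨x, Multiset.mem_toFinset.2 hx, ht⟩)
  -- descent of the points
  obtain ⟨sP', hP'⟩ := exists_descMultiset c0 (U j).hyp.hinvL0 (U j).hyp.hinvL1 sP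
    (fun x hx => hdef x (Multiset.mem_add.2 (Or.inl hx)))
  obtain ⟨sN', hN'⟩ := exists_descMultiset c0 (U j).hyp.hinvL0 (U j).hyp.hinvL1 sN
    (fun x hx => hdef x (Multiset.mem_add.2 (Or.inr hx)))
  have hcls := hfin (U j).L' sP' sN' hP' hN'
  -- stability
  have hinj : Function.Injective (algebraMap (U j).L' Ω) := (algebraMap (U j).L' Ω).injective
  have hsP : ∀ g, sP'.map (twistIdx c0 ((U j).τL' g)) = sP' := by
    intro g
    apply DescAt.stable_of_bcIdx_stable c0 Ω hinj (γΩ g) ((U j).τL' g) ((U j).hγ g)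
    rw [hP']
    exact (hstab (γΩ g) (τL g) (hτG g) (hγL g)).1
  have hsN : ∀ g, sN'.map (twistIdx c0 ((U j).τL' g)) = sN' := by
    intro g
    apply DescAt.stable_of_bcIdx_stable c0 Ω hinj (γΩ g) ((U j).τL' g) ((U j).hγ g)
    rw [hN']
    exact (hstab (γΩ g) (τL g) (hτG g) (hγL g)).2
  -- the Φ-step at the upper level
  obtain ⟨m0, m1, x, hx, hmap⟩ := (U j).hyp.phi (U j).hg (U j).X (U j).y0 (U j).y1 (U j).h0
    (U j).h1 sP' sN' hsP hsN
  refine ⟨j, m0, m1, x, hx, ?_⟩
  rw [hmap, hcls]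
  rfl

end Fermat.Agent.T1B.Node45.PhiUp
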