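/-
Programme T1B (row 38 / S44), cell (I) NODE/PHI (helper45), PHI7 plan (report 1166), chain (G4),
**SECTION-FREE FORM**: an inertia-invariant class of points at a level `L` EXTENDS to a line bundle
on the integral model of some higher level.

Same setting as `PhiUp.phi_up`, but the upper levels (`ExtLevel`) carry NO components, NO
multidegrees and NO section classes: the conclusion is only

  `ext_up : ∃ j (x : Pic X_{O'_j}), [x]_{L'_j} = [u]_{L'_j}`,

i.e. "`u` lies in `JextTop`" (the union over the levels of the images of `Pic X_{O'} → Pic X_Ω`).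
This is all the consumers of `LocalGeom.phi` need when `C := JextTop` (the R1 entry point
`ρ_const / ρ_ker` only uses that `j x` extends to SOME line over some `O'`, helper93's AD-MAIN-Pe).
-/
import Mathlib
import Fermat.Agent.T1B.Node45.PhiUp

set_option autoImplicit false
set_option linter.unusedSectionVars false
set_option linter.style.haveILetI false

open TensorProduct

namespace Fermat.Agent.T1B.Node45.ExtUp

open Fermat.Agent.Jac Fermat.Agent.Jac.JSmooth85Alg Fermat.Agent.Jac.JGroup85Pic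
open Fermat.Agent.Jac.BaseChange75 Fermat.Agent.Jac.LineOps39 Fermat.Agent.T1.RedIface75
open Fermat.Agent.T1.PtLine75
open Fermat.Agent.T1B.Desc1 Fermat.Agent.T1B.Desc8 Fermat.Agent.T1B.Desc8.Effective
open Fermat.Agent.T1B.Node45.Phi Fermat.Agent.T1B.Node45.PhiUp
open scoped Fermat.Agent.Jac.BaseChange75

universe u

variable {W B0 B1 B01 : Type u} [CommRing W] [CommRing B0] [CommRing B1] [CommRing B01]
  [Algebra W B0] [Algebra W B1] [Algebra W B01] [Algebra B0 B01] [Algebra B1 B01]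
  [IsScalarTower W B0 B01] [IsScalarTower W B1 B01]
  (c0 : TwoChart W B0 B1 B01)
  (L Ω : Type u) [Field L] [Field Ω] [Algebra W L] [Algebra W Ω] [Algebra L Ω]
  [IsScalarTower W L Ω]

/-- **An upper level, without components**: a field `L ⊆ L' ⊆ Ω` with its DVR `O'`, the
automorphisms induced by the `γΩ g`, and the model facts at `O'`. -/
structure ExtLevel {Γ : Type*} (γΩ : Γ → Ω ≃ₐ[W] Ω) where
  L' : Type u
  O' : Type u
  [fieldL' : Field L']
  [algWL' : Algebra W L']
  [algLL' : Algebra L L']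
  [algL'Ω : Algebra L' Ω]
  [towWLL' : IsScalarTower W L L']
  [towWL'Ω : IsScalarTower W L' Ω]
  [towLL'Ω : IsScalarTower L L' Ω]
  [ringO' : CommRing O']
  [domO' : IsDomain O']
  [dvrO' : IsDiscreteValuationRing O']
  [algWO' : Algebra W O']
  [algO'L' : Algebra O' L']
  [towWO'L' : IsScalarTower W O' L']
  [fracO'L' : IsFractionRing O' L']
  π : O'
  τL' : Γ → L' ≃ₐ[W] L'
  τO' : Γ → O' ≃ₐ[W] O'
  K : ℕ
  hyp : LevelHyp c0 O' L' π τL' τO' K
  hγ : ∀ g a, γΩ g (algebraMap L' Ω a) = algebraMap L' Ω (τL' g a)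

attribute [instance] ExtLevel.fieldL' ExtLevel.algWL' ExtLevel.algLL' ExtLevel.algL'Ω
  ExtLevel.towWLL' ExtLevel.towWL'Ω ExtLevel.towLL'Ω ExtLevel.ringO' ExtLevel.domO'
  ExtLevel.dvrO' ExtLevel.algWO' ExtLevel.algO'L' ExtLevel.towWO'L' ExtLevel.fracO'L'

variable {c0 L Ω}

/-- **(EXT) from `L` to an upper level.** -/
theorem ext_up [Algebra.FiniteType W B0] [Algebra.FiniteType W B1]
    {Γ : Type*} {γΩ : Γ → Ω ≃ₐ[W] Ω} {J : Type*} (U : J → ExtLevel c0 L Ω γΩ)
    (hlev : ∀ T : Finset Ω, ∃ j, ∀ t ∈ T, t ∈ (algebraMap (U j).L' Ω).range)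
    (G : Subgroup (L ≃ₐ[W] L)) (hdesc : DescStatement c0 L Ω G)
    (τL : Γ → L ≃ₐ[W] L) (hτG : ∀ g, τL g ∈ G)
    (hγL : ∀ g a, γΩ g (algebraMap L Ω a) = algebraMap L Ω (τL g a))
    (u : PicX c0 L) (hu : u ∈ (pointClasses c0).PicPt L)
    (hfix : ∀ τ ∈ G, galPic c0 τ u = u) :
    ∃ (j : J) (x : PicX c0 (U j).O'),
      PicX.map c0 (U j).O' (U j).L' x = PicX.map c0 L (U j).L' u := by
  classical
  obtain ⟨sP, sN, -, hstab, hfin⟩ := hdesc u hu hfix
  -- the level
  choose T hT using fun x : PtIdx c0 Ω => exists_finset_definedOver c0 x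
  obtain ⟨j, hj⟩ := hlev ((sP + sN).toFinset.biUnion T)
  have hdef : ∀ x ∈ sP + sN, DefinedOverRange c0 (U j).L' x := by
    intro x hx
    apply hT x (U j).L'
    intro t ht
    exact hj t (Finset.mem_biUnion.2 ⟨x, Multiset.mem_toFinset.2 hx, ht⟩)
  -- descent of the points
  obtain ⟨sP', hP'⟩ := exists_descMultiset c0 (U j).hyp.hinvL0 (U j).hyp.hinvL1 sP
    (fun x hx => hdef x (Multiset.mem_add.2 (Or.inl hx)))
  obtain ⟨sN', hN'⟩ := exists_descMultiset c0 (U j).hyp.hinvL0 (U j).hyp.hinvL1 sN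
    (fun x hx => hdef x (Multiset.mem_add.2 (Or.inr hx)))
  have hcls := hfin (U j).L' sP' sN' hP' hN'
  -- stability
  have hinj : Function.Injective (algebraMap (U j).L' Ω) := (algebraMap (U j).L' Ω).injective
  have hsP : ∀ g, sP'.map (twistIdx c0 ((U j).τL' g)) = sP' := by
    intro g
    apply DescAt.stable_of_bcIdx_stable c0 Ω hinj (γΩ g) ((U j).τL' g) ((U j).hγ g)
    rw [hP']
    exact (hstab (γΩ g) (τL g) (hτG g) (hγL g)).1
  have hsN : ∀ g, sN'.map (twistIdx c0 ((U j).τL' g)) = sN' := by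
    intro g
    apply DescAt.stable_of_bcIdx_stable c0 Ω hinj (γΩ g) ((U j).τL' g) ((U j).hγ g)
    rw [hN']
    exact (hstab (γΩ g) (τL g) (hτG g) (hγL g)).2
  -- (EXT) at the upper level
  obtain ⟨xP, hxP⟩ := (U j).hyp.exists_ext sP' hsP
  obtain ⟨xN, hxN⟩ := (U j).hyp.exists_ext sN' hsN
  refine ⟨j, xP / xN, ?_⟩
  rw [map_div, hxP, hxN, hcls]
  rfl

end Fermat.Agent.T1B.Node45.ExtUp
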