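/-
Programme T1B (row 38 / S44), cell (I) NODE/PHI (helper45), PHI7 plan (report 1166), LAST STEP:
**`LocalGeom.phi` (with `C := JextTop`) and `LocalGeom.sub_mem_J0` on helper66's concrete objects**
(`Local66.Objects`: `PtTop`, `J0top`, `J1top`, `JextTop`, action `Bridge54.IpInst.actTop`).

Per-level input (`LevelData c0 hK E`, `E : NLevel p K`): a uniformiser `π_E`, a thickness `K_E` and the
model facts `Phi.LevelHyp c0 O_E E π_E (tauE hK E) (tauO hK E) K_E`, where `tauE`, `tauO` are the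
`W`-algebra automorphisms of `E`, `O_E` induced by the inertia group (`galE`, `galO`).

* `tauTop`, `tauE`, `tauO`, `galPic_tauE : galPic c0 (tauE hK E τ) = gE c0 E hK τ`;
* `GE hK E` : the (finite) image of inertia in `Aut_W(E)`;
* `PtTop_eq_top` : every class of `Pic X_{ℚ̄_p}` is a class of points of some finite level
  (from `PicPt(ℚ̄_p) = ⊤`, helper60's PT-GEN);
* **`phi_top`** : `y ∈ PtTop`, `t ∈ J1top`, `y - t` inertia-invariant `⇒ y - t ∈ JextTop`
  (`ExtUp.ext_up`), in the `LocalGeom.phi` shape with `C := JextTop`;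
* **`sub_mem_J0_top`** : `τ • x - x ∈ J0top` for `x ∈ PtTop` (`Phi.LevelHyp.sub_mem`).
-/
import Mathlib
import Fermat.Agent.T1B.Node45.ExtUp
import Fermat.Agent.T1B.Local66.Objects

set_option autoImplicit false
set_option linter.unusedSectionVars false
set_option linter.style.haveILetI false
set_option synthInstance.maxHeartbeats 400000
set_option maxHeartbeats 1000000

open TensorProduct

open Fermat.Agent.TW.B5.Iface Fermat.Agent.RED.Interface4 Fermat.Agent.T1.HubInst98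
open Fermat.Agent.T1.IntSub47 Fermat.Agent.Jac Fermat.Agent.T1.RedIface75
open Fermat.Agent.T1.PtLine75 Fermat.Agent.T1.Red11
open Fermat.Agent.T1B.Local66.LocalBase Fermat.Agent.T1B.Local66.Union
open Fermat.Agent.T1B.Local66.Objects
open Fermat.Agent.T1B.Plumb66.Inertia (Ip mem_Ip)
open Fermat.Agent.T1B.Bridge54.IpAction Fermat.Agent.T1B.Bridge54.IpInst
open Fermat.Agent.T1B.Bridge54.IpUnion
open Fermat.Agent.ES.P36.InertField27 (InertFixed)
open Fermat.Agent.T1B.Desc1 Fermat.Agent.T1B.Desc8 Fermat.Agent.T1B.Desc8.Effective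
open Fermat.Agent.T1B.Node45.Phi Fermat.Agent.T1B.Node45.PhiUp Fermat.Agent.T1B.Node45.ExtUp
open Fermat.Agent.T1B.Bal60 Fermat.Agent.T1B.RedN3
open scoped Fermat.Agent.Jac.BaseChange75

noncomputable section

namespace Fermat.Agent.T1B.Node45.LocalPhi

variable {p : ℕ} [Fact p.Prime] {K : IntermediateField ℚ Qbar}

/-! ### Inertia as `W`-algebra automorphisms -/

/-- `τ` as a `W`-algebra automorphism of `ℚ̄_p`. -/
def tauTop (hK : InertFixed (padicPlace p) K) (τ : ↥(Ip p)) :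
    letI := algWKbar p K
    Kbar p ≃ₐ[Wb p K] Kbar p :=
  letI := algWKbar p K
  { ((τ : Gp p) : Kbar p ≃+* Kbar p) with
    commutes' := fun w => inertia_iotaW p K hK τ w }

theorem tauTop_apply (hK : InertFixed (padicPlace p) K) (τ : ↥(Ip p)) (x : Kbar p) :
    tauTop hK τ x = (τ : Gp p) x := rfl

/-- `τ` as a `W`-algebra automorphism of a normal level `E`. -/
def tauE (hK : InertFixed (padicPlace p) K) (E : NLevel p K) (τ : ↥(Ip p)) :
    letI := algWE E.lev
    ↥E.E ≃ₐ[Wb p K] ↥E.E :=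
  letI := algWE E.lev
  { toFun := galE E.nor (τ : Gp p)
    invFun := galE E.nor ((τ⁻¹ : ↥(Ip p)) : Gp p)
    left_inv := fun y => by
      rw [← galE_mul, ← Subgroup.coe_mul, inv_mul_cancel, Subgroup.coe_one, galE_one]
    right_inv := fun y => by
      rw [← galE_mul, ← Subgroup.coe_mul, mul_inv_cancel, Subgroup.coe_one, galE_one]
    map_mul' := map_mul _
    map_add' := map_add _
    commutes' := fun w => galE_toE hK E.lev E.nor τ (w : ↥K) }

theorem tauE_apply (hK : InertFixed (padicPlace p) K) (E : NLevel p K) (τ : ↥(Ip p)) (x : ↥E.E) :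
    tauE hK E τ x = galE E.nor (τ : Gp p) x := rfl

/-- `τ` as a `W`-algebra automorphism of `O_E`. -/
def tauO (hK : InertFixed (padicPlace p) K) (E : NLevel p K) (τ : ↥(Ip p)) :
    letI := algWO E.lev
    ↥(intSubring p E.E) ≃ₐ[Wb p K] ↥(intSubring p E.E) :=
  letI := algWO E.lev
  { toFun := galO E.nor (τ : Gp p)
    invFun := galO E.nor ((τ⁻¹ : ↥(Ip p)) : Gp p)
    left_inv := fun y => by
      rw [← galO_mul, ← Subgroup.coe_mul, inv_mul_cancel, Subgroup.coe_one, galO_one]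
    right_inv := fun y => by
      rw [← galO_mul, ← Subgroup.coe_mul, mul_inv_cancel, Subgroup.coe_one, galO_one]
    map_mul' := map_mul _
    map_add' := map_add _
    commutes' := fun w => galO_toO hK E.lev E.nor τ w }

theorem tauO_apply (hK : InertFixed (padicPlace p) K) (E : NLevel p K) (τ : ↥(Ip p))
    (x : ↥(intSubring p E.E)) : tauO hK E τ x = galO E.nor (τ : Gp p) x := rfl


/-- The inertia group acting on a normal level, as a homomorphism to `Aut_W(E)`. -/
def tauEHom (hK : InertFixed (padicPlace p) K) (E : NLevel p K) :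
    letI := algWE E.lev
    ↥(Ip p) →* (↥E.E ≃ₐ[Wb p K] ↥E.E) :=
  letI := algWE E.lev
  { toFun := tauE hK E
    map_one' := AlgEquiv.ext fun y => galE_one E.nor y
    map_mul' := fun σ τ => AlgEquiv.ext fun y => galE_mul E.nor (σ : Gp p) (τ : Gp p) y }

/-- **The image of inertia in `Aut_W(E)`.** -/
def GE (hK : InertFixed (padicPlace p) K) (E : NLevel p K) :
    letI := algWE E.lev
    Subgroup (↥E.E ≃ₐ[Wb p K] ↥E.E) :=
  letI := algWE E.lev
  (tauEHom hK E).range

theorem tauE_mem_GE (hK : InertFixed (padicPlace p) K) (E : NLevel p K) (τ : ↥(Ip p)) :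
    tauE hK E τ ∈ GE hK E :=
  ⟨τ, rfl⟩

theorem exists_of_mem_GE (hK : InertFixed (padicPlace p) K) (E : NLevel p K)
    {σ : letI := algWE E.lev; ↥E.E ≃ₐ[Wb p K] ↥E.E} (hσ : σ ∈ GE hK E) :
    ∃ τ : ↥(Ip p), σ = tauE hK E τ := by
  obtain ⟨τ, rfl⟩ := hσ
  exact ⟨τ, rfl⟩

/-- `τ` on a normal level as a `ℚ_p`-algebra automorphism. -/
def galEQp (E : NLevel p K) (τ : Gp p) : ↥E.E ≃ₐ[ℚ_[p]] ↥E.E where
  toFun := galE E.nor τ
  invFun := galE E.nor τ⁻¹
  left_inv := fun y => by rw [← galE_mul, inv_mul_cancel, galE_one]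
  right_inv := fun y => by rw [← galE_mul, mul_inv_cancel, galE_one]
  map_mul' := map_mul _
  map_add' := map_add _
  commutes' := fun c => Subtype.ext (τ.commutes c)

/-- The image of inertia in `Aut_W(E)` is finite. -/
theorem finite_GE (hK : InertFixed (padicPlace p) K) (E : NLevel p K) : Finite ↥(GE hK E) := by
  letI := algWE E.lev
  have hch : ∀ g : ↥(GE hK E), ∃ τ : ↥(Ip p), (g : ↥E.E ≃ₐ[Wb p K] ↥E.E) = tauE hK E τ :=
    fun g => exists_of_mem_GE hK E g.2
  choose f hf using hch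
  refine Finite.of_injective (fun g : ↥(GE hK E) => galEQp E ((f g : ↥(Ip p)) : Gp p)) ?_
  intro g g' h
  apply Subtype.ext
  apply AlgEquiv.ext
  intro y
  have h1 : galEQp E ((f g : ↥(Ip p)) : Gp p) y = galEQp E ((f g' : ↥(Ip p)) : Gp p) y := by
    rw [show galEQp E ((f g : ↥(Ip p)) : Gp p) = galEQp E ((f g' : ↥(Ip p)) : Gp p) from h]
  rw [hf g, hf g']
  exact h1

section Charts

variable {B0 B1 B01 : Type} [CommRing B0] [CommRing B1] [CommRing B01]
  [Algebra (Wb p K) B0] [Algebra (Wb p K) B1] [Algebra (Wb p K) B01] [Algebra B0 B01]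
  [Algebra B1 B01] [IsScalarTower (Wb p K) B0 B01] [IsScalarTower (Wb p K) B1 B01]
  (c0 : TwoChart (Wb p K) B0 B1 B01)

/-- **`galPic` of the automorphism induced by `τ` is helper54's `gE`.** -/
theorem galPic_tauE (hK : InertFixed (padicPlace p) K) (E : NLevel p K) (τ : ↥(Ip p))
    (x : PicE c0 E) :
    letI := algWE E.lev
    galPic c0 (tauE hK E τ) x = gE c0 E hK τ x := by
  letI := algWE E.lev
  rfl

/-! ### The per-level input -/

/-- **The model facts of the level `E`**: a uniformiser, a thickness and `Phi.LevelHyp` for the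
automorphisms induced by inertia. -/
structure LevelData (hK : InertFixed (padicPlace p) K) (E : NLevel p K) where
  π : ↥(intSubring p E.E)
  e : ℕ
  hyp :
    letI := algWO E.lev
    letI := algWE E.lev
    letI := algOE E.E
    haveI := tower_W_O_E E.lev
    haveI := isDVR_O E.E
    haveI := isFractionRing_O_E E.E
    LevelHyp c0 ↥(intSubring p E.E) ↥E.E π (tauE hK E) (tauO hK E) e

/-- The upper levels above `E`, in the shape of `ExtUp.ExtLevel`. -/
def extLevel (hK : InertFixed (padicPlace p) K) (D : ∀ E : NLevel p K, LevelData c0 hK E)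
    (E : NLevel p K) (j : {E' : NLevel p K // E ≤ E'}) :
    letI := algWE E.lev
    letI := algWKbar p K
    letI := algEKbar E.E
    haveI := tower_W_E_Kbar E.lev
    ExtLevel c0 ↥E.E (Kbar p) (tauTop hK) :=
  letI := algWE E.lev
  letI := algWKbar p K
  letI := algEKbar E.E
  haveI := tower_W_E_Kbar E.lev
  { L' := ↥j.1.E
    O' := ↥(intSubring p j.1.E)
    fieldL' := inferInstance
    algWL' := algWE j.1.lev
    algLL' := algEE (p := p) (NLevel.E_le j.2)
    algL'Ω := algEKbar j.1.E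
    towWLL' := tower_W_E_E E.lev (NLevel.E_le j.2)
    towWL'Ω := tower_W_E_Kbar j.1.lev
    towLL'Ω := tower_E_E_Kbar (p := p) (NLevel.E_le j.2)
    ringO' := inferInstance
    domO' := inferInstance
    dvrO' := isDVR_O j.1.E
    algWO' := algWO j.1.lev
    algO'L' := algOE j.1.E
    towWO'L' := tower_W_O_E j.1.lev
    fracO'L' := isFractionRing_O_E j.1.E
    π := (D j.1).π
    τL' := tauE hK j.1
    τO' := tauO hK j.1
    K := (D j.1).e
    hyp := (D j.1).hyp
    hγ := fun _ _ => rfl }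

/-! ### Classes of `ℚ̄_p`-points come from finite levels -/

/-- The class of a `ℚ̄_p`-point lies in `PtTop`. -/
theorem ofMul_ptCls_mem_PtTop [Nonempty (NLevel p K)] [Algebra.FiniteType (Wb p K) B0]
    [Algebra.FiniteType (Wb p K) B1]
    (hinv0 : ∀ E : NLevel p K, letI := algWE E.lev
      ∀ q : B0 →ₐ[Wb p K] ↥E.E, Module.Invertible (↥E.E ⊗[Wb p K] B0) (ptIdeal q))
    (hinv1 : ∀ E : NLevel p K, letI := algWE E.lev
      ∀ q : B1 →ₐ[Wb p K] ↥E.E, Module.Invertible (↥E.E ⊗[Wb p K] B1) (ptIdeal q))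
    (x : letI := algWKbar p K; PtIdx c0 (Kbar p)) :
    letI := algWKbar p K
    (Additive.ofMul (ptCls c0 x) : Atop p K c0) ∈ PtTop c0 := by
  classical
  letI := algWKbar p K
  obtain ⟨T, hT⟩ := exists_finset_definedOver c0 x
  obtain ⟨E₀⟩ := (inferInstance : Nonempty (NLevel p K))
  obtain ⟨E, -, hE⟩ := E₀.exists_ge_adjoin (↑T : Set (Kbar p)) T.finite_toSet
  letI := algWE E.lev
  letI := algEKbar E.E
  haveI := tower_W_E_Kbar E.lev
  have hdef : DefinedOverRange c0 ↥E.E x :=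
    hT ↥E.E fun t ht => ⟨⟨t, hE t (Finset.mem_coe.2 ht)⟩, rfl⟩
  obtain ⟨x', hx'⟩ := exists_descIdx c0 (hinv0 E) (hinv1 E) x hdef
  refine ⟨E, ptCls c0 x', ptCls_mem c0 x', ?_⟩
  show Additive.ofMul (PicX.map c0 ↥E.E (Kbar p) (ptCls c0 x')) = _
  rw [Fermat.Agent.T1B.Desc1.map_ptCls, hx']

/-- **Every class of points over `ℚ̄_p` is a class of points of a finite level.** -/
theorem ofMul_mem_PtTop_of_mem_picPt [Nonempty (NLevel p K)] [Algebra.FiniteType (Wb p K) B0]
    [Algebra.FiniteType (Wb p K) B1]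
    (hinv0 : ∀ E : NLevel p K, letI := algWE E.lev
      ∀ q : B0 →ₐ[Wb p K] ↥E.E, Module.Invertible (↥E.E ⊗[Wb p K] B0) (ptIdeal q))
    (hinv1 : ∀ E : NLevel p K, letI := algWE E.lev
      ∀ q : B1 →ₐ[Wb p K] ↥E.E, Module.Invertible (↥E.E ⊗[Wb p K] B1) (ptIdeal q))
    {v : PicTop p K c0}
    (hv : letI := algWKbar p K; v ∈ (pointClasses c0).PicPt (Kbar p)) :
    (Additive.ofMul v : Atop p K c0) ∈ PtTop c0 := by
  letI := algWKbar p K
  have key : ∀ w ∈ Subgroup.closure {x | IsPtClass c0 (Kbar p) x},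
      (Additive.ofMul w : Atop p K c0) ∈ PtTop c0 := by
    intro w hw
    induction hw using Subgroup.closure_induction with
    | mem x hx =>
      rcases hx with ⟨q, h, rfl⟩ | ⟨q, h, rfl⟩
      · exact ofMul_ptCls_mem_PtTop c0 hinv0 hinv1 (Sum.inl ⟨q, h⟩)
      · exact ofMul_ptCls_mem_PtTop c0 hinv0 hinv1 (Sum.inr ⟨q, h⟩)
    | one => exact (PtTop c0).zero_mem
    | mul x y _ _ hx hy => exact (PtTop c0).add_mem hx hy
    | inv x _ hx => exact (PtTop c0).neg_mem hx
  exact key v hv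

/-- **`PtTop = ⊤`** as soon as `Pic X_{ℚ̄_p}` is generated by the classes of points (helper60's
`Bal60.PtGen.picPt_eq_top`). -/
theorem PtTop_eq_top [Nonempty (NLevel p K)] [Algebra.FiniteType (Wb p K) B0]
    [Algebra.FiniteType (Wb p K) B1]
    (hinv0 : ∀ E : NLevel p K, letI := algWE E.lev
      ∀ q : B0 →ₐ[Wb p K] ↥E.E, Module.Invertible (↥E.E ⊗[Wb p K] B0) (ptIdeal q))
    (hinv1 : ∀ E : NLevel p K, letI := algWE E.lev
      ∀ q : B1 →ₐ[Wb p K] ↥E.E, Module.Invertible (↥E.E ⊗[Wb p K] B1) (ptIdeal q))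
    (hgen : letI := algWKbar p K; (pointClasses c0).PicPt (Kbar p) = ⊤) :
    PtTop c0 = ⊤ := by
  letI := algWKbar p K
  rw [eq_top_iff]
  intro v _
  have hv : Additive.toMul v ∈ (pointClasses c0).PicPt (Kbar p) := by
    rw [hgen]; exact Subgroup.mem_top _
  exact ofMul_mem_PtTop_of_mem_picPt c0 hinv0 hinv1 hv

/-! ### `phi` -/

/-- **(Φ), standalone form `t = 0`**: an inertia-invariant class of points extends to a line bundle
over some `O_E`.  `G E` is any family of subgroups of `Aut_W(E)` between the image of inertia and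
itself (`GE hK E`, or helper8's `Desc8.LevelGroup.GE`), for which Galois descent of invariant
classes of points (`Desc1.DescStatement`) is available. -/
theorem mem_JextTop_of_invariant [Nonempty (NLevel p K)] [Algebra.FiniteType (Wb p K) B0]
    [Algebra.FiniteType (Wb p K) B1] (hK : InertFixed (padicPlace p) K)
    (D : ∀ E : NLevel p K, LevelData c0 hK E)
    (G : ∀ E : NLevel p K, letI := algWE E.lev; Subgroup (↥E.E ≃ₐ[Wb p K] ↥E.E))
    (hG : ∀ E τ, tauE hK E τ ∈ G E)
    (hG' : ∀ E, ∀ σ ∈ G E, ∃ τ : ↥(Ip p), σ = tauE hK E τ)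
    (hdesc : ∀ E : NLevel p K,
      letI := algWE E.lev
      letI := algWKbar p K
      letI := algEKbar E.E
      haveI := tower_W_E_Kbar E.lev
      DescStatement c0 ↥E.E (Kbar p) (G E))
    (hinj : ∀ E : NLevel p K, Function.Injective (bcE c0 E))
    {y : Atop p K c0} (hy : y ∈ PtTop c0)
    (hfix : letI := actTop c0 hK; ∀ τ : ↥(Ip p), τ • y = y) :
    y ∈ JextTop c0 := by
  classical
  obtain ⟨E, x, hx, rfl⟩ := hy
  letI := algWE E.lev
  letI := algWKbar p K
  letI := algEKbar E.E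
  haveI := tower_W_E_Kbar E.lev
  -- invariance at the finite level
  have hfixE : ∀ τ : ↥(Ip p), gE c0 E hK τ x = x := by
    intro τ
    apply hinj E
    rw [bcE_gE]
    have h := hfix τ
    rw [actTop_smul_ofMul] at h
    exact Additive.ofMul.injective h
  have hfixG : ∀ σ ∈ G E, galPic c0 σ x = x := by
    intro σ hσ
    obtain ⟨τ, rfl⟩ := hG' E σ hσ
    rw [galPic_tauE]
    exact hfixE τ
  -- cofinality of the levels above `E`
  have hlev : ∀ T : Finset (Kbar p), ∃ j : {E' : NLevel p K // E ≤ E'},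
      ∀ t ∈ T, t ∈ (algebraMap (extLevel c0 hK D E j).L' (Kbar p)).range := by
    intro T
    obtain ⟨E', hE', h⟩ := E.exists_ge_adjoin (↑T : Set (Kbar p)) T.finite_toSet
    exact ⟨⟨E', hE'⟩, fun t ht => ⟨⟨t, h t (Finset.mem_coe.2 ht)⟩, rfl⟩⟩
  have key : ∃ (E' : NLevel p K) (hE : E ≤ E') (z : PicO c0 E'),
      bcOE c0 E' z = bcEE c0 hE x := by
    obtain ⟨j, z, hz⟩ := ext_up (extLevel c0 hK D E) hlev (G E) (hdesc E) (tauE hK E) (hG E)
      (fun _ _ => rfl) x hx hfixG
    exact ⟨j.1, j.2, z, hz⟩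
  obtain ⟨E', hE, z, hz⟩ := key
  rw [mem_JextTop]
  refine ⟨E', z, ?_⟩
  rw [← bcE_bcOE, hz, bcE_bcEE]

/-- **(Φ)**: `y ∈ PtTop`, `t ∈ J1top` with `y - t` inertia-invariant `⇒ y - t ∈ JextTop`.
`hJ1Pt` holds as soon as `PtTop = ⊤` (`PtTop_eq_top`). -/
theorem phi_top [Nonempty (NLevel p K)] [Algebra.FiniteType (Wb p K) B0]
    [Algebra.FiniteType (Wb p K) B1] (hK : InertFixed (padicPlace p) K)
    (D : ∀ E : NLevel p K, LevelData c0 hK E)
    (G : ∀ E : NLevel p K, letI := algWE E.lev; Subgroup (↥E.E ≃ₐ[Wb p K] ↥E.E))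
    (hG : ∀ E τ, tauE hK E τ ∈ G E)
    (hG' : ∀ E, ∀ σ ∈ G E, ∃ τ : ↥(Ip p), σ = tauE hK E τ)
    (hdesc : ∀ E : NLevel p K,
      letI := algWE E.lev
      letI := algWKbar p K
      letI := algEKbar E.E
      haveI := tower_W_E_Kbar E.lev
      DescStatement c0 ↥E.E (Kbar p) (G E))
    (hinj : ∀ E : NLevel p K, Function.Injective (bcE c0 E))
    (P00 : ∀ E : NLevel p K, Subgroup (PicO c0 E)) (hPP : Compatible c0 P00)
    (hJ1Pt : J1top c0 P00 hPP ≤ PtTop c0) :
    letI := actTop c0 hK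
    ∀ y ∈ PtTop c0, ∀ t ∈ J1top c0 P00 hPP, (∀ τ : ↥(Ip p), τ • (y - t) = y - t) →
      y - t ∈ JextTop c0 := by
  intro y hy t ht hfix
  exact mem_JextTop_of_invariant c0 hK D G hG hG' hdesc hinj
    ((PtTop c0).sub_mem hy (hJ1Pt ht)) hfix

/-- **`LocalGeom.phi` in the shape of `Local66.Glue.localGeom_of_fields` with `C := JextTop`.** -/
theorem phi_glue [Nonempty (NLevel p K)] [Algebra.FiniteType (Wb p K) B0]
    [Algebra.FiniteType (Wb p K) B1] (hK : InertFixed (padicPlace p) K)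
    (D : ∀ E : NLevel p K, LevelData c0 hK E)
    (G : ∀ E : NLevel p K, letI := algWE E.lev; Subgroup (↥E.E ≃ₐ[Wb p K] ↥E.E))
    (hG : ∀ E τ, tauE hK E τ ∈ G E)
    (hG' : ∀ E, ∀ σ ∈ G E, ∃ τ : ↥(Ip p), σ = tauE hK E τ)
    (hdesc : ∀ E : NLevel p K,
      letI := algWE E.lev
      letI := algWKbar p K
      letI := algEKbar E.E
      haveI := tower_W_E_Kbar E.lev
      DescStatement c0 ↥E.E (Kbar p) (G E))
    (hinj : ∀ E : NLevel p K, Function.Injective (bcE c0 E))
    (P00 : ∀ E : NLevel p K, Subgroup (PicO c0 E)) (hPP : Compatible c0 P00)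
    (hJ1Pt : J1top c0 P00 hPP ≤ PtTop c0) :
    letI := actTop c0 hK
    ∀ y ∈ PtTop c0, ∀ t ∈ J1top c0 P00 hPP, (∀ τ : ↥(Ip p), τ • (y - t) = y - t) →
      ∃ z ∈ JextTop c0, y - t - z ∈ J0top c0 P00 hPP := by
  intro y hy t ht hfix
  refine ⟨y - t, phi_top c0 hK D G hG hG' hdesc hinj P00 hPP hJ1Pt y hy t ht hfix, ?_⟩
  rw [sub_self]
  exact (J0top c0 P00 hPP).zero_mem

/-! ### `sub_mem_J0` -/

/-- `sub_mem_J0` at the level `E`, in `Local66` vocabulary, from the model facts of the level and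
ANY components of the special fibre. -/
theorem exists_mem_P00_bcOE_eq (hK : InertFixed (padicPlace p) K) (E : NLevel p K)
    (d : LevelData c0 hK E) {ι : Type}
    (hg : letI := algWO E.lev; NodalGood (c0.baseChange ↥(intSubring p E.E)) d.π ι)
    {κ : Type} [Field κ]
    (X : letI := algWO E.lev
      ∀ i, Comp (c0.baseChange ↥(intSubring p E.E)) (hg.P0 i) (hg.P1 i) κ)
    (hπ : haveI := isDVR_O E.E
      IsLocalRing.maximalIdeal ↥(intSubring p E.E) = Ideal.span {d.π})
    (τ : ↥(Ip p)) {x : PicE c0 E} (hx : x ∈ PtFam c0 E) :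
    ∃ z : PicO c0 E, (letI := algWO E.lev; z ∈ P00 hg X) ∧
      bcOE c0 E z = gE c0 E hK τ x / x := by
  letI := algWO E.lev
  letI := algWE E.lev
  letI := algOE E.E
  haveI := tower_W_O_E E.lev
  haveI := isDVR_O E.E
  haveI := isFractionRing_O_E E.E
  obtain ⟨z, hz, hzx⟩ := d.hyp.sub_mem hg X hπ τ x hx
  refine ⟨z, hz, ?_⟩
  rw [← galPic_tauE]
  exact hzx

/-- **`LocalGeom.sub_mem_J0` in the shape of `Local66.Glue.localGeom_of_fields`**, from the
level-wise statement. -/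
theorem sub_mem_J0_top_of_levels [Nonempty (NLevel p K)] (hK : InertFixed (padicPlace p) K)
    (P00 : ∀ E : NLevel p K, Subgroup (PicO c0 E)) (hPP : Compatible c0 P00)
    (hlev : ∀ (E : NLevel p K) (τ : ↥(Ip p)) (x : PicE c0 E), x ∈ PtFam c0 E →
      ∃ z ∈ P00 E, bcOE c0 E z = gE c0 E hK τ x / x) :
    letI := actTop c0 hK
    ∀ τ : ↥(Ip p), ∀ x ∈ PtTop c0, τ • x - x ∈ J0top c0 P00 hPP := by
  intro τ x hx
  obtain ⟨E, x', hx', rfl⟩ := hx
  obtain ⟨z, hz, hzx⟩ := hlev E τ x' hx'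
  rw [mem_J0top]
  refine ⟨E, z, hz, ?_⟩
  rw [actTop_smul_ofMul, ← bcE_gE, ← bcE_bcOE, hzx, map_div]
  rfl

/-- **`LocalGeom.sub_mem_J0`** from the model facts of the levels: `P00 E` is any family containing
the multidegree-zero subgroups `Bal60.P00 (hg E) (X E)` of the levels. -/
theorem sub_mem_J0_top [Nonempty (NLevel p K)] (hK : InertFixed (padicPlace p) K)
    (D : ∀ E : NLevel p K, LevelData c0 hK E) {ι : Type}
    (hg : ∀ E : NLevel p K, letI := algWO E.lev
      NodalGood (c0.baseChange ↥(intSubring p E.E)) (D E).π ι)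
    (κ : NLevel p K → Type) [∀ E, Field (κ E)]
    (X : ∀ E : NLevel p K, letI := algWO E.lev
      ∀ i, Comp (c0.baseChange ↥(intSubring p E.E)) ((hg E).P0 i) ((hg E).P1 i) (κ E))
    (hπ : ∀ E : NLevel p K, haveI := isDVR_O E.E
      IsLocalRing.maximalIdeal ↥(intSubring p E.E) = Ideal.span {(D E).π})
    (P00 : ∀ E : NLevel p K, Subgroup (PicO c0 E)) (hPP : Compatible c0 P00)
    (hP : ∀ E : NLevel p K, letI := algWO E.lev
      Fermat.Agent.T1B.Bal60.P00 (hg E) (X E) ≤ P00 E) :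
    letI := actTop c0 hK
    ∀ τ : ↥(Ip p), ∀ x ∈ PtTop c0, τ • x - x ∈ J0top c0 P00 hPP := by
  apply sub_mem_J0_top_of_levels c0 hK P00 hPP
  intro E τ x hx
  obtain ⟨z, hz, hzx⟩ := exists_mem_P00_bcOE_eq c0 hK E (D E) (hg E) (X E) (hπ E) τ hx
  exact ⟨z, hP E hz, hzx⟩

end Charts

end Fermat.Agent.T1B.Node45.LocalPhi
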