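/-
Programme T1B (row 38 via S44), NODE/PHI cell, PHI7 plan (report 1166), brick NODE-BC (helper45):
**base change of the node datum along a local map which is an isomorphism modulo the uniformisers.**

`f : A → A'` a ring map of local domains, `A'` noetherian, `f π = π' ^ e · unit`, `π'` a nonzero
nonunit of `A'`, and `A / π → A' / π'` bijective, in the elementary form
  (surj)  every `a'` is `f a + π' c`,     (inj)  `π' ∣ f a → π ∣ a`.
Then a node datum `NodeData A v₁ v₂ P₁ P₂ π x y K` gives a node datum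
`NodeData A' v₁' v₂' P₁' P₂' π' (f x) (f y) (K * e)`:  the thickness is multiplied by `e`.

In the application `A` is the local ring at a node of `W' ⊗[W] B0` (`W'` the DVR of an INERTIAL number
field, thickness `1`), `A'` the local ring at the corresponding node of `O_E ⊗[W] B0` (`O_E` the ring of
integers of a finite extension `E / ℚ_p` with the same residue field as `W'`), `π = p`, `π'` a
uniformiser of `O_E`, `e` the ramification index.

* `BCHyp f π π' e` : the hypotheses;  `BCHyp.liftIdeal H P = {a' | ∃ a ∈ P, π' ∣ a' - f a}`;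
* `val' π' z' a'` : the multiplicity of `π'` in `a'` in `A'[1/z']`;
* **`nodeData_baseChange`**;
* `smoothAt_baseChange` : the smoothness property (`NodalCore13.SmoothAt`-shape) transfers along (surj);
* `BCHyp.localization` : (surj), (inj) pass from `S → S'` to the localisations at `𝔫' ∩ S`, `𝔫'`.
-/
import Mathlib
import Fermat.Agent.T1.Peu37.NodeClassGroup

set_option autoImplicit false
set_option linter.unusedSectionVars false
set_option linter.style.haveILetI false

namespace Fermat.Agent.T1B.Node45.NodeBC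

open IsLocalRing Fermat.Agent.T1.Peu37.NodeClassGroup

/-! ### The hypotheses -/

section Hyp

variable {A A' : Type*} [CommRing A] [CommRing A']

/-- `f : A → A'` is an isomorphism modulo `π`, `π'`, and `f π = π' ^ e · unit`. -/
structure BCHyp (f : A →+* A') (π : A) (π' : A') (e : ℕ) : Prop where
  e_pos : 0 < e
  map_pi : ∃ u : A', IsUnit u ∧ f π = π' ^ e * u
  surj : ∀ a' : A', ∃ (a : A) (c : A'), a' = f a + π' * c
  inj : ∀ a : A, π' ∣ f a → π ∣ a

variable {f : A →+* A'} {π : A} {π' : A'} {e : ℕ}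

theorem BCHyp.dvd_map_pi (H : BCHyp f π π' e) : π' ∣ f π := by
  obtain ⟨u, -, hu⟩ := H.map_pi
  rw [hu]
  exact Dvd.dvd.mul_right (dvd_pow_self π' (Nat.pos_iff_ne_zero.1 H.e_pos)) u

theorem BCHyp.dvd_map_of_dvd (H : BCHyp f π π' e) {a : A} (h : π ∣ a) : π' ∣ f a :=
  H.dvd_map_pi.trans (map_dvd f h)

/-- The lift of an ideal of `A` containing `π`: its preimage modulo `π'`. -/
def BCHyp.liftIdeal (H : BCHyp f π π' e) (P : Ideal A) : Ideal A' where
  carrier := {a' | ∃ a ∈ P, π' ∣ a' - f a}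
  zero_mem' := ⟨0, P.zero_mem, by simp⟩
  add_mem' := by
    rintro a' b' ⟨a, ha, hda⟩ ⟨b, hb, hdb⟩
    refine ⟨a + b, P.add_mem ha hb, ?_⟩
    have : a' + b' - f (a + b) = (a' - f a) + (b' - f b) := by rw [map_add]; ring
    rw [this]
    exact dvd_add hda hdb
  smul_mem' := by
    rintro c' a' ⟨a, ha, hda⟩
    obtain ⟨c, d, hc⟩ := H.surj c'
    refine ⟨c * a, P.mul_mem_left c ha, ?_⟩
    have : c' • a' - f (c * a) = c' * (a' - f a) + π' * (d * f a) := by
      rw [map_mul, smul_eq_mul, hc]; ring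
    rw [this]
    exact dvd_add (Dvd.dvd.mul_left hda c') (dvd_mul_right π' _)

theorem BCHyp.mem_liftIdeal (H : BCHyp f π π' e) {P : Ideal A} {a' : A'} :
    a' ∈ H.liftIdeal P ↔ ∃ a ∈ P, π' ∣ a' - f a := Iff.rfl

theorem BCHyp.pi'_mem_liftIdeal (H : BCHyp f π π' e) (P : Ideal A) : π' ∈ H.liftIdeal P :=
  ⟨0, P.zero_mem, by simp⟩

theorem BCHyp.map_mem_liftIdeal (H : BCHyp f π π' e) {P : Ideal A} {a : A} (ha : a ∈ P) :
    f a ∈ H.liftIdeal P :=
  ⟨a, ha, by simp⟩

/-- If `π ∈ P`, membership of `f a` in the lift is membership of `a`. -/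
theorem BCHyp.map_mem_liftIdeal_iff (H : BCHyp f π π' e) {P : Ideal A} (hπ : π ∈ P) {a : A} :
    f a ∈ H.liftIdeal P ↔ a ∈ P := by
  refine ⟨?_, H.map_mem_liftIdeal⟩
  rintro ⟨b, hb, hd⟩
  rw [← map_sub] at hd
  obtain ⟨c, hc⟩ := H.inj _ hd
  have : a = b + π * c := by rw [← hc]; ring
  rw [this]
  exact P.add_mem hb (P.mul_mem_right c hπ)

/-- Every element of the lift is `f a + π' c` with `a ∈ P`. -/
theorem BCHyp.exists_of_mem_liftIdeal (H : BCHyp f π π' e) {P : Ideal A} {a' : A'}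
    (h : a' ∈ H.liftIdeal P) : ∃ a ∈ P, ∃ c : A', a' = f a + π' * c := by
  obtain ⟨a, ha, c, hc⟩ := h
  exact ⟨a, ha, c, by rw [← hc]; ring⟩

/-- If `π ∈ P` and `P` is prime, the lift is prime. -/
theorem BCHyp.liftIdeal_isPrime (H : BCHyp f π π' e) {P : Ideal A} (hπ : π ∈ P) (hP : P.IsPrime) :
    (H.liftIdeal P).IsPrime := by
  refine ⟨?_, ?_⟩
  · intro htop
    have h1 : (1 : A') ∈ H.liftIdeal P := by rw [htop]; trivial
    rw [← map_one f, H.map_mem_liftIdeal_iff hπ] at h1
    exact hP.ne_top ((Ideal.eq_top_iff_one P).2 h1)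
  · intro a' b' hab
    obtain ⟨a, c, ha⟩ := H.surj a'
    obtain ⟨b, d, hb⟩ := H.surj b'
    have h1 : f (a * b) ∈ H.liftIdeal P := by
      have : f (a * b) = a' * b' - π' * (c * f b + f a * d + π' * (c * d)) := by
        rw [map_mul, ha, hb]; ring
      rw [this]
      exact (H.liftIdeal P).sub_mem hab ((H.liftIdeal P).mul_mem_right _ (H.pi'_mem_liftIdeal P))
    rw [H.map_mem_liftIdeal_iff hπ] at h1
    rcases hP.mem_or_mem h1 with h | h
    · left
      rw [ha]
      exact (H.liftIdeal P).add_mem (H.map_mem_liftIdeal h)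
        ((H.liftIdeal P).mul_mem_right _ (H.pi'_mem_liftIdeal P))
    · right
      rw [hb]
      exact (H.liftIdeal P).add_mem (H.map_mem_liftIdeal h)
        ((H.liftIdeal P).mul_mem_right _ (H.pi'_mem_liftIdeal P))

end Hyp

/-! ### Divisibility in `A'[1/z']` -/

section Away

variable {A' : Type*} [CommRing A'] [IsDomain A']

/-- Divisibility by `π'` in `A'[1/z']`. -/
theorem dvd_away_iff {π' z' : A'} (hz : z' ≠ 0) (a' : A') :
    algebraMap A' (Localization.Away z') π' ∣ algebraMap A' (Localization.Away z') a' ↔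
      ∃ m : ℕ, π' ∣ z' ^ m * a' := by
  have hle : Submonoid.powers z' ≤ nonZeroDivisors A' :=
    powers_le_nonZeroDivisors_of_noZeroDivisors hz
  have hinj : Function.Injective (algebraMap A' (Localization.Away z')) :=
    IsLocalization.injective _ hle
  constructor
  · rintro ⟨r, hr⟩
    obtain ⟨⟨c, s⟩, hcs⟩ := IsLocalization.surj (Submonoid.powers z') r
    obtain ⟨m, hm⟩ := s.2
    simp only at hcs
    refine ⟨m, c, ?_⟩
    apply hinj
    have hm' : (s : A') = z' ^ m := hm.symm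
    rw [hm'] at hcs
    rw [map_mul, map_mul, hr, ← hcs]
    ring
  · rintro ⟨m, c, hc⟩
    have hu : IsUnit (algebraMap A' (Localization.Away z') (z' ^ m)) :=
      IsLocalization.map_units (Localization.Away z')
        (⟨z' ^ m, ⟨m, rfl⟩⟩ : Submonoid.powers z')
    obtain ⟨w, hw⟩ := hu
    refine ⟨algebraMap A' (Localization.Away z') c * (↑w⁻¹ : Localization.Away z'), ?_⟩
    have h1 : algebraMap A' (Localization.Away z') (z' ^ m) *
        algebraMap A' (Localization.Away z') a' =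
        algebraMap A' (Localization.Away z') π' * algebraMap A' (Localization.Away z') c := by
      rw [← map_mul, ← map_mul, hc]
    calc algebraMap A' (Localization.Away z') a'
        = (↑w⁻¹ : Localization.Away z') * ((w : Localization.Away z') *
            algebraMap A' (Localization.Away z') a') := by
          rw [← mul_assoc, Units.inv_mul, one_mul]
      _ = _ := by rw [hw, h1]; ring

/-- The multiplicity of `π'` in `a'`, computed in `A'[1/z']`. -/
noncomputable def val' (π' z' : A') (a' : A') : ℕ :=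
  multiplicity (algebraMap A' (Localization.Away z') π') (algebraMap A' (Localization.Away z') a')

end Away

/-! ### The base change -/

section Main

variable {A A' : Type*} [CommRing A] [IsDomain A] [IsLocalRing A]
  [CommRing A'] [IsDomain A'] [IsLocalRing A'] [IsNoetherianRing A']
  {f : A →+* A'} {π : A} {π' : A'} {e : ℕ}
  {v₁ v₂ : A → ℕ} {P₁ P₂ : Ideal A} {x y : A} {K : ℕ}

theorem pi_mem_P₁ (D : NodeData A v₁ v₂ P₁ P₂ π x y K) : π ∈ P₁ := by
  rw [D.mem_P₁ π D.pi_ne, D.v₁_pi]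

theorem x_not_mem_P₁ (D : NodeData A v₁ v₂ P₁ P₂ π x y K) : x ∉ P₁ := by
  rw [D.mem_P₁ x D.x_ne, D.v₁_x]
  omega

theorem pi_not_isUnit (D : NodeData A v₁ v₂ P₁ P₂ π x y K) : ¬ IsUnit π := by
  intro h
  have := D.v₁_unit h
  rw [D.v₁_pi] at this
  omega

/-- `π ∣ x a` for `a ∈ P₁`. -/
theorem dvd_x_mul (D : NodeData A v₁ v₂ P₁ P₂ π x y K) {a : A} (ha : a ∈ P₁) : π ∣ x * a := by
  by_cases ha0 : a = 0
  · rw [ha0, mul_zero]; exact dvd_zero π
  have hx0 := D.x_ne
  have h1 : 1 ≤ v₁ (x * a) := by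
    rw [D.v₁_mul x a hx0 ha0, D.v₁_x, zero_add]
    exact (D.mem_P₁ a ha0).1 ha
  have h2 : 1 ≤ v₂ (x * a) := by
    rw [D.v₂_mul x a hx0 ha0, D.symm.v₁_y]
    have := D.K_pos
    omega
  exact D.sat _ (mul_ne_zero hx0 ha0) h1 h2

/-- `f` reflects units. -/
theorem BCHyp.isUnit_of_map (H : BCHyp f π π' e) (hπ : ¬ IsUnit π) {a : A} (ha : IsUnit (f a)) :
    IsUnit a := by
  obtain ⟨w, hw⟩ := ha
  obtain ⟨b, c, hb⟩ := H.surj (↑w⁻¹ : A')
  have h1 : π' ∣ f (a * b - 1) := by
    refine ⟨-(f a * c), ?_⟩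
    have h2 : f a * (↑w⁻¹ : A') = 1 := by rw [← hw, Units.mul_inv]
    rw [hb] at h2
    rw [map_sub, map_mul, map_one]
    linear_combination h2
  obtain ⟨d, hd⟩ := H.inj _ h1
  have hmem : π * d ∈ maximalIdeal A :=
    Ideal.mul_mem_right _ _ ((mem_maximalIdeal π).2 hπ)
  have hab : IsUnit (a * b) := by
    have : a * b = 1 + π * d := by rw [← hd]; ring
    rw [this]
    by_contra hnu
    have h3 : (1 + π * d) - π * d ∈ maximalIdeal A :=
      Ideal.sub_mem _ ((mem_maximalIdeal _).2 hnu) hmem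
    rw [add_sub_cancel_right] at h3
    exact (mem_maximalIdeal (1 : A)).1 h3 isUnit_one
  exact isUnit_of_mul_isUnit_left hab

variable (H : BCHyp f π π' e) (D : NodeData A v₁ v₂ P₁ P₂ π x y K)
include H D

theorem map_x_ne : f x ≠ 0 := by
  intro h0
  have h1 : π' ∣ f x := by rw [h0]; exact dvd_zero π'
  obtain ⟨c, hc⟩ := H.inj x h1
  apply x_not_mem_P₁ D
  rw [hc]
  exact P₁.mul_mem_right c (pi_mem_P₁ D)

theorem map_x_not_mem : f x ∉ H.liftIdeal P₁ := by
  rw [H.map_mem_liftIdeal_iff (pi_mem_P₁ D)]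
  exact x_not_mem_P₁ D

/-- The key divisibility: `π' ∣ (f x) a'` for `a'` in the lift of `P₁`. -/
theorem dvd_map_x_mul {a' : A'} (ha : a' ∈ H.liftIdeal P₁) : π' ∣ f x * a' := by
  obtain ⟨a, haP, c, hc⟩ := H.exists_of_mem_liftIdeal ha
  have h1 : π' ∣ f (x * a) := H.dvd_map_of_dvd (dvd_x_mul D haP)
  have : f x * a' = f (x * a) + π' * (f x * c) := by rw [hc, map_mul]; ring
  rw [this]
  exact dvd_add h1 (dvd_mul_right π' _)

theorem mem_liftIdeal_of_dvd {a' : A'} {m : ℕ} (h : π' ∣ f x ^ m * a') : a' ∈ H.liftIdeal P₁ := by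
  haveI := H.liftIdeal_isPrime (pi_mem_P₁ D) D.prime₁
  have h1 : f x ^ m * a' ∈ H.liftIdeal P₁ := by
    obtain ⟨c, hc⟩ := h
    rw [hc]
    exact (H.liftIdeal P₁).mul_mem_right c (H.pi'_mem_liftIdeal P₁)
  rcases Ideal.IsPrime.mem_or_mem ‹_› h1 with h2 | h2
  · exact absurd (Ideal.IsPrime.mem_of_pow_mem ‹_› m h2) (map_x_not_mem H D)
  · exact h2

/-- Divisibility by `π'` in `A'[1/f x]` is membership in the lift of `P₁`. -/
theorem dvd_away_iff_mem (a' : A') :
    algebraMap A' (Localization.Away (f x)) π' ∣ algebraMap A' (Localization.Away (f x)) a' ↔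
      a' ∈ H.liftIdeal P₁ := by
  rw [dvd_away_iff (map_x_ne H D)]
  constructor
  · rintro ⟨m, hm⟩
    exact mem_liftIdeal_of_dvd H D hm
  · intro ha
    exact ⟨1, by rw [pow_one]; exact dvd_map_x_mul H D ha⟩

/-- `π'` is a prime element of `A'[1/f x]`. -/
theorem prime_away (hπ' : π' ≠ 0) :
    Prime (algebraMap A' (Localization.Away (f x)) π') := by
  have hz := map_x_ne H D
  have hle : Submonoid.powers (f x) ≤ nonZeroDivisors A' :=
    powers_le_nonZeroDivisors_of_noZeroDivisors hz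
  have hinj : Function.Injective (algebraMap A' (Localization.Away (f x))) :=
    IsLocalization.injective _ hle
  haveI hprime := H.liftIdeal_isPrime (pi_mem_P₁ D) D.prime₁
  -- every element is a unit times the image of an element of `A'`
  have hrep : ∀ r : Localization.Away (f x), ∃ (a' : A') (w : (Localization.Away (f x))ˣ),
      r * w = algebraMap A' (Localization.Away (f x)) a' := by
    intro r
    obtain ⟨⟨c, s⟩, hcs⟩ := IsLocalization.surj (Submonoid.powers (f x)) r
    obtain ⟨w, hw⟩ := IsLocalization.map_units (Localization.Away (f x)) s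
    exact ⟨c, w, by rw [hw]; exact hcs⟩
  have hdvd_unit : ∀ (r : Localization.Away (f x)) (a' : A') (w : (Localization.Away (f x))ˣ),
      r * w = algebraMap A' (Localization.Away (f x)) a' →
      (algebraMap A' (Localization.Away (f x)) π' ∣ r ↔ a' ∈ H.liftIdeal P₁) := by
    intro r a' w hw
    rw [← dvd_away_iff_mem H D, ← hw]
    exact (Units.dvd_mul_right).symm
  refine ⟨fun h0 => hπ' (hinj (h0.trans (map_zero _).symm)), ?_, ?_⟩
  · intro hu
    have h1 : algebraMap A' (Localization.Away (f x)) π' ∣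
        algebraMap A' (Localization.Away (f x)) 1 := by
      rw [map_one]; exact hu.dvd
    rw [dvd_away_iff_mem H D] at h1
    exact hprime.ne_top ((Ideal.eq_top_iff_one _).2 h1)
  · intro r₁ r₂ h12
    obtain ⟨a₁, w₁, h₁⟩ := hrep r₁
    obtain ⟨a₂, w₂, h₂⟩ := hrep r₂
    have h3 : (r₁ * r₂) * (w₁ * w₂ : (Localization.Away (f x))ˣ) =
        algebraMap A' (Localization.Away (f x)) (a₁ * a₂) := by
      rw [map_mul, ← h₁, ← h₂, Units.val_mul]; ring
    rw [hdvd_unit _ _ _ h3] at h12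
    rw [hdvd_unit _ _ _ h₁, hdvd_unit _ _ _ h₂]
    exact hprime.mem_or_mem h12

end Main

section Final

variable {A A' : Type*} [CommRing A] [IsDomain A] [IsLocalRing A]
  [CommRing A'] [IsDomain A'] [IsLocalRing A'] [IsNoetherianRing A']
  {f : A →+* A'} {π : A} {π' : A'} {e : ℕ}
  {v₁ v₂ : A → ℕ} {P₁ P₂ : Ideal A} {x y : A} {K : ℕ}

theorem finiteMultiplicity_away (H : BCHyp f π π' e) (D : NodeData A v₁ v₂ P₁ P₂ π x y K)
    (hπ' : π' ≠ 0) {a' : A'} (ha : a' ≠ 0) :
    FiniteMultiplicity (algebraMap A' (Localization.Away (f x)) π')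
      (algebraMap A' (Localization.Away (f x)) a') := by
  have hz := map_x_ne H D
  have hle : Submonoid.powers (f x) ≤ nonZeroDivisors A' :=
    powers_le_nonZeroDivisors_of_noZeroDivisors hz
  have hinj : Function.Injective (algebraMap A' (Localization.Away (f x))) :=
    IsLocalization.injective _ hle
  haveI : IsDomain (Localization.Away (f x)) := IsLocalization.isDomain_localization hle
  haveI : IsNoetherianRing (Localization.Away (f x)) :=
    IsLocalization.isNoetherianRing (Submonoid.powers (f x)) _ inferInstance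
  exact FiniteMultiplicity.of_not_isUnit (prime_away H D hπ').not_isUnit
    (fun h0 => ha (hinj (h0.trans (map_zero _).symm)))

/-- **NODE-BC.**  Base change of the node datum; the thickness is multiplied by `e`. -/
theorem nodeData_baseChange (H : BCHyp f π π' e) (hπ' : π' ≠ 0) (hπ'nu : ¬ IsUnit π')
    (D : NodeData A v₁ v₂ P₁ P₂ π x y K) :
    NodeData A' (val' π' (f x)) (val' π' (f y)) (H.liftIdeal P₁) (H.liftIdeal P₂) π' (f x) (f y)
      (K * e) := by
  have Ds := D.symm
  have hzx := map_x_ne H D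
  have hzy := map_x_ne H Ds
  have hmul : ∀ {v₁ v₂ : A → ℕ} {P₁ P₂ : Ideal A} {x y : A}
      (D : NodeData A v₁ v₂ P₁ P₂ π x y K) (a' b' : A'), a' ≠ 0 → b' ≠ 0 →
      val' π' (f x) (a' * b') = val' π' (f x) a' + val' π' (f x) b' := by
    intro v₁ v₂ P₁ P₂ x y D a' b' ha hb
    unfold val'
    rw [map_mul]
    apply multiplicity_mul (prime_away H D hπ')
    rw [← map_mul]
    exact finiteMultiplicity_away H D hπ' (mul_ne_zero ha hb)
  have hpi : ∀ {v₁ v₂ : A → ℕ} {P₁ P₂ : Ideal A} {x y : A}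
      (D : NodeData A v₁ v₂ P₁ P₂ π x y K), val' π' (f x) π' = 1 := by
    intro v₁ v₂ P₁ P₂ x y D
    unfold val'
    exact multiplicity_self
  have hx0 : ∀ {v₁ v₂ : A → ℕ} {P₁ P₂ : Ideal A} {x y : A}
      (D : NodeData A v₁ v₂ P₁ P₂ π x y K), val' π' (f x) (f x) = 0 := by
    intro v₁ v₂ P₁ P₂ x y D
    unfold val'
    rw [multiplicity_eq_zero, dvd_away_iff_mem H D]
    exact map_x_not_mem H D
  have hmem : ∀ {v₁ v₂ : A → ℕ} {P₁ P₂ : Ideal A} {x y : A}
      (D : NodeData A v₁ v₂ P₁ P₂ π x y K) (a' : A'),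
      (a' ∈ H.liftIdeal P₁ ↔ 1 ≤ val' π' (f x) a') := by
    intro v₁ v₂ P₁ P₂ x y D a'
    unfold val'
    rw [← dvd_away_iff_mem H D, Nat.one_le_iff_ne_zero, ← Nat.pos_iff_ne_zero,
      dvd_iff_multiplicity_pos]
  have hloc : ∀ a : A, IsUnit (f a) → IsUnit a := fun a => H.isUnit_of_map (pi_not_isUnit D)
  refine
    { v₁_mul := hmul D
      v₂_mul := hmul Ds
      v₁_pi := hpi D
      v₂_pi := hpi Ds
      v₁_x := hx0 D
      v₂_y := hx0 Ds
      pi_ne := hπ'
      rel := ?_
      sat := ?_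
      mem_P₁ := fun a' _ => hmem D a'
      mem_P₂ := fun a' _ => hmem Ds a'
      prime₁ := H.liftIdeal_isPrime (pi_mem_P₁ D) D.prime₁
      prime₂ := H.liftIdeal_isPrime (pi_mem_P₁ Ds) D.prime₂
      max_eq := ?_
      K_pos := Nat.mul_pos D.K_pos H.e_pos }
  · -- the relation
    obtain ⟨ε, hε, hrel⟩ := D.rel
    obtain ⟨u, hu, hπu⟩ := H.map_pi
    refine ⟨u ^ K * f ε, (hu.pow K).mul (hε.map f), ?_⟩
    rw [← map_mul, hrel, map_mul, map_pow, hπu, mul_pow, ← pow_mul, mul_comm e K]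
    ring
  · -- saturation
    intro a' ha0 h1 h2
    rw [← hmem D] at h1
    rw [← hmem Ds] at h2
    obtain ⟨a, haP, c, hc⟩ := H.exists_of_mem_liftIdeal h1
    have h3 : f a ∈ H.liftIdeal P₂ := by
      have : f a = a' - π' * c := by rw [hc]; ring
      rw [this]
      exact (H.liftIdeal P₂).sub_mem h2
        ((H.liftIdeal P₂).mul_mem_right c (H.pi'_mem_liftIdeal P₂))
    rw [H.map_mem_liftIdeal_iff (pi_mem_P₁ Ds)] at h3
    have h4 : π ∣ a := by
      by_cases ha : a = 0
      · rw [ha]; exact dvd_zero π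
      · exact D.sat a ha ((D.mem_P₁ a ha).1 haP) ((D.mem_P₂ a ha).1 h3)
    rw [hc]
    exact dvd_add (H.dvd_map_of_dvd h4) (dvd_mul_right π' c)
  · -- the maximal ideal
    have hxm : x ∈ maximalIdeal A := by
      rw [D.max_eq]; exact Ideal.subset_span (by simp)
    have hym : y ∈ maximalIdeal A := by
      rw [D.max_eq]; exact Ideal.subset_span (by simp)
    apply le_antisymm
    · intro a' ha'
      obtain ⟨a, c, hc⟩ := H.surj a'
      have hπm : π' * c ∈ maximalIdeal A' :=
        Ideal.mul_mem_right _ _ ((mem_maximalIdeal π').2 hπ'nu)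
      have ha : a ∈ maximalIdeal A := by
        rw [mem_maximalIdeal]
        intro hu
        have h1 : f a ∈ maximalIdeal A' := by
          have : f a = a' - π' * c := by rw [hc]; ring
          rw [this]
          exact Ideal.sub_mem _ ha' hπm
        exact (mem_maximalIdeal _).1 h1 (hu.map f)
      rw [D.max_eq] at ha
      obtain ⟨α, z, hz, hαz⟩ := Ideal.mem_span_insert.1 ha
      obtain ⟨β, γ, hβγ⟩ := Ideal.mem_span_pair.1 hz
      have hαβγ : a = α * π + β * x + γ * y := by rw [hαz, ← hβγ]; ring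
      obtain ⟨d, hd⟩ := H.dvd_map_pi
      have : a' = (f α * d + c) * π' + f β * f x + f γ * f y := by
        rw [hc, hαβγ, map_add, map_add, map_mul, map_mul, map_mul, hd]; ring
      rw [this]
      refine Ideal.add_mem _ (Ideal.add_mem _ ?_ ?_) ?_
      · exact Ideal.mul_mem_left _ _ (Ideal.subset_span (by simp))
      · exact Ideal.mul_mem_left _ _ (Ideal.subset_span (by simp))
      · exact Ideal.mul_mem_left _ _ (Ideal.subset_span (by simp))
    · rw [Ideal.span_le]
      intro z hz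
      simp only [Set.mem_insert_iff, Set.mem_singleton_iff] at hz
      rw [SetLike.mem_coe, mem_maximalIdeal]
      rcases hz with rfl | rfl | rfl
      · exact hπ'nu
      · exact fun hu => (mem_maximalIdeal _).1 hxm (hloc _ hu)
      · exact fun hu => (mem_maximalIdeal _).1 hym (hloc _ hu)

end Final

/-! ### Smoothness -/

section Smooth

variable {S S' : Type*} [CommRing S] [CommRing S']

/-- **SMOOTH-BC.**  The smoothness property at a maximal ideal (`NodalCore13.SmoothAt`-shape,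
`= hsm` of `NodalBC23.HubPt.invertible_ptIdeal_of_smoothAt`) transfers along a map which is
surjective modulo `π'`. -/
theorem smoothAt_baseChange (f : S →+* S') {π : S} {π' : S'} (hπ : π' ∣ f π)
    (hsurj : ∀ s' : S', ∃ (s : S) (c : S'), s' = f s + π' * c)
    (𝔫' : Ideal S') (hπ𝔫 : π' ∈ 𝔫')
    (hsm : ∃ s ∈ 𝔫'.comap f, ∀ y ∈ 𝔫'.comap f, ∃ d : S, d ∉ 𝔫'.comap f ∧
      d * y ∈ Ideal.span {π, s}) :
    ∃ s' ∈ 𝔫', ∀ y' ∈ 𝔫', ∃ d' : S', d' ∉ 𝔫' ∧ d' * y' ∈ Ideal.span {π', s'} := by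
  obtain ⟨s, hs, hall⟩ := hsm
  refine ⟨f s, hs, fun y' hy' => ?_⟩
  obtain ⟨y, c, hc⟩ := hsurj y'
  have hy : y ∈ 𝔫'.comap f := by
    rw [Ideal.mem_comap]
    have : f y = y' - π' * c := by rw [hc]; ring
    rw [this]
    exact 𝔫'.sub_mem hy' (𝔫'.mul_mem_right c hπ𝔫)
  obtain ⟨d, hd, hdy⟩ := hall y hy
  refine ⟨f d, hd, ?_⟩
  obtain ⟨a, b, hab⟩ := Ideal.mem_span_pair.1 hdy
  obtain ⟨g, hg⟩ := hπ
  rw [Ideal.mem_span_pair]
  refine ⟨f a * g + f d * c, f b, ?_⟩
  have h1 : f d * f y = f a * f π + f b * f s := by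
    rw [← map_mul, ← hab, map_add, map_mul, map_mul]
  rw [hc, mul_add, h1, hg]
  ring

end Smooth

/-! ### From `S → S'` to the localisations -/

section Loc

variable {S S' : Type*} [CommRing S] [CommRing S'] [IsDomain S']

/-- (surj), (inj) pass to the localisations at `𝔫' ∩ S` and `𝔫'`. -/
theorem BCHyp.localization (f : S →+* S') {π : S} {π' : S'} {e : ℕ}
    (H : BCHyp f π π' e) (𝔫' : Ideal S') [𝔫'.IsPrime] (hπ𝔫 : π' ∈ 𝔫')
    (𝔫 : Ideal S) [𝔫.IsPrime] (h𝔫 : 𝔫 = 𝔫'.comap f) :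
    BCHyp (Localization.localRingHom 𝔫 𝔫' f h𝔫)
      (algebraMap S (Localization.AtPrime 𝔫) π)
      (algebraMap S' (Localization.AtPrime 𝔫') π') e := by
  have hinj' : Function.Injective (algebraMap S' (Localization.AtPrime 𝔫')) :=
    IsLocalization.injective _ 𝔫'.primeCompl_le_nonZeroDivisors
  have hF : ∀ s : S, Localization.localRingHom 𝔫 𝔫' f h𝔫 (algebraMap S _ s) =
      algebraMap S' (Localization.AtPrime 𝔫') (f s) := fun s =>
    Localization.localRingHom_to_map 𝔫 𝔫' f h𝔫 s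
  have hmem : ∀ s : S, s ∈ 𝔫 ↔ f s ∈ 𝔫' := fun s => by rw [h𝔫, Ideal.mem_comap]
  refine ⟨H.e_pos, ?_, ?_, ?_⟩
  · obtain ⟨u, hu, hπu⟩ := H.map_pi
    refine ⟨algebraMap S' _ u, hu.map _, ?_⟩
    rw [hF, hπu, map_mul, map_pow]
  · -- surjectivity modulo `π'`
    intro a'
    obtain ⟨⟨s', u'⟩, hsu⟩ := IsLocalization.surj 𝔫'.primeCompl a'
    simp only at hsu
    obtain ⟨s, c, hc⟩ := H.surj s'
    obtain ⟨u, d, hd⟩ := H.surj (u' : S')
    have hu𝔫 : u ∉ 𝔫 := by
      rw [hmem]
      intro hu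
      apply u'.2
      show (u' : S') ∈ 𝔫'
      rw [hd]
      exact 𝔫'.add_mem hu (𝔫'.mul_mem_right d hπ𝔫)
    have hfu : f u ∉ 𝔫' := fun h => hu𝔫 ((hmem u).2 h)
    have hU' : IsUnit (algebraMap S' (Localization.AtPrime 𝔫') (u' : S')) :=
      IsLocalization.map_units _ u'
    have hU : IsUnit (algebraMap S' (Localization.AtPrime 𝔫') (f u)) :=
      IsLocalization.map_units _ (⟨f u, hfu⟩ : 𝔫'.primeCompl)
    have hUs : IsUnit (algebraMap S (Localization.AtPrime 𝔫) u) :=
      IsLocalization.map_units _ (⟨u, hu𝔫⟩ : 𝔫.primeCompl)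
    obtain ⟨w', hw'⟩ := hU'
    obtain ⟨w, hw⟩ := hU
    obtain ⟨ws, hws⟩ := hUs
    refine ⟨algebraMap S _ s * (↑ws⁻¹ : Localization.AtPrime 𝔫),
      (algebraMap S' _ (c * f u - f s * d)) * (↑w'⁻¹ : Localization.AtPrime 𝔫') *
        (↑w⁻¹ : Localization.AtPrime 𝔫'), ?_⟩
    have hFws : Localization.localRingHom 𝔫 𝔫' f h𝔫 (↑ws⁻¹ : Localization.AtPrime 𝔫) =
        (↑w⁻¹ : Localization.AtPrime 𝔫') := by
      have h1 : Localization.localRingHom 𝔫 𝔫' f h𝔫 (↑ws⁻¹ : Localization.AtPrime 𝔫) *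
          (w : Localization.AtPrime 𝔫') = 1 := by
        rw [hw, ← hF, ← hws, ← map_mul, Units.inv_mul, map_one]
      exact (Units.eq_inv_of_mul_eq_one_right h1)
    rw [map_mul, hF, hFws]
    -- clear denominators
    have ha' : a' = algebraMap S' _ s' * (↑w'⁻¹ : Localization.AtPrime 𝔫') := by
      rw [← hsu, ← hw', mul_assoc, Units.mul_inv, mul_one]
    rw [ha']
    have hs'eq : algebraMap S' (Localization.AtPrime 𝔫') s' =
        algebraMap S' _ (f s) + algebraMap S' _ π' * algebraMap S' _ c := by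
      rw [hc, map_add, map_mul]
    have hu'eq : (w' : Localization.AtPrime 𝔫') =
        (w : Localization.AtPrime 𝔫') + algebraMap S' _ π' * algebraMap S' _ d := by
      rw [hw', hw, hd, map_add, map_mul]
    have key : algebraMap S' (Localization.AtPrime 𝔫') s' * (w : Localization.AtPrime 𝔫') =
        algebraMap S' _ (f s) * (w' : Localization.AtPrime 𝔫') +
          algebraMap S' _ π' * algebraMap S' _ (c * f u - f s * d) := by
      rw [hs'eq, hu'eq, map_sub, map_mul, map_mul, hw]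
      ring
    have e1 : algebraMap S' (Localization.AtPrime 𝔫') s' * (↑w'⁻¹ : Localization.AtPrime 𝔫') =
        (algebraMap S' _ s' * (w : Localization.AtPrime 𝔫')) * (↑w'⁻¹ : Localization.AtPrime 𝔫') *
          (↑w⁻¹ : Localization.AtPrime 𝔫') := by
      rw [mul_assoc (algebraMap S' _ s'), mul_assoc (algebraMap S' _ s'),
        mul_comm (w : Localization.AtPrime 𝔫'), mul_assoc, Units.mul_inv, mul_one]
    rw [e1, key]
    have e2 : (↑w' : Localization.AtPrime 𝔫') * (↑w'⁻¹ : Localization.AtPrime 𝔫') = 1 :=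
      Units.mul_inv w'
    linear_combination (algebraMap S' (Localization.AtPrime 𝔫') (f s) *
      (↑w⁻¹ : Localization.AtPrime 𝔫')) * e2
  · -- injectivity modulo `π`
    intro a ha
    obtain ⟨⟨s, u⟩, hsu⟩ := IsLocalization.surj 𝔫.primeCompl a
    simp only at hsu
    obtain ⟨r, hr⟩ := ha
    obtain ⟨⟨s'', u''⟩, hsu''⟩ := IsLocalization.surj 𝔫'.primeCompl r
    simp only at hsu''
    -- `f s * u'' = π' * s'' * f u` in `S'`
    have h1 : f s * (u'' : S') = π' * (s'' * f u) := by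
      apply hinj'
      have e1 : algebraMap S' (Localization.AtPrime 𝔫') (f s) =
          Localization.localRingHom 𝔫 𝔫' f h𝔫 a * algebraMap S' _ (f (u : S)) := by
        rw [← hF, ← hF, ← map_mul, hsu]
      rw [map_mul, e1, hr, map_mul, map_mul, ← hsu'']
      ring
    obtain ⟨w, d, hwd⟩ := H.surj (u'' : S')
    have hw𝔫 : w ∉ 𝔫 := by
      rw [hmem]
      intro hw
      apply u''.2
      show (u'' : S') ∈ 𝔫'
      rw [hwd]
      exact 𝔫'.add_mem hw (𝔫'.mul_mem_right d hπ𝔫)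
    have h2 : π' ∣ f (s * w) := by
      refine ⟨s'' * f u - f s * d, ?_⟩
      have : f (s * w) = f s * (u'' : S') - π' * (f s * d) := by rw [map_mul, hwd]; ring
      rw [this, h1]
      ring
    obtain ⟨g, hg⟩ := H.inj _ h2
    have hUu : IsUnit (algebraMap S (Localization.AtPrime 𝔫) (u : S)) :=
      IsLocalization.map_units _ u
    have hUw : IsUnit (algebraMap S (Localization.AtPrime 𝔫) w) :=
      IsLocalization.map_units _ (⟨w, hw𝔫⟩ : 𝔫.primeCompl)
    obtain ⟨uu, huu⟩ := hUu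
    obtain ⟨ww, hww⟩ := hUw
    refine ⟨algebraMap S _ g * (↑uu⁻¹ : Localization.AtPrime 𝔫) *
      (↑ww⁻¹ : Localization.AtPrime 𝔫), ?_⟩
    have h3 : a * (uu : Localization.AtPrime 𝔫) * (ww : Localization.AtPrime 𝔫) =
        algebraMap S _ π * algebraMap S _ g := by
      rw [huu, hww, hsu, ← map_mul, hg, map_mul]
    have e2 : (uu : Localization.AtPrime 𝔫) * (↑uu⁻¹ : Localization.AtPrime 𝔫) = 1 :=
      Units.mul_inv uu
    have e3 : (ww : Localization.AtPrime 𝔫) * (↑ww⁻¹ : Localization.AtPrime 𝔫) = 1 :=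
      Units.mul_inv ww
    linear_combination ((↑uu⁻¹ : Localization.AtPrime 𝔫) * (↑ww⁻¹ : Localization.AtPrime 𝔫)) * h3
      - (a * (ww : Localization.AtPrime 𝔫) * (↑ww⁻¹ : Localization.AtPrime 𝔫)) * e2 - a * e3

end Loc

/-! ### The consumer form -/

section Consumer

variable {S S' : Type*} [CommRing S] [IsDomain S] [CommRing S'] [IsDomain S'] [IsNoetherianRing S']

/-- **NODE-BC, consumer form**: the node datum at `𝔫' ∩ S` (coordinates from `S`) gives the node
datum at `𝔫'` (coordinates their images), of thickness `K * e`. -/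
theorem exists_nodeData_localization (f : S →+* S') {π : S} {π' : S'} {e : ℕ}
    (H : BCHyp f π π' e) (hπ'0 : π' ≠ 0) (𝔫' : Ideal S') [𝔫'.IsPrime] (hπ𝔫 : π' ∈ 𝔫')
    (𝔫 : Ideal S) [𝔫.IsPrime] (h𝔫 : 𝔫 = 𝔫'.comap f)
    {v₁ v₂ : Localization.AtPrime 𝔫 → ℕ} {P₁ P₂ : Ideal (Localization.AtPrime 𝔫)} {x y : S} {K : ℕ}
    (D : NodeData (Localization.AtPrime 𝔫) v₁ v₂ P₁ P₂ (algebraMap S _ π) (algebraMap S _ x)
      (algebraMap S _ y) K) :
    ∃ (v₁' v₂' : Localization.AtPrime 𝔫' → ℕ) (P₁' P₂' : Ideal (Localization.AtPrime 𝔫')),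
      NodeData (Localization.AtPrime 𝔫') v₁' v₂' P₁' P₂' (algebraMap S' _ π')
        (algebraMap S' _ (f x)) (algebraMap S' _ (f y)) (K * e) := by
  have HL := H.localization f 𝔫' hπ𝔫 𝔫 h𝔫
  have hinj' : Function.Injective (algebraMap S' (Localization.AtPrime 𝔫')) :=
    IsLocalization.injective _ 𝔫'.primeCompl_le_nonZeroDivisors
  have h0 : algebraMap S' (Localization.AtPrime 𝔫') π' ≠ 0 := fun h =>
    hπ'0 (hinj' (h.trans (map_zero _).symm))
  have hnu : ¬ IsUnit (algebraMap S' (Localization.AtPrime 𝔫') π') := by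
    intro hu
    have := (IsLocalization.AtPrime.isUnit_to_map_iff (Localization.AtPrime 𝔫') 𝔫' π').1 hu
    exact this hπ𝔫
  have D' := nodeData_baseChange HL h0 hnu D
  rw [Localization.localRingHom_to_map, Localization.localRingHom_to_map] at D'
  exact ⟨_, _, _, _, D'⟩

end Consumer

end Fermat.Agent.T1B.Node45.NodeBC

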