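/-
Programme T1B (row 38 via S44), NODE/PHI cell, PHI7 plan (report 1166), brick NODE-BC (helper45),
file 2: THE TENSOR FORM of the hypotheses `NodeBC.BCHyp`.

`W → O → O'` rings, `π : O`, `π' : O'` with `algebraMap O O' π = π' ^ e · unit`, and `O / π ≅ O' / π'`
in the elementary form `NodeBC.BCHyp (algebraMap O O') π π' e` (e.g. `O` the DVR of the inertia field
of a number field `L` at `p`, `O'` the ring of integers of `ℚ_p · ι(L)`, `e` the ramification index).
Then for every `W`-algebra `B`: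

  `bcHyp_tensor : BCHyp (tensorMap W O O' B) (π ⊗ 1) (π' ⊗ 1) e`.

(generalisation of helper53's `NodalBC53.Fibre.sameFibre_tensor`, which is the case `e = 1`,
`π' = algebraMap O O' π`; same proof).  `bcHyp_of_sameFibre` : the case `e = 1` from `SameFibre`.
-/
import Mathlib
import Fermat.Agent.T1B.Node45.NodeBC
import Fermat.Agent.T1B.NodalBC53.Fibre

set_option autoImplicit false
set_option linter.unusedSectionVars false

open TensorProduct

namespace Fermat.Agent.T1B.Node45.NodeBCTensor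

open Fermat.Agent.T1B.Node45.NodeBC Fermat.Agent.T1B.NodalBC53.Fibre

/-- `SameFibre` is the case `e = 1`. -/
theorem bcHyp_of_sameFibre {R R' : Type*} [CommRing R] [CommRing R'] {φ : R →+* R'} {p : R}
    (h : SameFibre φ p) : BCHyp φ p (φ p) 1 where
  e_pos := Nat.one_pos
  map_pi := ⟨1, isUnit_one, by rw [pow_one, mul_one]⟩
  surj := h.surj
  inj := fun a ⟨z, hz⟩ => by
    obtain ⟨w, hw⟩ := h.inj a ⟨z, hz⟩
    exact ⟨w, hw⟩

section Tensor

variable {W : Type*} [CommRing W] {O O' : Type*} [CommRing O] [CommRing O'] [Algebra W O]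
  [Algebra W O'] [Algebra O O'] [IsScalarTower W O O'] {B : Type*} [CommRing B] [Algebra W B]

theorem tensor_surj' {π : O} {π' : O'} {e : ℕ} (h : BCHyp (algebraMap O O') π π' e)
    (y : O' ⊗[W] B) :
    ∃ x : O ⊗[W] B, ∃ z : O' ⊗[W] B,
      y = tensorMap W O O' B x + (π' ⊗ₜ[W] (1 : B)) * z := by
  induction y using TensorProduct.induction_on with
  | zero => exact ⟨0, 0, by rw [map_zero, mul_zero, add_zero]⟩
  | add y₁ y₂ h₁ h₂ =>
    obtain ⟨x₁, z₁, rfl⟩ := h₁
    obtain ⟨x₂, z₂, rfl⟩ := h₂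
    exact ⟨x₁ + x₂, z₁ + z₂, by rw [map_add]; ring⟩
  | tmul a b =>
    obtain ⟨x, z, rfl⟩ := h.surj a
    refine ⟨x ⊗ₜ b, z ⊗ₜ b, ?_⟩
    rw [tensorMap_tmul, Algebra.TensorProduct.tmul_mul_tmul, one_mul, TensorProduct.add_tmul]

theorem tensor_inj' {π : O} {π' : O'} {e : ℕ} (h : BCHyp (algebraMap O O') π π' e)
    (x : O ⊗[W] B)
    (hx : ∃ z : O' ⊗[W] B, tensorMap W O O' B x = (π' ⊗ₜ[W] (1 : B)) * z) :
    ∃ w : O ⊗[W] B, x = (π ⊗ₜ[W] (1 : B)) * w := by
  obtain ⟨z, hz⟩ := hx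
  set I : Ideal O' := Ideal.span {π'} with hI
  -- the quotient map `q : O → O' / (π')`
  let q : O →ₐ[O] O' ⧸ I := (Ideal.Quotient.mkₐ O I).comp (IsScalarTower.toAlgHom O O O')
  have hq : ∀ a : O, q a = Ideal.Quotient.mk I (algebraMap O O' a) := fun a => rfl
  have hqsurj : Function.Surjective q := by
    intro yb
    obtain ⟨y, rfl⟩ := Ideal.Quotient.mk_surjective yb
    obtain ⟨a, z, rfl⟩ := h.surj y
    refine ⟨a, ?_⟩
    rw [hq, eq_comm, ← sub_eq_zero, ← map_sub, Ideal.Quotient.eq_zero_iff_mem, hI,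
      Ideal.mem_span_singleton']
    exact ⟨z, by ring⟩
  have hqker : RingHom.ker q = Ideal.span {π} := by
    ext a
    rw [RingHom.mem_ker, hq, Ideal.Quotient.eq_zero_iff_mem, hI, Ideal.mem_span_singleton',
      Ideal.mem_span_singleton']
    constructor
    · rintro ⟨z, hz⟩
      obtain ⟨w, hw⟩ := h.inj a ⟨z, by rw [← hz, mul_comm]⟩
      exact ⟨w, by rw [hw, mul_comm]⟩
    · rintro ⟨w, rfl⟩
      obtain ⟨d, hd⟩ := h.dvd_map_pi
      exact ⟨algebraMap O O' w * d, by rw [map_mul, hd]; ring⟩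
  have hker := Algebra.TensorProduct.rTensor_ker (R := W) (S := O) (C := B) q hqsurj
  -- `q ⊗ id` factors through `O' ⊗ B`
  let m : O' ⊗[W] B →ₐ[O'] (O' ⧸ I) ⊗[W] B :=
    Algebra.TensorProduct.map (Ideal.Quotient.mkₐ O' I) (AlgHom.id W B)
  have hfac : ∀ x : O ⊗[W] B,
      Algebra.TensorProduct.map q (AlgHom.id W B) x = m (tensorMap W O O' B x) := by
    intro x
    induction x using TensorProduct.induction_on with
    | zero => rw [map_zero, map_zero, map_zero]
    | add x₁ x₂ h₁ h₂ => rw [map_add, map_add, map_add, h₁, h₂]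
    | tmul a b =>
      rw [tensorMap_tmul]
      simp only [m, Algebra.TensorProduct.map_tmul, AlgHom.coe_id, id_eq]
      rfl
  have hmem : x ∈ RingHom.ker (Algebra.TensorProduct.map q (AlgHom.id W B)) := by
    rw [RingHom.mem_ker, hfac, hz, map_mul]
    have : m (π' ⊗ₜ[W] (1 : B)) = 0 := by
      simp only [m, Algebra.TensorProduct.map_tmul, AlgHom.coe_id, id_eq]
      have h0 : (Ideal.Quotient.mkₐ O' I) π' = 0 := by
        rw [Ideal.Quotient.mkₐ_eq_mk, Ideal.Quotient.eq_zero_iff_mem]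
        exact Ideal.mem_span_singleton_self _
      rw [h0, TensorProduct.zero_tmul]
    rw [this, zero_mul]
  rw [hker, hqker, Ideal.map_span, Set.image_singleton, Ideal.mem_span_singleton'] at hmem
  obtain ⟨w, hw⟩ := hmem
  exact ⟨w, by rw [← hw, mul_comm]; rfl⟩

/-- **Tensor form of `BCHyp`.** -/
theorem bcHyp_tensor {π : O} {π' : O'} {e : ℕ} (h : BCHyp (algebraMap O O') π π' e) :
    BCHyp (tensorMap W O O' B).toRingHom (π ⊗ₜ[W] (1 : B)) (π' ⊗ₜ[W] (1 : B)) e := by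
  refine ⟨h.e_pos, ?_, ?_, ?_⟩
  · obtain ⟨u, hu, hπu⟩ := h.map_pi
    refine ⟨u ⊗ₜ[W] (1 : B), ?_, ?_⟩
    · exact hu.map (Algebra.TensorProduct.includeLeft : O' →ₐ[O'] O' ⊗[W] B)
    · show tensorMap W O O' B (π ⊗ₜ[W] (1 : B)) = _
      rw [tensorMap_tmul, hπu, Algebra.TensorProduct.tmul_pow, one_pow,
        Algebra.TensorProduct.tmul_mul_tmul, one_mul]
  · intro y
    obtain ⟨x, z, hxz⟩ := tensor_surj' h y
    exact ⟨x, z, hxz⟩
  · rintro x ⟨z, hz⟩
    obtain ⟨w, hw⟩ := tensor_inj' h x ⟨z, hz⟩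
    exact ⟨w, hw⟩

end Tensor

end Fermat.Agent.T1B.Node45.NodeBCTensor
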