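/-
Programme T1b (row 38 / S40), brick F9' (helper45): THE ABSTRACT `Φ`-STEP (Mathlib only).
Design note: report 815 (stmt S40, kind design-input), item (B).

`A = J(K̄)`, `I` = inertia, `J0 ≤ A` the classes of divisors with "`trop = 0` on the nose"
(`= ⋃_L im Pic^{(0,0)}(𝒳_{𝒪_L})`), `V ≤ A[p]` a Hecke-eigen subgroup (`T = T_ℓ` acts on `V` by the
integer `a = a_ℓ`), `c = [R₁ - R₂]` the class of the difference of two points with smooth reduction on the
two components, `N` an integer prime to `p` killing the non-Eisenstein part of the component group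
(`N = 12`, THICK-lite).  Geometric inputs, as hypotheses:
* (tor)  every `P ∈ V` is congruent modulo `J0` to an `I`-invariant class  (KL46.exists_toric_correction);
* (Φ)    every `I`-invariant class `y` satisfies `N • y ≡ m • c` modulo `J0` for some integer `m`
         (descent + orbit generators at the nodes + semilocal moving lemma);
* (Eis)  `T c ≡ (ℓ + 1) • c` modulo `J0`, and `T J0 ⊆ J0`  (`T_ℓ` preserves "smooth reduction on side `i`").
Conclusion: if `p ∤ a_ℓ - (ℓ + 1)` then `V ≤ J0`.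
-/
import Mathlib

set_option autoImplicit false

namespace Fermat.Agent.T1B.Node45.PhiAbs

variable {A : Type*} [AddCommGroup A]

/-- **The `Φ`-step, core form.**  If every `P ∈ V` satisfies `N • P ≡ m • c` modulo `J0`, `T` acts on
`V` by `a`, on `c` by `l1` modulo `J0`, `p ∤ N (a - l1)` and `p • V = 0`, then `V ≤ J0`. -/
theorem le_of_nonEisenstein (J0 V : AddSubgroup A) {p : ℕ} (hp : p.Prime) (T : A →+ A)
    (hTJ0 : ∀ x ∈ J0, T x ∈ J0) {a l1 : ℤ} (hTV : ∀ x ∈ V, T x = a • x) {c : A}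
    (hTc : T c - l1 • c ∈ J0) {N : ℤ} (hN : ¬ (p : ℤ) ∣ N) (hne : ¬ (p : ℤ) ∣ a - l1)
    (hVp : ∀ P ∈ V, p • P = 0) (hV : ∀ P ∈ V, ∃ m : ℤ, N • P - m • c ∈ J0) : V ≤ J0 := by
  intro P hP
  obtain ⟨m, hm⟩ := hV P hP
  -- `N (a - l1) P ∈ J0`
  have h1 : T (N • P - m • c) ∈ J0 := hTJ0 _ hm
  have h2 : (N * (a - l1)) • P ∈ J0 := by
    have e : (N * (a - l1)) • P =
        T (N • P - m • c) + m • (T c - l1 • c) - l1 • (N • P - m • c) := by
      rw [map_sub, map_zsmul, map_zsmul, hTV P hP]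
      simp only [smul_sub, smul_smul, sub_smul, mul_sub]
      rw [mul_comm N a, mul_comm N l1, mul_comm m l1]
      abel
    rw [e]
    exact J0.sub_mem (J0.add_mem h1 (J0.zsmul_mem hTc m)) (J0.zsmul_mem hm l1)
  -- Bézout
  have hpZ : Prime (p : ℤ) := Nat.prime_iff_prime_int.1 hp
  have hcop : IsCoprime (N * (a - l1)) (p : ℤ) := by
    rw [isCoprime_comm]
    exact (Prime.coprime_iff_not_dvd hpZ).2 (fun h => (hpZ.dvd_or_dvd h).elim hN hne)
  obtain ⟨u, v, huv⟩ := hcop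
  have h3 : P = u • ((N * (a - l1)) • P) := by
    have hpP : ((p : ℤ)) • P = 0 := by rw [natCast_zsmul]; exact hVp P hP
    calc P = (1 : ℤ) • P := (one_smul _ _).symm
      _ = (u * (N * (a - l1)) + v * (p : ℤ)) • P := by rw [huv]
      _ = u • ((N * (a - l1)) • P) := by
        rw [add_smul, mul_smul u, mul_smul v, hpP, smul_zero, add_zero]
  rw [h3]
  exact J0.zsmul_mem h2 u

variable {I : Type*} [Group I] [DistribMulAction I A]

/-- **The `Φ`-step.**  (tor) + (Φ) + (Eis) + non-Eisenstein ⇒ `V ≤ J0`. -/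
theorem le_of_toric_of_phi (J0 V : AddSubgroup A) {p : ℕ} (hp : p.Prime) (T : A →+ A)
    (hTJ0 : ∀ x ∈ J0, T x ∈ J0) {a l1 : ℤ} (hTV : ∀ x ∈ V, T x = a • x) {c : A}
    (hTc : T c - l1 • c ∈ J0) {N : ℤ} (hN : ¬ (p : ℤ) ∣ N) (hne : ¬ (p : ℤ) ∣ a - l1)
    (hVp : ∀ P ∈ V, p • P = 0)
    (htor : ∀ P ∈ V, ∃ t ∈ J0, ∀ s : I, s • (P - t) = P - t)
    (hphi : ∀ y : A, (∀ s : I, s • y = y) → ∃ m : ℤ, N • y - m • c ∈ J0) : V ≤ J0 := by
  refine le_of_nonEisenstein J0 V hp T hTJ0 hTV hTc hN hne hVp fun P hP => ?_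
  obtain ⟨t, ht, hfix⟩ := htor P hP
  obtain ⟨m, hm⟩ := hphi (P - t) hfix
  refine ⟨m, ?_⟩
  have e : N • P - m • c = (N • (P - t) - m • c) + N • t := by
    rw [smul_sub]; abel
  rw [e]
  exact J0.add_mem hm (J0.zsmul_mem ht N)

end Fermat.Agent.T1B.Node45.PhiAbs
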