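/-
Programme T1B (row 38 / S44), cell (I) NODE/PHI (helper45), sub-brick Φ4 DESC′: INTERFACE
(definitions and `Prop`s only; the PROVIDER of `DescAt` is helper1's cell, the CONSUMER is Φ6 in
`T1B/Node45`).  Plan: report 920 (PHI45 plan v1).

`c0 : TwoChart W B0 B1 B01` the hub chart system, `A` a `W`-algebra.

* `conjPt f hf q` : the conjugate `f ∘ q` of an `A`-point `q : B →ₐ[W] A` by a `W`-linear ring
  endomorphism `f` of `A` (a Galois element fixing the constants);
* `ptCls0 c0 q`, `ptCls1 c0 q : PicX c0 A` : the class of (the ideal sheaf of) a point, TOTAL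
  version (`1` if the ideal of the point is not invertible; over a field it always is);
* `divClass c0 D0 D1` : the class of a POINT DIVISOR `(D0, D1)`,
  `D_j : (B_j →ₐ[W] A) →₀ ℤ` a finitely supported function on the `A`-points of chart `j`;
* `DescAt` : **the statement of Φ4 DESC′ at the number-field level** (`A` a valuation ring of `ℚ̄`,
  `K` a number field fixed pointwise by the inertia group of `A`, `W = A ∩ K`, `N ⊇ K` finite
  normal): a class `y ∈ PicPt(N)` fixed by the inertia group is, over some bigger finite normal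
  `N'`, the class of a point divisor which is INVARIANT under the inertia group.
-/
import Mathlib
import Fermat.Agent.T1.PtLine75
import Fermat.Agent.T1.CentresClass47
import Fermat.Agent.T1.HubInst98.Galois

set_option autoImplicit false
set_option linter.unusedSectionVars false
set_option linter.style.haveILetI false

noncomputable section

open TensorProduct

namespace Fermat.Agent.T1B.Node45.DescIface

open Fermat.Agent.Jac Fermat.Agent.T1.RedIface75 Fermat.Agent.T1.PtLine75
open Fermat.Agent.T1.CentresClass47 Fermat.Agent.T1.HubInst98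
open Fermat.Agent.RED.Interface4

universe u

section Points

variable {W A B : Type u} [CommRing W] [CommRing A] [CommRing B] [Algebra W A] [Algebra W B]

/-- The conjugate `f ∘ q` of an `A`-point `q` by a `W`-linear ring endomorphism `f` of `A`. -/
def conjPt (f : A →+* A) (hf : ∀ (w : W) (a : A), f (w • a) = w • f a) (q : B →ₐ[W] A) :
    B →ₐ[W] A :=
  { f.comp (q : B →+* A) with
    commutes' := fun w => by
      show f (q (algebraMap W B w)) = algebraMap W A w
      rw [q.commutes, Algebra.algebraMap_eq_smul_one, hf, map_one] }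

@[simp] theorem conjPt_apply (f : A →+* A) (hf : ∀ (w : W) (a : A), f (w • a) = w • f a)
    (q : B →ₐ[W] A) (b : B) : conjPt f hf q b = f (q b) := rfl

end Points

section Classes

variable {W B0 B1 B01 : Type u} [CommRing W] [CommRing B0] [CommRing B1] [CommRing B01]
  [Algebra W B0] [Algebra W B1] [Algebra W B01] [Algebra B0 B01] [Algebra B1 B01]
  [IsScalarTower W B0 B01] [IsScalarTower W B1 B01]
  (c0 : TwoChart W B0 B1 B01) {A : Type u} [CommRing A] [Algebra W A]

open Classical in
/-- The class of a point of chart 0 (total version). -/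
def ptCls0 (q : B0 →ₐ[W] A) : PicX c0 A :=
  if h : Module.Invertible (A ⊗[W] B0) (ptIdeal q) then ptClass0 c0 q h else 1

open Classical in
/-- The class of a point of chart 1 (total version). -/
def ptCls1 (q : B1 →ₐ[W] A) : PicX c0 A :=
  if h : Module.Invertible (A ⊗[W] B1) (ptIdeal q) then ptClass1 c0 q h else 1

theorem ptCls0_eq (q : B0 →ₐ[W] A) (h : Module.Invertible (A ⊗[W] B0) (ptIdeal q)) :
    ptCls0 c0 q = ptClass0 c0 q h := dif_pos h

theorem ptCls1_eq (q : B1 →ₐ[W] A) (h : Module.Invertible (A ⊗[W] B1) (ptIdeal q)) :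
    ptCls1 c0 q = ptClass1 c0 q h := dif_pos h

theorem ptCls0_mem_picPt (q : B0 →ₐ[W] A) : ptCls0 c0 q ∈ (pointClasses c0).PicPt A := by
  classical
  unfold ptCls0
  split_ifs with h
  · exact ptClass0_mem_picPt c0 q h
  · exact Subgroup.one_mem _

theorem ptCls1_mem_picPt (q : B1 →ₐ[W] A) : ptCls1 c0 q ∈ (pointClasses c0).PicPt A := by
  classical
  unfold ptCls1
  split_ifs with h
  · exact ptClass1_mem_picPt c0 q h
  · exact Subgroup.one_mem _

/-- **The class of a point divisor** `(D0, D1)`: `∏ [q]^(D0 q) * ∏ [q]^(D1 q)`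
(`[q]` = class of the ideal sheaf `O(-q)`). -/
def divClass (D0 : (B0 →ₐ[W] A) →₀ ℤ) (D1 : (B1 →ₐ[W] A) →₀ ℤ) : PicX c0 A :=
  (D0.prod fun q m => ptCls0 c0 q ^ m) * (D1.prod fun q m => ptCls1 c0 q ^ m)

theorem divClass_mem_picPt (D0 : (B0 →ₐ[W] A) →₀ ℤ) (D1 : (B1 →ₐ[W] A) →₀ ℤ) :
    divClass c0 D0 D1 ∈ (pointClasses c0).PicPt A := by
  unfold divClass
  refine Subgroup.mul_mem _ ?_ ?_
  · exact Subgroup.prod_mem _ fun q _ => Subgroup.zpow_mem _ (ptCls0_mem_picPt c0 q) _
  · exact Subgroup.prod_mem _ fun q _ => Subgroup.zpow_mem _ (ptCls1_mem_picPt c0 q) _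

end Classes

/-! ### The number-field statement -/

section NumberField

variable (A : ValuationSubring Qbar) {K : IntermediateField ℚ Qbar}

/-- An element of `Gal(ℚ̄/ℚ)` fixing `K` pointwise acts `A ∩ K`-linearly on a normal `N ⊇ K`. -/
theorem resL_smul_of_fixes {N : IntermediateField ℚ Qbar} [Normal ℚ N] (hle : K ≤ N)
    {τ : Qbar ≃ₐ[ℚ] Qbar} (hτ : ∀ x ∈ K, τ x = x) (w : AK A K) (a : N) :
    letI := algAKL A hle
    (resL N τ : N →+* N) (w • a) = w • (resL N τ : N →+* N) a := by
  letI := algAKL A hle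
  rw [Algebra.smul_def, Algebra.smul_def, map_mul]
  congr 1
  apply jL_injective
  show jL N (resL N τ (algebraMap (AK A K) N w)) = jL N (algebraMap (AK A K) N w)
  rw [jL_resL]
  exact hτ _ (w : K).2

variable {B0 B1 B01 : Type} [CommRing B0] [CommRing B1] [CommRing B01]
  [Algebra (AK A K) B0] [Algebra (AK A K) B1] [Algebra (AK A K) B01] [Algebra B0 B01]
  [Algebra B1 B01] [IsScalarTower (AK A K) B0 B01] [IsScalarTower (AK A K) B1 B01]

/-- **Φ4 DESC′, number-field form.**  `W = A ∩ K` with `K` fixed pointwise by the inertia group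
`I_A` of `A`; `N ⊇ K` finite normal over `ℚ`.  Every class `y ∈ PicPt(X_N)` fixed by `I_A`
(acting through `resL N`, the chart system being fixed) becomes, over some finite normal
`N' ⊇ N`, the class of a point divisor `(D0, D1)` of `N'`-points which is INVARIANT under `I_A`:
`D_j (τ ∘ q) = D_j q` for all `τ ∈ I_A`.

(Mathematically: `y` descends to the inertia field `N^{I}` because `X` has a rational point
[Hilbert 90 for the function field], a divisor on `X_{N^I}` is a sum of closed points, and over a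
big `N'` every closed point splits into a full Galois orbit of `N'`-points.) -/
def DescAt (c0 : TwoChart (AK A K) B0 B1 B01)
    (hK : ∀ τ ∈ A.inertiaSubgroupIn ℚ, ∀ x ∈ K, τ x = x)
    (N : IntermediateField ℚ Qbar) [FiniteDimensional ℚ N] [Normal ℚ N] (hle : K ≤ N) : Prop :=
  letI := algAKL A hle
  ∀ y ∈ (pointClasses c0).PicPt ↥N,
    (∀ (τ : Qbar ≃ₐ[ℚ] Qbar) (hτ : τ ∈ A.inertiaSubgroupIn ℚ),
      PicX.mapSemi (chartAutRefl c0) (resL N τ : ↥N →+* ↥N)
        (resL_smul_of_fixes A hle (hK τ hτ)) y = y) →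
    ∃ (N' : IntermediateField ℚ Qbar) (_ : FiniteDimensional ℚ N') (_ : Normal ℚ N')
      (hN : N ≤ N'),
      letI := algAKL A (hle.trans hN)
      letI := algKL hN
      haveI : IsScalarTower (AK A K) ↥N ↥N' := IsScalarTower.of_algebraMap_eq' rfl
      ∃ (D0 : (B0 →ₐ[AK A K] ↥N') →₀ ℤ) (D1 : (B1 →ₐ[AK A K] ↥N') →₀ ℤ),
        (∀ (τ : Qbar ≃ₐ[ℚ] Qbar) (hτ : τ ∈ A.inertiaSubgroupIn ℚ) (q : B0 →ₐ[AK A K] ↥N'),
          D0 (conjPt (resL N' τ : ↥N' →+* ↥N')
            (resL_smul_of_fixes A (hle.trans hN) (hK τ hτ)) q) = D0 q) ∧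
        (∀ (τ : Qbar ≃ₐ[ℚ] Qbar) (hτ : τ ∈ A.inertiaSubgroupIn ℚ) (q : B1 →ₐ[AK A K] ↥N'),
          D1 (conjPt (resL N' τ : ↥N' →+* ↥N')
            (resL_smul_of_fixes A (hle.trans hN) (hK τ hτ)) q) = D1 q) ∧
        PicX.map c0 ↥N ↥N' y = divClass c0 D0 D1

end NumberField

end Fermat.Agent.T1B.Node45.DescIface
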