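/-
Programme T1B (row 38 via S44), cell (I) NODE/PHI (helper45): **VARIANT OF helper66's
`Local66.Glue.localGeom_of_fields` WITH `C := Objects.JextTop c0`** (helper46's ruling 14:33Z).

In `Local66.Assembly.LocalGeom` the field `C` occurs only in `phi`, `ρ_const`, `ρ_ker`, and the only
fact the consumers use about it is `C ≤ JextTop`.  With `C := JextTop` the binder `phi` is exactly
`Node45.LocalPhi.phi_glue` (no sections, no multidegree normalisation), and the hypotheses of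
`ρ_const`, `ρ_ker` read `∃ z ∈ JextTop c0, j x - z ∈ J0top c0 P00 hPP` (i.e. `j x ∈ JextTop c0`).
Everything else is verbatim `Local66.Glue.localGeom_of_fields` (the binders `E0 r` are dropped).
-/
import Mathlib
import Fermat.Agent.T1B.Local66.Assembly
import Fermat.Agent.T1B.Local66.Objects

set_option autoImplicit false
set_option linter.unusedSectionVars false
set_option linter.style.haveILetI false
set_option synthInstance.maxHeartbeats 400000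
set_option maxHeartbeats 1000000

open Fermat.Agent.TW.B5.Iface Fermat.Agent.RED.Interface4 Fermat.Agent.T1.HubInst98
open Fermat.Agent.T1.IntSub47 Fermat.Agent.Jac Fermat.Agent.T1.RedIface75
open Fermat.Agent.T1B.Local66.LocalBase Fermat.Agent.T1B.Local66.Union
open Fermat.Agent.T1B.Local66.Objects Fermat.Agent.T1B.Local66.Assembly
open Fermat.Agent.T1B.Plumb66.Inertia (Ip mem_Ip)
open Fermat.Agent.T1B.Plumb66.OneUnits
open Fermat.Agent.T1B.Bridge54.IpAction Fermat.Agent.T1B.Bridge54.IpInst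
open Fermat.Agent.T1B.Bridge54.IpUnion
open Fermat.Agent.ES.P36.InertField27 (InertFixed)
open ModularCurve

noncomputable section

namespace Fermat.Agent.T1B.Node45.GlueExt

universe uD uE uS uR

variable {p : ℕ} [Fact p.Prime] {K : IntermediateField ℚ Qbar} [Nonempty (NLevel p K)]
  {B0 B1 B01 : Type} [CommRing B0] [CommRing B1] [CommRing B01]
  [Algebra (Wb p K) B0] [Algebra (Wb p K) B1] [Algebra (Wb p K) B01] [Algebra B0 B01]
  [Algebra B1 B01] [IsScalarTower (Wb p K) B0 B01] [IsScalarTower (Wb p K) B1 B01]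
  (c0 : TwoChart (Wb p K) B0 B1 B01)
  {N M' : ℕ} [NeZero N] [NeZero M'] {π₁ π₂ : JZero N →+ JZero M'}
  {UN : Module.End ℤ (JZero N)} {D : Type uD} [AddCommGroup D] {S : AddSubgroup D}
  {TD : Nat.Primes → Module.End ℤ D} {UD : Module.End ℤ D}

set_option linter.checkUnivs false in
/-- **The constructor of `LocalGeom` on the concrete objects, with `C := JextTop`.** -/
def localGeom_of_fields_ext (hK : InertFixed (padicPlace p) K)
    (P00 : ∀ E : NLevel p K, Subgroup (PicO c0 E)) (hPP : Compatible c0 P00)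
    (hJP : ∀ E, J1Fam c0 E ≤ P00 E)
    -- J-BRIDGE
    (j : ↥(torsP N p) →+ Atop p K c0) (j_inj : Function.Injective j)
    (j_res : letI := actTop c0 hK
      ∀ (τ : ↥(Ip p)) (x : JZero N) (hx : x ∈ torsP N p)
        (hx' : localGaloisToGlobal p (τ : Gp p) • x ∈ torsP N p), j ⟨_, hx'⟩ = τ • j ⟨x, hx⟩)
    (j_Pt : ∀ x, j x ∈ PtTop c0)
    -- NODE / PHI
    (sub_mem_J0 : letI := actTop c0 hK
      ∀ τ : ↥(Ip p), ∀ x ∈ PtTop c0, τ • x - x ∈ J0top c0 P00 hPP)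
    (phi : letI := actTop c0 hK
      ∀ y ∈ PtTop c0, ∀ t ∈ J1top c0 P00 hPP, (∀ τ : ↥(Ip p), τ • (y - t) = y - t) →
        ∃ z ∈ JextTop c0, y - t - z ∈ J0top c0 P00 hPP)
    -- RESIDUES (R1, R2)
    (R : Type uR) [AddCommGroup R] (ρ : ↥(torsP N p) →+ R) (B : Nat.Primes → R →+ R) (one : R)
    (B_one : ∀ ℓ : Nat.Primes, ¬ (ℓ : ℕ) ∣ N → B ℓ one = ((ℓ : ℕ) + 1 : ℤ) • one)
    (ρ_T : ∀ ℓ : Nat.Primes, ¬ (ℓ : ℕ) ∣ N → ∀ (x : JZero N) (hx : x ∈ torsP N p)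
      (hx' : heckeOperatorBar N ℓ x ∈ torsP N p), ρ ⟨_, hx'⟩ = B ℓ (ρ ⟨x, hx⟩))
    (ρ_const : ∀ x : ↥(torsP N p), (∃ z ∈ JextTop c0, j x - z ∈ J0top c0 P00 hPP) →
      ∃ s : ℤ, ρ x = s • one)
    (ρ_ker : ∀ x : ↥(torsP N p), (∃ z ∈ JextTop c0, j x - z ∈ J0top c0 P00 hPP) → ρ x = 0 →
      j x ∈ J0top c0 P00 hPP)
    -- DETECTORS
    (Side : Type uS) (δ : Side → ↥(torsP N p) →+ D)
    (δ_ker : ∀ x : ↥(torsP N p), j x ∈ J0top c0 P00 hPP → (∀ i, δ i x = 0) →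
      j x ∈ J1top c0 P00 hPP)
    (δ_hol : ∀ i (x : ↥(torsP N p)), j x ∈ J0top c0 P00 hPP → δ i x ∈ S)
    (δ_T : ∀ (i : Side) (ℓ : Nat.Primes), ¬ (ℓ : ℕ) ∣ N → ∀ (x : JZero N) (hx : x ∈ torsP N p)
      (hx' : heckeOperatorBar N ℓ x ∈ torsP N p), δ i ⟨_, hx'⟩ = TD ℓ (δ i ⟨x, hx⟩))
    (δ_U : ∀ (i : Side) (x : JZero N) (hx : x ∈ torsP N p) (hx' : UN x ∈ torsP N p),
      δ i ⟨_, hx'⟩ = UD (δ i ⟨x, hx⟩))
    -- TORIC / CMP
    (E : Type uE) (ιT : (E → oneUnits p) → Atop p K c0)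
    (ιT_mul : ∀ a b : E → oneUnits p, ιT (a * b) = ιT a + ιT b)
    (ιT_smul : letI := actTop c0 hK
      ∀ (τ : ↥(Ip p)) (z : E → oneUnits p), ιT (fun e => (τ : Gp p) • z e) = τ • ιT z)
    (ιT_mem : ∀ z, ιT z ∈ J1top c0 P00 hPP)
    (toric : ∀ (x : JZero N) (hx : x ∈ torsP N p), π₁ x = 0 → π₂ x = 0 →
      j ⟨x, hx⟩ ∈ J1top c0 P00 hPP →
      ∃ z : E → oneUnits p, (∀ e, z e ^ p = 1) ∧ ιT z = j ⟨x, hx⟩) :
    LocalGeom.{1, uD, uE, uS, uR} p N M' π₁ π₂ UN S TD UD where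
  A := Atop p K c0
  instA := inferInstance
  actA := actTop c0 hK
  j := j
  j_inj := j_inj
  j_res := j_res
  Pt := PtTop c0
  j_Pt := j_Pt
  J0 := J0top c0 P00 hPP
  sub_mem_J0 := sub_mem_J0
  C := JextTop c0
  J1 := J1top c0 P00 hPP
  phi := phi
  R := R
  ρ := ρ
  B := B
  one := one
  B_one := B_one
  ρ_T := ρ_T
  ρ_const := ρ_const
  ρ_ker := ρ_ker
  J1_le := J1top_le_J0top c0 P00 hPP
  sub_mem_J1 := fun τ _ hx => sub_mem_J1top c0 P00 hPP hK hJP τ hx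
  Side := Side
  δ := δ
  δ_ker := δ_ker
  δ_hol := δ_hol
  δ_T := δ_T
  δ_U := δ_U
  E := E
  ιT := ιT
  ιT_mul := ιT_mul
  ιT_smul := ιT_smul
  ιT_mem := ιT_mem
  toric := toric

end Fermat.Agent.T1B.Node45.GlueExt
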