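/-
Programme T1B (row 38 / S44), cell (I) NODE/PHI (helper45), sub-brick Φ7 (R2)(d): THE KEY LEMMA
(Mathlib only; going-down for integral extensions of integrally closed domains).

`R ⊆ S` domains, `R` integrally closed, `S` integral over `R` along TWO embeddings `α, β : R → S`
(the two degeneracy maps of a Hecke correspondence between normal models: `R` = integral closure of
`W[j]` in the function field of level `N`, `S` = the same at level `N ℓ`).  `P₁, P₂` the vertical primes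
of `S` (the two components of the fibre `π = 0`), `p₁, p₂` those of `R`.

* `le_of_le_comap` : for a prime `Q` of `S`: `p₂ ≤ α⁻¹ Q ⟹ P₂ ≤ Q`;
* `comap_le_iff` : hence `p₂ ≤ α⁻¹ Q ⟺ P₂ ≤ Q ⟺ p₂ ≤ β⁻¹ Q`: a point of the model of level `N ℓ`
  lies on the component `2` iff its image under `α` does iff its image under `β` does.
  Applied to both components: the points over a node are nodes, and `β` maps them to nodes; a point
  over a point with smooth reduction on side `1` is such a point, and so is its image under `β`.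
-/
import Mathlib

set_option autoImplicit false
set_option linter.unusedSectionVars false
set_option linter.style.haveILetI false

namespace Fermat.Agent.T1B.Node45.KeyLemma

variable {R S : Type*} [CommRing R] [CommRing S] [IsDomain R] [IsDomain S] [IsIntegrallyClosed R]

/-- **Going down to a component.**  `S` integral over the integrally closed domain `R`; every prime
of `S` containing `π` contains `P₁` or `P₂`; `p₂` a prime of `R` containing `π` and not containing
the contraction of `P₁`.  If the contraction of the prime `Q` contains `p₂` then `Q` contains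
`P₂`. -/
theorem le_of_le_under [Algebra R S] [FaithfulSMul R S] [Algebra.IsIntegral R S]
    (π : R) (P₁ P₂ : Ideal S)
    (hcover : ∀ Q : Ideal S, Q.IsPrime → algebraMap R S π ∈ Q → P₁ ≤ Q ∨ P₂ ≤ Q)
    (p₂ : Ideal R) [p₂.IsPrime] (hπ : π ∈ p₂) (h12 : ¬ P₁.under R ≤ p₂)
    (Q : Ideal S) [Q.IsPrime] (h : p₂ ≤ Q.under R) : P₂ ≤ Q := by
  haveI : Q.LiesOver (Q.under R) := ⟨rfl⟩
  obtain ⟨P, hPQ, hP, hlo⟩ := Ideal.exists_ideal_le_liesOver_of_le (p := p₂) (q := Q.under R) Q h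
  have hPu : P.under R = p₂ := (hlo.over).symm
  have hπP : algebraMap R S π ∈ P := by
    have : π ∈ P.under R := by rw [hPu]; exact hπ
    exact this
  rcases hcover P hP hπP with h1 | h2
  · exfalso
    apply h12
    rw [← hPu]
    exact Ideal.comap_mono h1
  · exact h2.trans hPQ

/-- The same for a ring homomorphism `α : R → S` (injective, integral). -/
theorem le_of_le_comap (α : R →+* S) (hα : Function.Injective α) (hint : α.IsIntegral)
    (π : R) (P₁ P₂ : Ideal S)
    (hcover : ∀ Q : Ideal S, Q.IsPrime → α π ∈ Q → P₁ ≤ Q ∨ P₂ ≤ Q)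
    (p₂ : Ideal R) [p₂.IsPrime] (hπ : π ∈ p₂) (h12 : ¬ P₁.comap α ≤ p₂)
    (Q : Ideal S) [Q.IsPrime] (h : p₂ ≤ Q.comap α) : P₂ ≤ Q := by
  letI : Algebra R S := α.toAlgebra
  haveI : FaithfulSMul R S := (faithfulSMul_iff_algebraMap_injective R S).mpr hα
  haveI : Algebra.IsIntegral R S := ⟨hint⟩
  exact le_of_le_under π P₁ P₂ hcover p₂ hπ h12 Q h

/-- **The key lemma.**  For two integral embeddings `α, β : R → S` with `α π = β π` and
`α⁻¹ P₂ = p₂ = β⁻¹ P₂`: a prime `Q` of `S` lies on the component `P₂` iff `α⁻¹ Q` lies on the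
component `p₂` iff `β⁻¹ Q` does. -/
theorem comap_le_iff (α β : R →+* S) (hα : Function.Injective α) (hβ : Function.Injective β)
    (hαint : α.IsIntegral) (hβint : β.IsIntegral) (π : R) (hπαβ : α π = β π)
    (P₁ P₂ : Ideal S)
    (hcover : ∀ Q : Ideal S, Q.IsPrime → α π ∈ Q → P₁ ≤ Q ∨ P₂ ≤ Q)
    (p₂ : Ideal R) [p₂.IsPrime] (hπ : π ∈ p₂)
    (hα2 : P₂.comap α = p₂) (hβ2 : P₂.comap β = p₂)
    (hα12 : ¬ P₁.comap α ≤ p₂) (hβ12 : ¬ P₁.comap β ≤ p₂)
    (Q : Ideal S) [Q.IsPrime] :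
    (p₂ ≤ Q.comap α ↔ P₂ ≤ Q) ∧ (p₂ ≤ Q.comap β ↔ P₂ ≤ Q) := by
  refine ⟨⟨fun h => le_of_le_comap α hα hαint π P₁ P₂ hcover p₂ hπ hα12 Q h, fun h => ?_⟩,
    ⟨fun h => le_of_le_comap β hβ hβint π P₁ P₂ (fun Q' hQ' h' => hcover Q' hQ' (hπαβ ▸ h')) p₂ hπ
      hβ12 Q h, fun h => ?_⟩⟩
  · rw [← hα2]; exact Ideal.comap_mono h
  · rw [← hβ2]; exact Ideal.comap_mono h

/-- Corollary: `α⁻¹ Q` lies on the component `p₂` iff `β⁻¹ Q` does. -/
theorem le_comap_iff_le_comap (α β : R →+* S) (hα : Function.Injective α)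
    (hβ : Function.Injective β) (hαint : α.IsIntegral) (hβint : β.IsIntegral) (π : R)
    (hπαβ : α π = β π) (P₁ P₂ : Ideal S)
    (hcover : ∀ Q : Ideal S, Q.IsPrime → α π ∈ Q → P₁ ≤ Q ∨ P₂ ≤ Q)
    (p₂ : Ideal R) [p₂.IsPrime] (hπ : π ∈ p₂)
    (hα2 : P₂.comap α = p₂) (hβ2 : P₂.comap β = p₂)
    (hα12 : ¬ P₁.comap α ≤ p₂) (hβ12 : ¬ P₁.comap β ≤ p₂)
    (Q : Ideal S) [Q.IsPrime] : p₂ ≤ Q.comap α ↔ p₂ ≤ Q.comap β := by
  obtain ⟨h1, h2⟩ := comap_le_iff α β hα hβ hαint hβint π hπαβ P₁ P₂ hcover p₂ hπ hα2 hβ2 hα12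
    hβ12 Q
  exact h1.trans h2.symm

end Fermat.Agent.T1B.Node45.KeyLemma
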