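/-
Programme T1B (row 38 / S44), cell (I) NODE/PHI (helper45): THE `Φ`-STEP, RESIDUE FORM, ON GLOBAL
POINTS (Mathlib + `Node45/PhiRes`).

Shape needed by `Local66/Assembly.LocalGeom.spOf`, Step 5, WITHOUT any Hecke operator on the local
points `A = J(ℚ̄_p)`:

* `G = J₀(N)(ℚ̄)` (global points), `j : G →+ A` the bridge, `T : G →+ G` the Prelude's Hecke operator
  `T_ℓ`, `V ≤ G` the image of `E[p]` (`T = a` on `V`);
* `J0 ≤ A`, `cv : A` the vertex class `[R₁] - [R₂]`;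
* `ρ : G → R` the residue vector (`R = (nodes → ZMod p)`, `ρ x = (ord_e ū_x mod p)_e`), `one` the
  constant vector `1`;
* `hcong` : the output of (tor) + (Φ): every `x ∈ V` is congruent to a multiple of `cv` modulo `J0`;
* `hconst`, `hker` : (R1) node slope lemma; `hρT` : (R2) in the CONSUMER form
  `ρ x = s • 𝟙 ⟹ ρ (T x) = ((ℓ+1) s) • 𝟙` (no operator `B` on `R` is needed).
Conclusion: `j V ≤ J0`.
-/
import Mathlib
import Fermat.Agent.T1B.Node45.PhiRes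

set_option autoImplicit false

namespace Fermat.Agent.T1B.Node45.PhiResGlobal

open Fermat.Agent.T1B.Node45.PhiRes

variable {A G R : Type*} [AddCommGroup A] [AddCommGroup G] [AddCommGroup R]

/-- **The `Φ`-step, residue form, global points.** -/
theorem map_le_of_residue (j : G →+ A) (J0 : AddSubgroup A) (V : AddSubgroup G) {p : ℕ}
    (hp : p.Prime) (T : G →+ G) {a l1 : ℤ} (hTV : ∀ x ∈ V, T x = a • x) (cv : A)
    (ρ : G → R) (one : R)
    (hρa : ∀ x ∈ V, ρ (a • x) = a • ρ x) (hpR : ∀ x ∈ V, p • ρ x = 0)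
    (hρT : ∀ x ∈ V, ∀ s : ℤ, ρ x = s • one → ρ (T x) = (l1 * s) • one)
    (hne : ¬ (p : ℤ) ∣ a - l1)
    (hconst : ∀ x ∈ V, ∀ m : ℤ, j x - m • cv ∈ J0 → ∃ s : ℤ, ρ x = s • one)
    (hker : ∀ x ∈ V, ∀ m : ℤ, j x - m • cv ∈ J0 → ρ x = 0 → j x ∈ J0)
    (hcong : ∀ x ∈ V, ∃ m : ℤ, j x - m • cv ∈ J0) :
    ∀ x ∈ V, j x ∈ J0 := by
  intro x hx
  obtain ⟨m, hm⟩ := hcong x hx
  obtain ⟨s, hs⟩ := hconst x hx m hm
  refine hker x hx m hm ?_
  have h1 : a • ρ x = l1 • ρ x := by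
    calc a • ρ x = ρ (a • x) := (hρa x hx).symm
      _ = ρ (T x) := by rw [hTV x hx]
      _ = (l1 * s) • one := hρT x hx s hs
      _ = l1 • ρ x := by rw [hs, mul_smul]
  have h2 : (a - l1) • ρ x = 0 := by rw [sub_smul, h1, sub_self]
  exact eq_zero_of_smul_eq_zero hp hne (hpR x hx) h2

/-- From `N • y ≡ m • cv` with `p ∤ N` to `y ≡ m' • cv` on a `p`-torsion subgroup `V`
(so (Φ) may be used with any exponent `N` prime to `p`). -/
theorem exists_cong_of_smul (j : G →+ A) (J0 : AddSubgroup A) (V : AddSubgroup G) {p : ℕ}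
    (hp : p.Prime) (cv : A) {N : ℤ} (hN : ¬ (p : ℤ) ∣ N) (hVp : ∀ x ∈ V, p • x = 0)
    (h : ∀ x ∈ V, ∃ m : ℤ, N • j x - m • cv ∈ J0) :
    ∀ x ∈ V, ∃ m : ℤ, j x - m • cv ∈ J0 := by
  intro x hx
  have hpZ : Prime (p : ℤ) := Nat.prime_iff_prime_int.1 hp
  have hcop : IsCoprime N (p : ℤ) := by
    rw [isCoprime_comm]
    exact (Prime.coprime_iff_not_dvd hpZ).2 hN
  obtain ⟨u, v, huv⟩ := hcop
  obtain ⟨m, hm⟩ := h (u • x) (V.zsmul_mem hx u)
  refine ⟨m, ?_⟩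
  have hpx : (p : ℤ) • x = 0 := by rw [natCast_zsmul]; exact hVp x hx
  have e : x = N • (u • x) := by
    calc x = (1 : ℤ) • x := (one_smul _ _).symm
      _ = (u * N + v * (p : ℤ)) • x := by rw [huv]
      _ = N • (u • x) := by
        rw [add_smul, mul_smul u, mul_smul v, hpx, smul_zero, add_zero, smul_comm]
  have e2 : j x = N • j (u • x) := by
    conv_lhs => rw [e]
    rw [map_zsmul]
  rw [e2]
  exact hm

end Fermat.Agent.T1B.Node45.PhiResGlobal
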