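/-
Programme T1B (row 38 / S44) and S33 (p-new half), cell (I) NODE/PHI (helper45):
**`sub_mem_J0` WITHOUT components and multidegrees** (the case `P00 := ⊤`, `J0top = JextTop`).

`LocalPhi.sub_mem_J0_top` is stated through a `NodalGood` datum and components of the special fibre
at every level (they only enter through the subgroup `Bal60.P00 hg X`).  For the family `P00 := ⊤`
they are not needed:

* `exists_map_eq_of_node` : the node half, `∃ z : Pic X_O, z_L = [F q_L] / [q_L]`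
  (two applications of `NodePart.exists_cls_of_node`);
* `levelHyp_ptCls_twist_div_mem_range`, `levelHyp_sub_mem_range` :
  `galPic (τL g) x / x ∈ range (Pic X_O → Pic X_L)` for `x ∈ PicPt L`;
* **`sub_mem_Jext_top`** : `τ • x - x ∈ JextTop c0` for `x ∈ PtTop c0`, from `LocalPhi.LevelData` alone;
  `sub_mem_J0_top_top` : the same in the shape `J0top c0 (fun _ => ⊤) (compatible_top c0)`.
-/
import Mathlib
import Fermat.Agent.T1B.Node45.LocalPhi

set_option autoImplicit false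
set_option linter.unusedSectionVars false
set_option linter.style.haveILetI false
set_option synthInstance.maxHeartbeats 400000
set_option maxHeartbeats 1000000

open TensorProduct

namespace Fermat.Agent.T1B.Node45.SubMemExt

open Fermat.Agent.Jac Fermat.Agent.Jac.JSmooth85Alg Fermat.Agent.Jac.JGroup85Pic
open Fermat.Agent.Jac.BaseChange75 Fermat.Agent.Jac.LineOps39 Fermat.Agent.T1.RedIface75
open Fermat.Agent.T1.PtLine75 Fermat.Agent.T1.CentresClass47 Fermat.Agent.T1.Peu37.NodeClassGroup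
open Fermat.Agent.T1B.Desc1 Fermat.Agent.T1B.Desc8.Effective Fermat.Agent.T1B.Desc43.IntModel
open Fermat.Agent.T1B.Bal60 Fermat.Agent.T1B.RedN3
open Fermat.Agent.T1B.Node45.OrbitInv Fermat.Agent.T1B.Node45.OrbitClass
open Fermat.Agent.T1B.Node45.PairNode Fermat.Agent.T1B.Node45.NodePart
open Fermat.Agent.T1B.Node45.PairNodeData Fermat.Agent.T1B.Node45.Ext2
open Fermat.Agent.T1B.Node45.Phi
open scoped Fermat.Agent.Jac.BaseChange75

universe u

section Abstract

variable {W B0 B1 B01 : Type u} [CommRing W] [CommRing B0] [CommRing B1] [CommRing B01]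
  [Algebra W B0] [Algebra W B1] [Algebra W B01] [Algebra B0 B01] [Algebra B1 B01]
  [IsScalarTower W B0 B01] [IsScalarTower W B1 B01]
  (c0 : TwoChart W B0 B1 B01)

section Node

variable {O : Type u} [CommRing O] [IsDomain O] [IsDiscreteValuationRing O] [Algebra W O]
  (L : Type u) [CommRing L] [Algebra W L] [Algebra O L] [IsScalarTower W O L] {π : O}

/-- **The node half of `sub_mem_J0`, without multidegrees.** -/
theorem exists_map_eq_of_node [Algebra.FiniteType W B0] [IsDomain (O ⊗[W] B0)]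
    [IsNoetherianRing (O ⊗[W] B0)] (hirr : Irreducible π)
    (hπL : IsUnit (algebraMap O L π)) (F : LinAut W O)
    (hF : ∀ a : O, IsLocalRing.residue O (F.f a) = IsLocalRing.residue O a)
    (q : B0 →ₐ[W] O)
    (𝔫 : Ideal (O ⊗[W] B0)) [𝔫.IsPrime] (h𝔫 : ∀ c, c ∈ 𝔫 ↔ ¬ IsUnit (ptEval q c))
    {A : Type u} [CommRing A] [IsDomain A] [IsLocalRing A] [IsNoetherianRing A]
    [Algebra (O ⊗[W] B0) A] [IsLocalization.AtPrime A 𝔫] [Algebra O A]
    [IsScalarTower O (O ⊗[W] B0) A]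
    {v₁ v₂ : A → ℕ} {P₁ P₂ : Ideal A} (x₀ y₀ : O ⊗[W] B0) {K : ℕ}
    (D : NodeData A v₁ v₂ P₁ P₂ (algebraMap O A π) (algebraMap (O ⊗[W] B0) A x₀)
      (algebraMap (O ⊗[W] B0) A y₀) K)
    (hX : ptEval (linTwist F q) x₀ = F.f (ptEval q x₀))
    (h : Module.Invertible (L ⊗[W] B0) (ptIdeal (ptComp L q)))
    (h' : Module.Invertible (L ⊗[W] B0) (ptIdeal (ptComp L (linTwist F q)))) :
    ∃ x : PicX c0 O, PicX.map c0 O L x =
      ptClass0 c0 (ptComp L (linTwist F q)) h' / ptClass0 c0 (ptComp L q) h := by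
  classical
  have hK0 : K ≠ 0 := Nat.pos_iff_ne_zero.1 D.K_pos
  -- the exponent of the point
  obtain ⟨φ, hφ⟩ := exists_lift_section (A := A) 𝔫 (ptEval q) h𝔫
  obtain ⟨j, u, hu, -, -, hx⟩ := exists_exponent hirr D φ
  have hval : ptEval q x₀ = π ^ j * u := by rw [← hφ x₀, hx]
  -- its image under `F`
  obtain ⟨w, hw⟩ := associated_map_of_irreducible F hirr
  have hFu : IsUnit (F.f u) := hu.map F.f
  have hvalF : ptEval (linTwist F q) x₀ = π ^ j * ((w : O) ^ j * F.f u) := by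
    rw [hX, hval, map_mul, map_pow, ← hw, mul_pow]
    ring
  have hwu : IsUnit ((w : O) ^ j * F.f u) := (w.isUnit.pow j).mul hFu
  -- the first family
  have hK1 : Associated (∏ s : Unit, ptEval ((fun _ : Unit => q) s) x₀ ^ (fun _ : Unit => K) s)
      (π ^ (K * j)) := by
    rw [Fintype.prod_unique]
    show Associated (ptEval q x₀ ^ K) (π ^ (K * j))
    rw [hval, mul_pow, ← pow_mul, mul_comm j K]
    exact associated_mul_unit_left _ _ (hu.pow K)
  obtain ⟨-, z₁, hz₁⟩ := exists_cls_of_node c0 L hirr hπL (fun _ : Unit => q) (fun _ => K) 𝔫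
    (fun _ => h𝔫) x₀ y₀ D hK1 (fun _ => h)
  -- the second family
  have h𝔫2 : ∀ (s : Fin 2) c, c ∈ 𝔫 ↔ ¬ IsUnit (ptEval ((![linTwist F q, q] : Fin 2 → _) s) c) := by
    intro s c
    fin_cases s
    · show c ∈ 𝔫 ↔ ¬ IsUnit (ptEval (linTwist F q) c)
      rw [isUnit_ptEval_linTwist_iff F hF q c]
      exact h𝔫 c
    · exact h𝔫 c
  have hinv2 : ∀ s : Fin 2, Module.Invertible (L ⊗[W] B0)
      (ptIdeal (ptComp L ((![linTwist F q, q] : Fin 2 → _) s))) := by
    intro s
    fin_cases s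
    · exact h'
    · exact h
  have hK2 : Associated
      (∏ s : Fin 2, ptEval ((![linTwist F q, q] : Fin 2 → _) s) x₀ ^ (![1, K - 1] : Fin 2 → ℕ) s)
      (π ^ (K * j)) := by
    rw [Fin.prod_univ_two]
    show Associated (ptEval (linTwist F q) x₀ ^ 1 * ptEval q x₀ ^ (K - 1)) (π ^ (K * j))
    rw [pow_one, hvalF, hval, mul_pow, ← pow_mul]
    have e : π ^ j * ((w : O) ^ j * F.f u) * (π ^ (j * (K - 1)) * u ^ (K - 1)) =
        π ^ (K * j) * (((w : O) ^ j * F.f u) * u ^ (K - 1)) := by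
      have hK : K * j = j + j * (K - 1) := by
        obtain ⟨k, rfl⟩ : ∃ k, K = k + 1 := ⟨K - 1, by omega⟩
        simp only [Nat.add_sub_cancel]
        ring
      rw [hK, pow_add]
      ring
    rw [e]
    exact associated_mul_unit_left _ _ (hwu.mul (hu.pow (K - 1)))
  obtain ⟨-, z₂, hz₂⟩ := exists_cls_of_node c0 L hirr hπL (![linTwist F q, q] : Fin 2 → _)
    (![1, K - 1] : Fin 2 → ℕ) 𝔫 h𝔫2 x₀ y₀ D hK2 hinv2
  refine ⟨z₂ / z₁, ?_⟩
  rw [map_div, hz₁, hz₂, Fin.prod_univ_two, Fintype.prod_unique]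
  show ptClass0 c0 (ptComp L (linTwist F q)) (hinv2 0) ^ 1 *
      ptClass0 c0 (ptComp L q) (hinv2 1) ^ (K - 1) / ptClass0 c0 (ptComp L q) h ^ K = _
  have hK1' : K = (K - 1) + 1 := (Nat.succ_pred_eq_of_ne_zero hK0).symm
  rw [pow_one]
  conv_lhs => rw [hK1', pow_succ, Nat.add_sub_cancel]
  rw [← div_div, mul_div_assoc, div_self', mul_one]

end Node

section Level

variable (O : Type u) [CommRing O] [IsDomain O] [IsDiscreteValuationRing O] [Algebra W O]
  (L : Type u) [Field L] [Algebra W L] [Algebra O L] [IsScalarTower W O L] [IsFractionRing O L]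

variable {c0 O L}
variable {π : O} {G : Type*} {τL : G → L ≃ₐ[W] L} {τO : G → O ≃ₐ[W] O} {K : ℕ}

/-- One point: `[τ x] / [x]` extends to `X_O`. -/
theorem levelHyp_ptCls_twist_div_mem_range (H : LevelHyp c0 O L π τL τO K) (g : G)
    (x : PtIdx c0 L) :
    ptCls c0 (twistIdx c0 (τL g) x) / ptCls c0 x ∈ (PicX.map c0 O L).range := by
  classical
  haveI := H.ft0
  haveI := H.dom0
  haveI := H.noeth0
  obtain ⟨IsNode, hSm0, hNode⟩ := H.node
  have hπL : IsUnit (algebraMap O L π) :=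
    IsUnit.mk0 _ (fun h0 => H.hirr.ne_zero
      ((IsFractionRing.injective O L) (by rw [h0, map_zero])))
  have hresF := residue_of_sub_mem (τO g) (H.hres g)
  rw [← ptCls_genIdx_model c0 O L H.hinvL0 H.hinvL1 H.hint0 H.hint1 x,
    ← ptCls_genIdx_model c0 O L H.hinvL0 H.hinvL1 H.hint0 H.hint1 (twistIdx c0 (τL g) x),
    model_twistIdx c0 (τL g) (τO g) (H.hcomp g) H.hint0 H.hint1 x]
  have hsmem : ∀ q1 : B1 →ₐ[W] O, model c0 O L H.hint0 H.hint1 x = Sum.inr q1 →
      q1 c0.s ∈ IsLocalRing.maximalIdeal O := fun q1 h =>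
    model_inr_s_mem c0 O L H.hint0 H.hint1 h
  generalize model c0 O L H.hint0 H.hint1 x = m at hsmem
  rcases m with q0 | q1
  · show ptClass0 c0 (ptComp L ((τO g : O →ₐ[W] O).comp q0)) (H.hinvL0 _) /
      ptClass0 c0 (ptComp L q0) (H.hinvL0 _) ∈ (PicX.map c0 O L).range
    by_cases hnode : IsNode (redIdeal O q0)
    · haveI hmax : (redIdeal O q0).IsMaximal := redIdeal_isMaximal O q0
      obtain ⟨v₁, v₂, P₁, P₂, X₀, Y₀, hX, D⟩ := hNode (redIdeal O q0) hnode
      have h𝔫 : ∀ c, c ∈ redIdeal O q0 ↔ ¬ IsUnit (ptEval q0 c) := by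
        intro c
        rw [mem_redIdeal, IsLocalRing.mem_maximalIdeal, mem_nonunits_iff]
      have e := linTwist_linAutOfEquiv (τO g) q0
      have hXF : ptEval (linTwist (linAutOfEquiv (τO g)) q0) X₀ =
          (linAutOfEquiv (τO g)).f (ptEval q0 X₀) := by
        rw [e]; exact hX g q0
      obtain ⟨z, hmap⟩ := exists_map_eq_of_node c0 L H.hirr hπL
        (linAutOfEquiv (τO g)) hresF q0 (redIdeal O q0) h𝔫 X₀ Y₀ D hXF (H.hinvL0 _) (H.hinvL0 _)
      refine ⟨z, ?_⟩
      rw [hmap]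
      congr 1
    · have hinv : Module.Invertible (O ⊗[W] B0) (ptIdeal q0) := hSm0 q0 hnode
      have hinv' : Module.Invertible (O ⊗[W] B0) (ptIdeal ((τO g : O →ₐ[W] O).comp q0)) :=
        hSm0 _ (by rw [redIdeal_comp O (τO g) (H.hres g) q0]; exact hnode)
      refine ⟨ptClass0 c0 ((τO g : O →ₐ[W] O).comp q0) hinv' / ptClass0 c0 q0 hinv, ?_⟩
      rw [map_div, map_ptClass0 c0 L _ hinv' (H.hinvL0 _), map_ptClass0 c0 L _ hinv (H.hinvL0 _)]
  · show ptClass1 c0 (ptComp L ((τO g : O →ₐ[W] O).comp q1)) (H.hinvL1 _) /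
      ptClass1 c0 (ptComp L q1) (H.hinvL1 _) ∈ (PicX.map c0 O L).range
    have hs := hsmem q1 rfl
    have hinv : Module.Invertible (O ⊗[W] B1) (ptIdeal q1) := H.hSm1 q1 hs
    have hinv' : Module.Invertible (O ⊗[W] B1) (ptIdeal ((τO g : O →ₐ[W] O).comp q1)) :=
      H.hSm1 _ (map_mem_maximalIdeal O (τO g) hs)
    refine ⟨ptClass1 c0 ((τO g : O →ₐ[W] O).comp q1) hinv' / ptClass1 c0 q1 hinv, ?_⟩
    rw [map_div, map_ptClass1 c0 L _ hinv' (H.hinvL1 _), map_ptClass1 c0 L _ hinv (H.hinvL1 _)]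

/-- **`sub_mem_J0` at a level for `P00 = ⊤`.** -/
theorem levelHyp_sub_mem_range (H : LevelHyp c0 O L π τL τO K) (g : G) (x : PicX c0 L)
    (hx : x ∈ (pointClasses c0).PicPt L) :
    galPic c0 (τL g) x / x ∈ (PicX.map c0 O L).range := by
  let φ : PicX c0 L →* PicX c0 L := galPic c0 (τL g) / MonoidHom.id _
  have hφ : ∀ y, φ y = galPic c0 (τL g) y / y := fun y => rfl
  have hle : (pointClasses c0).PicPt L ≤ ((PicX.map c0 O L).range).comap φ := by
    show Subgroup.closure {x | IsPtClass c0 L x} ≤ _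
    rw [Subgroup.closure_le]
    rintro y (⟨q, h, rfl⟩ | ⟨q, h, rfl⟩)
    · rw [SetLike.mem_coe, Subgroup.mem_comap, hφ]
      have := levelHyp_ptCls_twist_div_mem_range H g (Sum.inl ⟨q, h⟩)
      have e := galPic_ptCls c0 (τL g) (Sum.inl ⟨q, h⟩ : PtIdx c0 L)
      rw [show ptClass0 c0 q h = ptCls c0 (Sum.inl ⟨q, h⟩ : PtIdx c0 L) from rfl, e]
      exact this
    · rw [SetLike.mem_coe, Subgroup.mem_comap, hφ]
      have := levelHyp_ptCls_twist_div_mem_range H g (Sum.inr ⟨q, h⟩)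
      have e := galPic_ptCls c0 (τL g) (Sum.inr ⟨q, h⟩ : PtIdx c0 L)
      rw [show ptClass1 c0 q h = ptCls c0 (Sum.inr ⟨q, h⟩ : PtIdx c0 L) from rfl, e]
      exact this
  have := hle hx
  rwa [Subgroup.mem_comap, hφ] at this

end Level

end Abstract

/-! ### On helper66's objects -/

section Local

open Fermat.Agent.TW.B5.Iface Fermat.Agent.RED.Interface4 Fermat.Agent.T1.HubInst98
open Fermat.Agent.T1.IntSub47
open Fermat.Agent.T1B.Local66.LocalBase Fermat.Agent.T1B.Local66.Union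
open Fermat.Agent.T1B.Local66.Objects
open Fermat.Agent.T1B.Plumb66.Inertia (Ip mem_Ip)
open Fermat.Agent.T1B.Bridge54.IpAction Fermat.Agent.T1B.Bridge54.IpInst
open Fermat.Agent.ES.P36.InertField27 (InertFixed)
open Fermat.Agent.T1B.Node45.LocalPhi

variable {p : ℕ} [Fact p.Prime] {K : IntermediateField ℚ Qbar}
  {B0 B1 B01 : Type} [CommRing B0] [CommRing B1] [CommRing B01]
  [Algebra (Wb p K) B0] [Algebra (Wb p K) B1] [Algebra (Wb p K) B01] [Algebra B0 B01]
  [Algebra B1 B01] [IsScalarTower (Wb p K) B0 B01] [IsScalarTower (Wb p K) B1 B01]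
  (c0 : TwoChart (Wb p K) B0 B1 B01)

/-- `sub_mem_J0` at the level `E` for `P00 = ⊤`, in `Local66` vocabulary. -/
theorem exists_bcOE_eq (hK : InertFixed (padicPlace p) K) (E : NLevel p K)
    (d : LevelData c0 hK E) (τ : ↥(Ip p)) {x : PicE c0 E} (hx : x ∈ PtFam c0 E) :
    ∃ z : PicO c0 E, bcOE c0 E z = gE c0 E hK τ x / x := by
  letI := algWO E.lev
  letI := algWE E.lev
  letI := algOE E.E
  haveI := tower_W_O_E E.lev
  haveI := isDVR_O E.E
  haveI := isFractionRing_O_E E.E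
  obtain ⟨z, hzx⟩ := levelHyp_sub_mem_range d.hyp τ x hx
  refine ⟨z, ?_⟩
  rw [← galPic_tauE]
  exact hzx

/-- **`τ • x - x ∈ JextTop`** for every class of points `x`, from the model facts of the levels
alone (no components, no multidegrees). -/
theorem sub_mem_Jext_top [Nonempty (NLevel p K)] (hK : InertFixed (padicPlace p) K)
    (D : ∀ E : NLevel p K, LevelData c0 hK E) :
    letI := actTop c0 hK
    ∀ τ : ↥(Ip p), ∀ x ∈ PtTop c0, τ • x - x ∈ JextTop c0 := by
  intro τ x hx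
  obtain ⟨E, x', hx', rfl⟩ := hx
  obtain ⟨z, hzx⟩ := exists_bcOE_eq c0 hK E (D E) τ hx'
  rw [mem_JextTop]
  refine ⟨E, z, ?_⟩
  rw [actTop_smul_ofMul, ← bcE_gE, ← bcE_bcOE, hzx, map_div]
  rfl

/-- The same in the shape of the `sub_mem_J0` binder of `Local66.Glue.localGeom_of_fields` for the
family `P00 := fun _ => ⊤`. -/
theorem sub_mem_J0_top_top [Nonempty (NLevel p K)] (hK : InertFixed (padicPlace p) K)
    (D : ∀ E : NLevel p K, LevelData c0 hK E) :
    letI := actTop c0 hK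
    ∀ τ : ↥(Ip p), ∀ x ∈ PtTop c0,
      τ • x - x ∈ J0top c0 (fun E : NLevel p K => (⊤ : Subgroup (PicO c0 E))) (compatible_top c0) :=
  sub_mem_Jext_top c0 hK D

end Local

end Fermat.Agent.T1B.Node45.SubMemExt
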